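import Fermat.Prelude.Def_GaloisRep_Adic
import Fermat.Prelude.Def_FLTPrelim_Ramification
import Fermat.Prelude.Def_EllipticCurve_FrobeniusTrace

/-!
# Theorem Z: common definitions (Selmer conditions for the residual representation at `2`)
-/

set_option autoImplicit false

namespace Fermat.Agent.ZThm

local notation "Qb" => AlgebraicClosure ℚ
local notation "GQ" => AlgebraicClosure ℚ ≃ₐ[ℚ] AlgebraicClosure ℚ

/-- The module `𝔽₂²`. -/
abbrev V2 := Fin 2 → ZMod 2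

/-- `2 × 2` matrices. -/
abbrev M2 (A : Type*) := Matrix (Fin 2) (Fin 2) A

/-- A map on the absolute Galois group of `ℚ` is smooth if it vanishes on the elements fixing some
finite extension. -/
def IsSmooth {X : Type*} [Zero X] (f : GQ → X) : Prop :=
  ∃ L : IntermediateField ℚ Qb, FiniteDimensional ℚ L ∧ ∀ σ : GQ, (∀ x ∈ L, σ x = x) → f σ = 0

/-- Cocycles with values in `𝔽₂²`. -/
def IsCoc (rb : GQ →* M2 (ZMod 2)) (ξ : GQ → V2) : Prop :=
  (∀ g h, ξ (g * h) = ξ g + (rb g).mulVec (ξ h)) ∧ IsSmooth ξ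

/-- The local condition at a decomposition group: cohomologous to a cocycle with values in the
invariants. -/
def IsLocSel (rb : GQ →* M2 (ZMod 2)) (D : Subgroup GQ) (ξ : GQ → V2) : Prop :=
  ∃ m : V2, ∀ s ∈ D, ∀ t ∈ D,
    (rb t).mulVec (ξ s + ((rb s).mulVec m - m)) = ξ s + ((rb s).mulVec m - m)

/-- Selmer cocycles. -/
def IsSel (rb : GQ →* M2 (ZMod 2)) (N : ℕ) (Q : Finset ℕ) (ξ : GQ → V2) : Prop :=
  IsCoc rb ξ ∧
  (∀ ℓ : ℕ, ℓ.Prime → ¬ ℓ ∣ N → ℓ ∉ Q → ∀ A : ValuationSubring Qb, A.LiesOverPrime ℓ →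
    ∀ s ∈ A.inertiaSubgroupIn ℚ, ξ s = 0) ∧
  (∀ v : ℕ, v.Prime → (v ∣ N ∨ v ∈ Q) → ∀ A : ValuationSubring Qb, A.LiesOverPrime v →
    IsLocSel rb (A.decompositionSubgroup ℚ) ξ)

/-- The Selmer group is zero. -/
def SelZero (rb : GQ →* M2 (ZMod 2)) (N : ℕ) (Q : Finset ℕ) : Prop :=
  ∀ ξ, IsSel rb N Q ξ → ∃ m : V2, ∀ s, ξ s = (rb s).mulVec m - m

end Fermat.Agent.ZThm
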