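import Mathlib.NumberTheory.Padics.PadicIntegers
import Fermat.Agent.ZThm.Defs
import Fermat.Prelude.Def_ModularCurve_HeckeModule

/-!
# Theorem Z: interfaces
-/

set_option autoImplicit false

namespace Fermat.Agent.ZThm

open Matrix ModularCurve

local notation "Qb" => AlgebraicClosure ℚ
local notation "GQ" => AlgebraicClosure ℚ ≃ₐ[ℚ] AlgebraicClosure ℚ

/-- What has to be known about the elliptic curve. -/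
structure EDat (RE : GQ →* Matrix (Fin 2) (Fin 2) ℤ_[2]) (a : ℕ → ℤ) (N : ℕ) : Prop where
  two : 2 ∣ N
  smooth : ∀ K : ℕ, ∃ L : IntermediateField ℚ Qb, FiniteDimensional ℚ L ∧
    ∀ σ : GQ, (∀ x ∈ L, σ x = x) →
      ∃ Y : Matrix (Fin 2) (Fin 2) ℤ_[2], RE σ - 1 = (2 : ℤ_[2]) ^ K • Y
  tr : ∀ ℓ : ℕ, ℓ.Prime → ¬ ℓ ∣ N → ∀ A : ValuationSubring Qb, A.LiesOverPrime ℓ →
    ∀ Φ : GQ, A.IsFrobeniusAt Φ ℓ → (RE Φ).trace = (a ℓ : ℤ_[2])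
  det : ∀ ℓ : ℕ, ℓ.Prime → ℓ ≠ 2 → ∀ A : ValuationSubring Qb, A.LiesOverPrime ℓ →
    ∀ Φ : GQ, A.IsFrobeniusAt Φ ℓ → (RE Φ).det = (ℓ : ℤ_[2])
  unram : ∀ ℓ : ℕ, ℓ.Prime → ¬ ℓ ∣ N → ∀ A : ValuationSubring Qb, A.LiesOverPrime ℓ →
    ∀ s ∈ A.inertiaSubgroupIn ℚ, RE s = 1

/-- The level lowering statement at a split prime (Mazur's principle for `2`-power torsion). -/
def MZLower : Prop :=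
  ∀ (M₀ q : ℕ) [NeZero M₀] [NeZero (M₀ * q)], Squarefree M₀ → 2 ∣ M₀ → ∀ (_ : q.Prime), q % 4 = 1 →
    ¬ q ∣ M₀ → ∀ D : ℕ, D ≠ 0 → M₀ * q ∣ D → ∀ (a : ℕ → ℤ) (b : ℕ) (P : AddSubgroup (JZero (M₀ * q))),
    (∀ x ∈ P, 2 ^ b • x = 0) → (∀ g : GQ, ∀ x ∈ P, g • x ∈ P) →
    (∀ (ℓ : ℕ) (hℓ : ℓ.Prime), ¬ ℓ ∣ D → ∀ x ∈ P, heckeOperatorBar (M₀ * q) ⟨ℓ, hℓ⟩ x = a ℓ • x) →
    (∃ ℓ : ℕ, ℓ.Prime ∧ ¬ ℓ ∣ D ∧ Odd (a ℓ)) →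
    ∀ A : ValuationSubring Qb, A.LiesOverPrime q →
    (∀ s ∈ A.inertiaSubgroupIn ℚ, ∀ x ∈ P, s • x = x) →
    ∀ Φ : GQ, A.IsFrobeniusAt Φ q → ∀ y ∈ P, ∀ c : ℕ, 1 ≤ c →
    2 ^ (c - 1) • (Φ • Φ • y - q ^ 2 • y) ≠ 0 →
    ∃ z : JZero M₀, 2 ^ c • z = 0 ∧ 2 ^ (c - 1) • z ≠ 0 ∧
      ∀ (ℓ : ℕ) (hℓ : ℓ.Prime), ¬ ℓ ∣ D → heckeOperatorBar M₀ ⟨ℓ, hℓ⟩ z = a ℓ • z

end Fermat.Agent.ZThm
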