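import Fermat.Agent.ZEC.Ell
import Fermat.Agent.ZThm.EDat

/-!
# Theorem Z: the data of the elliptic curve and the main statement
-/

set_option autoImplicit false

namespace Fermat.Agent.ZThm

open WeierstrassCurve Fermat.Agent.ERep Fermat.Agent.QuadRep

local notation "Qb" => AlgebraicClosure ℚ
local notation "GQ" => AlgebraicClosure ℚ ≃ₐ[ℚ] AlgebraicClosure ℚ

section

variable (E : WeierstrassCurve ℚ) [E.IsElliptic] {W : WeierstrassCurve ℤ}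
  (hWE : W.IsIntegralModelOf E)
  (hodd : ∀ l : ℕ, l.Prime → (l : ℤ) ∣ W.Δ → Odd (padicValInt l W.Δ)) (h2 : (2 : ℤ) ∣ W.Δ)

include hWE hodd h2

/-- The `2`-adic representation is not scalar. -/
theorem nonScalar_two : NonScalar E 2 := by
  obtain ⟨A, hA⟩ := Frob.exists_liesOverPrime Qb Nat.prime_two
  obtain ⟨s, -, -, -, hs⟩ := ZEC.exists_inertia_rbE E hWE Nat.prime_two hA
    (hodd 2 Nat.prime_two (by exact_mod_cast h2))
  exact ZEC.nonScalar_of_rbE E hs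

/-- The data of the elliptic curve. -/
theorem eDat {N : ℕ} (hN : ∀ l : ℕ, l.Prime → (l ∣ N ↔ (l : ℤ) ∣ W.Δ)) :
    EDat (ZEC.REm E) W.apOfModel N where
  two := (hN 2 Nat.prime_two).2 (by exact_mod_cast h2)
  smooth := ZEC.REm_smooth E
  tr := by
    intro ℓ hℓ hℓN A hA Φ hΦ
    have hℓ2 : ℓ ≠ 2 := by
      rintro rfl
      exact hℓN ((hN 2 Nat.prime_two).2 (by exact_mod_cast h2))
    rw [ZEC.REm_trace]
    exact trE_frob E 2 hWE (nonScalar_two E hWE hodd h2) hℓ hA hℓ2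
      (fun h => hℓN ((hN ℓ hℓ).2 h)) hΦ
  det := by
    intro ℓ hℓ hℓ2 A hA Φ hΦ
    rw [ZEC.REm_det E hWE (nonScalar_two E hWE hodd h2)]
    exact cyc_frobenius (p_mem 2) hℓ hℓ2 hA hΦ
  unram := by
    intro ℓ hℓ hℓN A hA s hs
    have hℓ2 : ℓ ≠ 2 := by
      rintro rfl
      exact hℓN ((hN 2 Nat.prime_two).2 (by exact_mod_cast h2))
    exact ZEC.REm_inertia_good E hWE hℓ hℓ2 (fun h => hℓN ((hN ℓ hℓ).2 h)) hA hs

end

/-- The main statement of Theorem Z, for the auxiliary curves of `ZCurve`. -/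
def MainZ : Prop :=
  ∀ (E : WeierstrassCurve ℚ) [E.IsElliptic] (W : WeierstrassCurve ℤ), W.IsIntegralModelOf E →
    (∀ l : ℕ, l.Prime → (l : ℤ) ∣ W.Δ → ¬ (l : ℤ) ∣ W.c₄) → W.Δ < 0 → (2 : ℤ) ∣ W.Δ →
    (∀ l : ℕ, l.Prime → (l : ℤ) ∣ W.Δ → Odd (padicValInt l W.Δ)) →
    (∀ x : ℚ, 4 * x ^ 3 + (W.b₂ : ℚ) * x ^ 2 + 2 * (W.b₄ : ℚ) * x + (W.b₆ : ℚ) ≠ 0) →
    (∃ l : ℕ, l.Prime ∧ l ≠ 2 ∧ (l : ℤ) ∣ W.Δ) →
    (∃ l : ℕ, l.Prime ∧ Odd l ∧ W.IsGoodPrimeFor l ∧ Odd (W.apOfModel l)) →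
    ∀ N : ℕ, Squarefree N → (∀ l : ℕ, l.Prime → (l ∣ N ↔ (l : ℤ) ∣ W.Δ)) →
      W.IsModularModelOfLevel N

end Fermat.Agent.ZThm
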