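import Fermat.Agent.ZThm.LatJ2

/-!
# Theorem Z: points of large exact order
-/

set_option autoImplicit false
set_option linter.unusedSectionVars false

namespace Fermat.Agent.ZThm

open Matrix ModularCurve ModularCurve.Period CongruenceSubgroup AlgebraicCurve
open Fermat.Agent.HeckeHom Fermat.Agent.HGModule Fermat.Agent.TorsCmp Fermat.Agent.GalJ
open Fermat.Agent.Tate Fermat.Agent.ZAL Fermat.Agent.Degen

local notation "Qb" => AlgebraicClosure ℚ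
local notation "GQ" => AlgebraicClosure ℚ ≃ₐ[ℚ] AlgebraicClosure ℚ

attribute [local instance] algZ

variable {M N : ℕ} [NeZero M] {t : ℕ → ZMod 2} {c : ℕ} {Λ : Submodule ℤ_[2] (Lm M)}
  {RE : GQ →* M2 ℤ_[2]} {a : ℕ → ℤ} {rb : GQ →* M2 (ZMod 2)}

theorem exDiv_of_squarefree (hsq : Squarefree M) {v : ℕ} (hv : v.Prime) (hvM : v ∣ M) :
    ExDiv v M := by
  refine ⟨hvM, ?_⟩
  rw [Nat.Prime.coprime_iff_not_dvd hv]
  rintro ⟨d, hd⟩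
  have h1 : M = v * (v * d) := by rw [← hd]; exact (Nat.mul_div_cancel' hvM).symm
  have h2 : v * v ∣ M := ⟨d, by rw [h1]; ring⟩
  exact hv.one_lt.ne' (Nat.isUnit_iff.1 (hsq v h2))

/-- All local data. -/
theorem exists_lloc (hE : EDat RE a N) (hB : EBad RE rb N)
    (hsq : Squarefree M) (hNM : N ∣ M) (Q : Finset ℕ)
    (hMQ : ∀ ℓ : ℕ, ℓ.Prime → ℓ ∣ M → ℓ ∣ N ∨ ℓ ∈ Q) (hQM : ∀ q ∈ Q, q.Prime ∧ q ∣ M ∧ ¬ q ∣ N)
    {k : ℕ} (hQ : ∀ q ∈ Q, EAux RE rb k q) (hΛ : ZLat M N t c Λ)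
    (ht : ∀ l, l.Prime → ¬ l ∣ M → t l = (a l : ZMod 2))
    {v : ℕ} (hv : v.Prime) (hvM : v ∣ M) {B : ValuationSubring Qb} (hBv : B.LiesOverPrime v) :
    ∃ Φ z K, LLoc (rhoL hΛ) RE rb k (B.decompositionSubgroup ℚ) (B.inertiaSubgroupIn ℚ) Φ
      (-wΛ hΛ hv (exDiv_of_squarefree hsq hv hvM)) z K := by
  obtain ⟨Φ, hΦ⟩ := Frob.exists_isFrobeniusAt hv hBv
  have hex := exDiv_of_squarefree hsq hv hvM
  obtain ⟨m, hm⟩ : ∃ m, M = m * v := ⟨M / v, (Nat.div_mul_cancel hvM).symm⟩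
  have hm0 : NeZero m := ⟨by rintro rfl; rw [zero_mul] at hm; exact NeZero.ne M hm⟩
  by_cases hvN : v ∣ N
  · obtain ⟨s₀, hs₀, hs₀1⟩ := hB.s0 v hv hvN B hBv
    obtain ⟨z, hz, hell⟩ := hB.ell v hv hvN B hBv Φ hΦ.mem_decompositionSubgroup
    by_cases hv2 : v = 2
    · subst hv2
      obtain ⟨K, hK⟩ := lloc_two hE hB hNM hΛ ht k hm hex hBv hΦ z hz ⟨s₀, hs₀, hs₀1⟩ (hell k)
      exact ⟨Φ, z, K, hK⟩
    · exact ⟨Φ, z, _, lloc_odd hE hB hNM hΛ ht k hm.symm hv hv2 hex hBv hΦ _ rfl z hz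
        ⟨s₀, SEL.mem_decomposition_of_mem_inertia hs₀, hs₀1, Or.inl hs₀⟩ (hell k)⟩
  · have hvQ : v ∈ Q := (hMQ v hv hvM).resolve_left hvN
    have hv2 : v ≠ 2 := fun h => hvN (h ▸ hE.two)
    obtain ⟨h1, h2⟩ := hQ v hvQ B hBv Φ hΦ
    refine ⟨Φ, 1, _, lloc_odd hE hB hNM hΛ ht k hm.symm hv hv2 hex hBv hΦ _ rfl 1 (one_mul 1)
      ⟨Φ, hΦ.mem_decompositionSubgroup, h1, Or.inr ⟨rfl, ?_, rfl⟩⟩ h2⟩
    refine LinearMap.ext fun x => toL_inj ?_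
    have h3 := hΛ.sign v hv hex hvN _ (toL_mem x)
    rw [LinearMap.neg_apply, map_neg, coe_wΛ, h3, neg_neg]
    rfl

/-- The hypotheses of Step 4. -/
theorem exists_lat (hE : EDat RE a N) (hB : EBad RE rb N)
    (hsq : Squarefree M) (hNM : N ∣ M) (Q : Finset ℕ)
    (hMQ : ∀ ℓ : ℕ, ℓ.Prime → ℓ ∣ M → ℓ ∣ N ∨ ℓ ∈ Q) (hQM : ∀ q ∈ Q, q.Prime ∧ q ∣ M ∧ ¬ q ∣ N)
    {k : ℕ} (hQ : ∀ q ∈ Q, EAux RE rb k q) (hΛ : ZLat M N t c Λ)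
    (ht : ∀ l, l.Prime → ¬ l ∣ M → t l = (a l : ZMod 2)) : Lat (rhoL hΛ) RE rb N Q k where
  comm := rhoL_comm hE hNM hΛ
  red := hB.red
  nil := rhoL_nil hE hNM hΛ ht
  smooth := rhoL_smooth hE hΛ
  unram := by
    intro ℓ hℓ hℓN hℓQ B hBℓ s hs
    have hℓM : ¬ ℓ ∣ M := fun h => (hMQ ℓ hℓ h).elim hℓN hℓQ
    have hℓ2 : ℓ ≠ 2 := fun h => hℓN (h ▸ hE.two)
    refine ⟨LinearMap.ext fun x => toL_inj ?_, hE.unram ℓ hℓ hℓN B hBℓ s hs⟩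
    rw [coe_rhoL, gal_unram hℓ hℓM hℓ2 hBℓ hs]
    rfl
  loc := by
    intro v hv hvNQ B hBv
    have hvM : v ∣ M := hvNQ.elim (fun h => h.trans hNM) fun h => (hQM v h).2.1
    obtain ⟨Φ, z, K, h⟩ := exists_lloc hE hB hsq hNM Q hMQ hQM hQ hΛ ht hv hvM hBv
    exact ⟨Φ, _, z, K, h⟩

theorem exists_point (hE : EDat RE a N) (hB : EBad RE rb N)
    (hsq : Squarefree M) (hNM : N ∣ M) (Q : Finset ℕ)
    (hMQ : ∀ ℓ : ℕ, ℓ.Prime → ℓ ∣ M → ℓ ∣ N ∨ ℓ ∈ Q) (hQM : ∀ q ∈ Q, q.Prime ∧ q ∣ M ∧ ¬ q ∣ N)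
    {k : ℕ} (hQ : ∀ q ∈ Q, EAux RE rb k q) (hsel : SelZero rb N Q) (hV : CFBound rb hB.rdet c)
    (ht : ∀ l, l.Prime → ¬ l ∣ M → t l = (a l : ZMod 2)) (hΛ : ZLat M N t c Λ)
    (b : ℕ) (hb : b * (2 * c) < k) :
    ∃ x : JZero M, 2 ^ (b + 1) • x = 0 ∧ 2 ^ b • x ≠ 0 ∧
      ∀ (ℓ : ℕ) (hℓ : ℓ.Prime), ¬ ℓ ∣ M → heckeOperatorBar M ⟨ℓ, hℓ⟩ x = a ℓ • x := by
  obtain ⟨g₁, g₂, hg₁, hg₂⟩ := hB.gens
  have hk : k ≠ 0 := by omega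
  have hL := exists_lat hE hB hsq hNM Q hMQ hQM hQ hΛ ht
  have hTA := finrank_TA_le hL hk hsel hB.rdet g₁ g₂ hg₁ hg₂ c hV
  -- the rank
  have hA : Module.finrank ℤ_[2] (LT Λ) ≤ 2 * Module.finrank ℤ_[2] (TA (rhoL hΛ) (detM RE)) := by
    refine hΛ.rank_le (TA (rhoL hΛ) (detM RE)) ?_ ?_
    · intro l hl hlM
      have hl2 : l ≠ 2 := fun h => hlM (h ▸ hE.two.trans hNM)
      obtain ⟨A, hA⟩ := Frob.exists_liesOverPrime Qb hl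
      obtain ⟨Φ, hΦ⟩ := Frob.exists_isFrobeniusAt hl hA
      have h1 : hΛT hΛ hl hlM = tOp (rhoL hΛ) (detM RE) Φ := by
        refine LinearMap.ext fun x => toL_inj ?_
        rw [coe_tOp, tLm_apply, hE.det l hl hl2 A hA Φ hΦ]
        exact gal_frob hl hlM hl2 hA hΦ (toL Λ x)
      have h2 : hΛT hΛ hl hlM ∈ TA (rhoL hΛ) (detM RE) := by
        rw [h1]
        exact Algebra.subset_adjoin ⟨Φ, rfl⟩
      exact h2
    · intro q hq hex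
      obtain ⟨B, hBq⟩ := Frob.exists_liesOverPrime Qb hq
      obtain ⟨Φ, z, K, h⟩ := exists_lloc hE hB hsq hNM Q hMQ hQM hQ hΛ ht hq hex.dvd hBq
      have h1 := mem_TA hL.comm hk hL.red hL.nil hB.rdet g₁ g₂ hg₁ hg₂ h
      have h2 : wΛ hΛ hq hex ∈ TA (rhoL hΛ) (detM RE) := by
        have h3 := neg_mem h1
        rwa [neg_neg] at h3
      exact h2
  have hr : 2 * c ≤ Module.finrank ℤ_[2] (LT Λ) := hΛ.rank
  have hc : c ≤ Module.finrank ℤ_[2] (TA (rhoL hΛ) (detM RE)) := by omega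
  have hb' : b * Module.finrank ℤ_[2] (LT Λ) < k :=
    lt_of_le_of_lt (Nat.mul_le_mul_left b (hA.trans (Nat.mul_le_mul_left 2 hTA))) hb
  obtain ⟨x, hx, hx2⟩ := step4 hL hsel hB.rdet g₁ g₂ hg₁ hg₂ c hV hc b hb'
  have htors : 2 ^ (b + 1) • pjn M (b + 1) (toL Λ x) = 0 := pjn_tors (b + 1) _
  refine ⟨pjn M (b + 1) (toL Λ x), htors, ?_, ?_⟩
  · intro h0
    apply hx
    have h1 : 2 ^ b • pjn M (1 + b) (toL Λ x) = pjn M 1 (toL Λ x) :=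
      pow_smul_pr _ _ (comparisonJ_mem_iff M 2) 1 b (toL Λ x)
    rw [add_comm 1 b, h0] at h1
    obtain ⟨y, hy⟩ := exists_eq_smul_of_pr_eq_zero (comparisonJ M 2)
      (parabolicHoms ℤ_[2] (Gamma0 M) ℤ_[2]) (comparisonJ_mem_iff M 2)
      (fun ψ hψ => TateInput.saturated ψ hψ) 1 (toL Λ x) (Subtype.ext h1.symm)
    rw [pow_one] at hy
    have hyΛ : y ∈ Λ := by
      apply hΛ.sat
      have : (2 : ℤ_[2]) • y = toL Λ x := hy.symm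
      rw [this]
      exact toL_mem x
    exact ⟨mkL y hyΛ, toL_inj hy⟩
  · have hrel : QRel RE (b + 1) (pjn M (b + 1) (toL Λ x)) := by
      intro g
      obtain ⟨y, hy⟩ := hx2 g
      have h1 := congrArg (toL Λ) hy
      rw [map_sub, map_smul, map_smul, coe_tOp, tLm_apply] at h1
      have h2 : galLm M g (toL Λ x) + (RE g).det • galLm M g⁻¹ (toL Λ x) =
          (RE g).trace • toL Λ x + (2 : ℤ_[2]) ^ (b + 1) • toL Λ y := by rw [← h1]; abel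
      have h3 := congrArg (pjn M (b + 1)) h2
      rw [map_add, map_add, pjn_smul, pjn_smul, pjn_smul, pjn_galLm, pjn_galLm] at h3
      rw [h3, map_pow, map_ofNat]
      have : (2 : ZMod (2 ^ (b + 1))) ^ (b + 1) = 0 := by
        have := ZMod.natCast_self (2 ^ (b + 1))
        exact_mod_cast this
      rw [this, ZMod.val_zero, zero_nsmul, add_zero]
    intro ℓ hℓ hℓM
    exact hecke_of_rel hE hNM htors hrel hℓ hℓM

end Fermat.Agent.ZThm
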