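import Fermat.Agent.ZThm.Dihedral
import Mathlib.GroupTheory.Index
import Mathlib.Algebra.CharP.Frobenius

/-!
# Theorem Z, step 2: counting dihedral deformations
-/

set_option autoImplicit false

namespace Fermat.Agent.ZThm

open Matrix

local notation "Qb" => AlgebraicClosure ℚ
local notation "GQ" => AlgebraicClosure ℚ ≃ₐ[ℚ] AlgebraicClosure ℚ

/-- the subgroup of elements acting as even permutations -/
def evenSub (rb : GQ →* M2 (ZMod 2)) (hdet : ∀ g, (rb g).det = 1) : Subgroup GQ where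
  carrier := {g | eM (rb g) = 0}
  mul_mem' := by
    intro a b ha hb
    change eM (rb (a * b)) = 0
    rw [map_mul, eM_mul _ _ (hdet a) (hdet b)]
    have h1 : eM (rb a) = 0 := ha
    have h2 : eM (rb b) = 0 := hb
    rw [h1, h2, add_zero]
  one_mem' := by
    change eM (rb 1) = 0
    rw [map_one, eM_one]
  inv_mem' := by
    intro a ha
    have h1 : eM (rb a) = 0 := ha
    change eM (rb a⁻¹) = 0
    have h2 := eM_mul (rb a) (rb a⁻¹) (hdet a) (hdet a⁻¹)
    rw [← map_mul, mul_inv_cancel, map_one, eM_one, h1, zero_add] at h2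
    exact h2.symm

theorem mem_evenSub {rb : GQ →* M2 (ZMod 2)} {hdet : ∀ g, (rb g).det = 1} {g : GQ} :
    g ∈ evenSub rb hdet ↔ eM (rb g) = 0 := Iff.rfl

section

variable {A : Type*} [CommRing A] [Algebra (ZMod 2) A] [Finite A] {π : A →+* ZMod 2}
  {rb : GQ →* M2 (ZMod 2)} {N : ℕ} {Q : Finset ℕ} {ρ : GQ →* M2 A} {T : M2 A}

omit [Finite A] in
theorem T_sq (hG : Good π rb ρ T) : T * T = T + 1 := by
  have h1 := hG.1
  calc T * T = (T * T + T + 1) + (T + 1) := by
        have e1 : (T * T + T + 1) + (T + 1) = T * T + (T + T) + (1 + 1) := by abel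
        rw [e1, add_self_M, add_self_M, add_zero, add_zero]
    _ = T + 1 := by rw [h1, zero_add]

omit [Finite A] in
theorem T_cube (hG : Good π rb ρ T) : T * T * T = 1 := by
  rw [T_sq hG, add_mul, one_mul, T_sq hG]
  have : T + 1 + T = (T + T) + 1 := by abel
  rw [this, add_self_M, zero_add]

omit [Algebra (ZMod 2) A] [Finite A] in
theorem comm_T (hnil : ∀ a, π a = 0 → IsNilpotent a) (hTπ : T.map π = S0) {M : M2 A}
    (h : M * T = T * M) : ∃ a b : A, M = Matrix.scalar (Fin 2) a + b • T := by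
  have hu : IsUnit (T 0 1) := by
    refine det_map_ne (π := π) ?_ hnil
    have := congrFun (congrFun hTπ 0) 1
    exact this
  obtain ⟨u, hu⟩ := hu
  have hu1 : T 0 1 * (↑u⁻¹ : A) = 1 := by rw [← hu]; exact u.mul_inv
  have h00 : M 0 0 * T 0 0 + M 0 1 * T 1 0 = T 0 0 * M 0 0 + T 0 1 * M 1 0 := by
    have := congrFun (congrFun h 0) 0
    simpa [Matrix.mul_apply, Fin.sum_univ_two] using this
  have h01 : M 0 0 * T 0 1 + M 0 1 * T 1 1 = T 0 0 * M 0 1 + T 0 1 * M 1 1 := by
    have := congrFun (congrFun h 0) 1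
    simpa [Matrix.mul_apply, Fin.sum_univ_two] using this
  refine ⟨M 0 0 - M 0 1 * (↑u⁻¹ : A) * T 0 0, M 0 1 * (↑u⁻¹ : A), ?_⟩
  ext i j
  fin_cases i <;> fin_cases j <;>
    simp only [Fin.zero_eta, Fin.mk_one, Matrix.add_apply, Matrix.smul_apply, smul_eq_mul,
      Matrix.scalar_apply, Matrix.diagonal_apply_eq, Matrix.diagonal_apply_ne _ zero_ne_one,
      Matrix.diagonal_apply_ne _ one_ne_zero]
  · ring
  · linear_combination (-M 0 1) * hu1
  · linear_combination (-(↑u⁻¹ : A)) * h00 + (-M 1 0) * hu1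
  · linear_combination (-(↑u⁻¹ : A)) * h01 + (M 0 0 - M 1 1) * hu1

omit [Algebra (ZMod 2) A] [Finite A] in
theorem comm_of_comm (hnil : ∀ a, π a = 0 → IsNilpotent a) (hTπ : T.map π = S0) {M M' : M2 A}
    (h : M * T = T * M) (h' : M' * T = T * M') : M * M' = M' * M := by
  obtain ⟨a, b, rfl⟩ := comm_T hnil hTπ h
  rw [mul_add, add_mul, ← scalar_comm a M', Matrix.smul_mul, Matrix.mul_smul, h']

/-- large powers of `4` kill the nilpotent part -/
theorem exists_pow_four (hnil : ∀ a, π a = 0 → IsNilpotent a) :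
    ∃ k : ℕ, ∀ a : A, a ^ (4 ^ k) = algebraMap (ZMod 2) A (π a) := by
  have hnt : Nontrivial A := ⟨0, 1, fun h => zero_ne_one (α := ZMod 2) (by
    rw [← map_zero π, ← map_one π, h])⟩
  have hchar : CharP A 2 := charP_of_injective_algebraMap (algebraMap (ZMod 2) A).injective 2
  have hI : IsNilpotent (RingHom.ker π) := by
    have hfg : (RingHom.ker π).FG := IsNoetherian.noetherian _
    rw [Ideal.FG.isNilpotent_iff_le_nilradical hfg]
    intro a ha
    exact hnil a ha
  obtain ⟨K, hK⟩ := hI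
  have hpow : ∀ n : A, π n = 0 → n ^ K = 0 := by
    intro n hn
    have h1 : n ^ K ∈ (RingHom.ker π) ^ K := Ideal.pow_mem_pow hn K
    rw [hK] at h1
    exact h1
  refine ⟨K, fun a => ?_⟩
  have hsurj : ∀ y : ZMod 2, π (algebraMap (ZMod 2) A y) = y := by
    intro y
    have : (π.comp (algebraMap (ZMod 2) A)) = RingHom.id (ZMod 2) := Subsingleton.elim _ _
    exact congrArg (fun f : ZMod 2 →+* ZMod 2 => f y) this
  set c := algebraMap (ZMod 2) A (π a) with hc
  have h1 : π (a - c) = 0 := by rw [map_sub, hc, hsurj, sub_self]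
  have h2 : (4 : ℕ) ^ K = 2 ^ (2 * K) := by rw [pow_mul]; norm_num
  have h3 : a = c + (a - c) := by abel
  have h4 : (a - c) ^ (4 ^ K) = 0 := by
    have hle : K ≤ 4 ^ K := (Nat.lt_pow_self (by norm_num)).le
    obtain ⟨j, hj⟩ := Nat.exists_eq_add_of_le hle
    rw [hj, pow_add, hpow _ h1, zero_mul]
  have h5 : c ^ (4 ^ K) = c := by
    rw [hc, ← map_pow]
    congr 1
    have h6 : (4 : ℕ) ^ K ≠ 0 := by positivity
    generalize (4 : ℕ) ^ K = m at h6
    have : ∀ x : ZMod 2, x = 0 ∨ x = 1 := by decide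
    rcases this (π a) with h | h <;> rw [h]
    · exact zero_pow h6
    · exact one_pow _
  calc a ^ (4 ^ K) = (c + (a - c)) ^ (2 ^ (2 * K)) := by rw [← h2, ← h3]
    _ = c ^ (2 ^ (2 * K)) + (a - c) ^ (2 ^ (2 * K)) := add_pow_char_pow c (a - c) 2 (2 * K)
    _ = c := by rw [← h2, h4, h5, add_zero]

omit [Finite A] in
theorem form_sq (hG : Good π rb ρ T) (a b : A) :
    (Matrix.scalar (Fin 2) a + b • T) * (Matrix.scalar (Fin 2) a + b • T) =
      Matrix.scalar (Fin 2) (a ^ 2 + b ^ 2) + (b ^ 2) • T := by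
  have e1 : (Matrix.scalar (Fin 2) a + b • T) * (Matrix.scalar (Fin 2) a + b • T) =
      Matrix.scalar (Fin 2) (a ^ 2) + (b • (Matrix.scalar (Fin 2) a * T) +
        b • (Matrix.scalar (Fin 2) a * T)) + (b ^ 2) • (T * T) := by
    rw [pow_two a, pow_two b, map_mul, add_mul, mul_add, mul_add, Matrix.mul_smul,
      Matrix.smul_mul, Matrix.smul_mul, Matrix.mul_smul, ← scalar_comm a T, smul_smul]
    abel
  rw [e1, add_self_M, add_zero, T_sq hG, map_add, smul_add]
  have e2 : (b ^ 2) • (1 : M2 A) = Matrix.scalar (Fin 2) (b ^ 2) := by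
    ext i j
    fin_cases i <;> fin_cases j <;> simp
  rw [e2]
  abel

omit [Finite A] in
theorem form_four (hG : Good π rb ρ T) (a b : A) :
    (Matrix.scalar (Fin 2) a + b • T) ^ 4 = Matrix.scalar (Fin 2) (a ^ 4) + (b ^ 4) • T := by
  have h2 : (2 : A) = 0 := two_eq_zero'
  have e1 : (Matrix.scalar (Fin 2) a + b • T) ^ 4 =
      ((Matrix.scalar (Fin 2) a + b • T) * (Matrix.scalar (Fin 2) a + b • T)) *
      ((Matrix.scalar (Fin 2) a + b • T) * (Matrix.scalar (Fin 2) a + b • T)) := by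
    rw [← pow_two, ← pow_two, ← pow_mul]
  rw [e1, form_sq hG, form_sq hG]
  congr 2
  · linear_combination (a ^ 2 * b ^ 2 + b ^ 4) * h2
  · ring

omit [Finite A] in
theorem form_four_pow (hG : Good π rb ρ T) (a b : A) (k : ℕ) :
    (Matrix.scalar (Fin 2) a + b • T) ^ (4 ^ k) =
      Matrix.scalar (Fin 2) (a ^ (4 ^ k)) + (b ^ (4 ^ k)) • T := by
  induction k with
  | zero => simp
  | succ k ih => rw [pow_succ, pow_mul, ih, form_four hG, ← pow_mul, ← pow_mul]

/-- the powers of `T` -/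
def IsTp (T M : M2 A) : Prop := M = 1 ∨ M = T ∨ M = T * T

omit [Algebra (ZMod 2) A] [Finite A] in
theorem isTp_mul (hT3 : T * T * T = 1) {M M' : M2 A} (h : IsTp T M) (h' : IsTp T M') :
    IsTp T (M * M') := by
  rcases h with rfl | rfl | rfl <;> rcases h' with rfl | rfl | rfl
  · left; rw [mul_one]
  · right; left; rw [one_mul]
  · right; right; rw [one_mul]
  · right; left; rw [mul_one]
  · right; right; rfl
  · left; rw [← mul_assoc]; exact hT3
  · right; right; rw [mul_one]
  · left; exact hT3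
  · right; left; rw [← mul_assoc, hT3, one_mul]

omit [Algebra (ZMod 2) A] [Finite A] in
theorem isTp_inv (hT3 : T * T * T = 1) {M M' : M2 A} (h : IsTp T M) (hM : M * M' = 1) :
    IsTp T M' := by
  rcases h with h | h | h
  · left; rwa [h, one_mul] at hM
  · right; right
    rw [h] at hM
    calc M' = (T * T * T) * M' := by rw [hT3, one_mul]
      _ = T * T * (T * M') := by simp only [mul_assoc]
      _ = T * T := by rw [hM, mul_one]
  · right; left
    rw [h] at hM
    calc M' = (T * T * T) * M' := by rw [hT3, one_mul]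
      _ = T * (T * T * M') := by simp only [mul_assoc]
      _ = T := by rw [hM, mul_one]

/-- the subgroup `V` -/
def Vsub (hG : Good π rb ρ T) (hdet : ∀ g, (rb g).det = 1) : Subgroup GQ where
  carrier := {g | eM (rb g) = 0 ∧ IsTp T (ρ g)}
  mul_mem' := by
    intro a b ha hb
    refine ⟨(evenSub rb hdet).mul_mem ha.1 hb.1, ?_⟩
    rw [map_mul]
    exact isTp_mul (T_cube hG) ha.2 hb.2
  one_mem' := ⟨(evenSub rb hdet).one_mem, Or.inl (map_one ρ)⟩
  inv_mem' := by
    intro a ha
    refine ⟨(evenSub rb hdet).inv_mem ha.1, isTp_inv (T_cube hG) ha.2 ?_⟩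
    rw [← map_mul, mul_inv_cancel, map_one]

omit [Finite A] in
theorem mem_Vsub {hG : Good π rb ρ T} {hdet : ∀ g, (rb g).det = 1} {g : GQ} :
    g ∈ Vsub hG hdet ↔ eM (rb g) = 0 ∧ IsTp T (ρ g) := Iff.rfl

omit [Finite A] in
theorem Vsub_le {hG : Good π rb ρ T} {hdet : ∀ g, (rb g).det = 1} :
    Vsub hG hdet ≤ evenSub rb hdet := fun _ h => h.1

omit [Finite A] in
theorem comm_even (hG : Good π rb ρ T) {g : GQ} (hg : eM (rb g) = 0) : ρ g * T = T * ρ g := by
  rw [hG.2.2 g, eA, hg, map_zero, map_zero, add_zero]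

omit [Finite A] in
theorem comm_even' (h : Hyp π rb N Q ρ) (hG : Good π rb ρ T) {g k : GQ} (hg : eM (rb g) = 0)
    (hk : eM (rb k) = 0) : ρ g * ρ k = ρ k * ρ g :=
  comm_of_comm h.nil hG.2.1 (comm_even hG hg) (comm_even hG hk)

theorem even_cases : ∀ m : M2 (ZMod 2), m.det = 1 → eM m = 0 → m = 1 ∨ m = S0 ∨ m = S0 * S0 := by
  decide +kernel

theorem form_nonzero : ∀ a b : ZMod 2, (Matrix.scalar (Fin 2) a + b • S0).det = 1 →
    (a = 1 ∧ b = 0) ∨ (a = 0 ∧ b = 1) ∨ (a = 1 ∧ b = 1) := by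
  decide +kernel

omit [Algebra (ZMod 2) A] [Finite A] in
theorem map_form (hTπ : T.map π = S0) (a b : A) :
    (Matrix.scalar (Fin 2) a + b • T).map π = Matrix.scalar (Fin 2) (π a) + π b • S0 := by
  rw [← hTπ]
  ext i j
  fin_cases i <;> fin_cases j <;> simp

/-- large powers land in the powers of `T` -/
theorem exists_pow_isTp (h : Hyp π rb N Q ρ) (hG : Good π rb ρ T) :
    ∃ k : ℕ, ∀ g, eM (rb g) = 0 → IsTp T (ρ g ^ (4 ^ k)) ∧ (rb g = S0 → ρ g ^ (4 ^ k) = T) := by
  obtain ⟨k, hk⟩ := exists_pow_four h.nil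
  refine ⟨k, fun g hg => ?_⟩
  obtain ⟨a, b, hab⟩ := comm_T h.nil hG.2.1 (comm_even hG hg)
  have h1 : rb g = Matrix.scalar (Fin 2) (π a) + π b • S0 := by
    rw [← h.map g, hab, map_form hG.2.1]
  have hdet := det_rb h g
  rw [hab, form_four_pow hG, hk, hk]
  have h2 := hdet
  rw [h1] at h2
  constructor
  · rcases form_nonzero _ _ h2 with ⟨h3, h4⟩ | ⟨h3, h4⟩ | ⟨h3, h4⟩
    · left; rw [h3, h4, map_zero, map_one, zero_smul, add_zero, map_one]
    · right; left; rw [h3, h4, map_zero, map_one, one_smul, map_zero, zero_add]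
    · right; right; rw [h3, h4, map_one, one_smul, map_one, T_sq hG, add_comm]
  · intro h5
    rw [h1] at h5
    have h6 : π a = 0 ∧ π b = 1 := by
      revert h5
      generalize π a = x
      generalize π b = y
      revert x y
      decide +kernel
    rw [h6.1, h6.2, map_zero, map_one, one_smul, map_zero, zero_add]

theorem bracket_ne : ∀ m : M2 (ZMod 2), m * m = 0 → m ≠ 0 →
    ∃ i j, (m * S0 - S0 * m) i j = 1 := by
  decide +kernel

omit [Finite A] in
/-- inertia groups of even elements act trivially -/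
theorem inertia_trivial (h : Hyp π rb N Q ρ) (hG : Good π rb ρ T) {ℓ : ℕ} (hℓ : ℓ.Prime)
    {B : ValuationSubring Qb} (hB : B.LiesOverPrime ℓ) {g : GQ} (hg : eM (rb g) = 0)
    (hgI : g ∈ B.inertiaSubgroupIn ℚ) : ρ g = 1 := by
  by_cases hN : ℓ ∣ N ∨ ℓ ∈ Q
  · obtain ⟨M, z, f, hM, hMπ, hD, hI⟩ := h.loc ℓ hℓ hN B hB
    have hgD : g ∈ B.decompositionSubgroup ℚ := by
      obtain ⟨x, -, rfl⟩ := hgI
      exact x.2
    have h1 := (hD g hgD).2
    rw [hI g hgD hgI, map_one] at h1
    have h2 := comm_even hG hg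
    rw [h1, add_mul, mul_add, one_mul, mul_one, add_left_cancel_iff, Matrix.smul_mul,
      Matrix.mul_smul] at h2
    have h3 : f g • (M * T - T * M) = 0 := by rw [smul_sub, h2, sub_self]
    have hMM : M.map π * M.map π = 0 := by
      rw [← Matrix.map_mul, hM, Matrix.map_zero π (map_zero π)]
    obtain ⟨i, j, hij⟩ := bracket_ne _ hMM hMπ
    have h4 : π ((M * T - T * M) i j) = 1 := by
      have h5 : (M * T - T * M).map π = M.map π * S0 - S0 * M.map π := by
        rw [Matrix.map_sub π (map_sub π), Matrix.map_mul, Matrix.map_mul, hG.2.1]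
      rw [← h5] at hij
      exact hij
    have h6 := det_map_ne h4 h.nil
    have h7 : f g * (M * T - T * M) i j = 0 := congrFun (congrFun h3 i) j
    have h8 : f g = 0 := by
      rwa [h6.mul_left_eq_zero] at h7
    rw [h1, h8, zero_smul, add_zero]
  · rw [not_or] at hN
    exact h.unram ℓ hℓ hN.1 hN.2 B hB g hgI

/-- The final count. -/
theorem card_le (h : Hyp π rb N Q ρ) (hG : Good π rb ρ T) (hS : ∃ c, rb c = S0)
    (hgen : Subring.closure (Set.range fun g => (ρ g).trace) = ⊤) :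
    Nat.card A ≤ 2 ^ (Vsub hG (det_rb h)).relIndex (evenSub rb (det_rb h)) := by
  classical
  have hdet := det_rb h
  set U := evenSub rb hdet with hU
  set V := Vsub hG hdet with hV
  have hT3 := T_cube hG
  let Γ : Submonoid (M2 A) := U.toSubmonoid.map ρ
  have hΓ : ∀ {x}, x ∈ Γ ↔ ∃ g ∈ U, ρ g = x := Iff.rfl
  let R : Subring (M2 A) := Subring.closure (Γ : Set (M2 A))
  -- `T ∈ Γ`
  have hTΓ : T ∈ Γ := by
    obtain ⟨c, hc⟩ := hS
    obtain ⟨k, hk⟩ := exists_pow_isTp h hG
    have hce : eM (rb c) = 0 := by rw [hc]; decide +kernel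
    have h1 := (hk c hce).2 hc
    refine hΓ.mpr ⟨c ^ (4 ^ k), U.pow_mem hce _, ?_⟩
    rw [map_pow, h1]
  -- scalars
  have hscal : ∀ a : A, Matrix.scalar (Fin 2) a ∈ R := by
    have h1 : Subring.closure (Set.range fun g => (ρ g).trace) ≤
        R.comap (Matrix.scalar (Fin 2) : A →+* M2 A) := by
      rw [Subring.closure_le]
      rintro _ ⟨g, rfl⟩
      change Matrix.scalar (Fin 2) (ρ g).trace ∈ R
      by_cases hg : eM (rb g) = 0
      · have h2 : Matrix.scalar (Fin 2) (ρ g).trace = ρ g + ρ g⁻¹ := by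
          have h3 : ρ g⁻¹ = (ρ g).adjugate := by
            have e1 : ρ g * ρ g⁻¹ = 1 := by rw [← map_mul, mul_inv_cancel, map_one]
            have e2 : (ρ g).adjugate * ρ g = 1 := by rw [Matrix.adjugate_mul, h.det, one_smul]
            calc ρ g⁻¹ = ((ρ g).adjugate * ρ g) * ρ g⁻¹ := by rw [e2, one_mul]
              _ = (ρ g).adjugate := by rw [mul_assoc, e1, mul_one]
          rw [h3]
          ext i j
          fin_cases i <;> fin_cases j <;>
            (simp [Matrix.adjugate_fin_two, Matrix.trace_fin_two]; try ring)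
        rw [h2]
        refine R.add_mem (Subring.subset_closure (hΓ.mpr ⟨g, hg, rfl⟩))
          (Subring.subset_closure (hΓ.mpr ⟨g⁻¹, U.inv_mem hg, rfl⟩))
      · have h3 : (ρ g).trace = 0 := by
          have e1 := hG.2.2 g
          have he : eA A (rb g) = 1 := by
            have : ∀ x : ZMod 2, x ≠ 0 → x = 1 := by decide
            rw [eA, this _ hg, map_one]
          rw [he, map_one] at e1
          have e2 := congrArg Matrix.trace e1
          rw [add_mul, one_mul, Matrix.trace_add, Matrix.trace_mul_comm] at e2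
          have e3 : (T * ρ g).trace + 0 = (T * ρ g).trace + (ρ g).trace := by
            rw [add_zero]; exact e2
          exact (add_left_cancel e3).symm
        rw [h3, map_zero]
        exact R.zero_mem
    intro a
    have h2 : a ∈ Subring.closure (Set.range fun g => (ρ g).trace) := by
      rw [hgen]; exact Subring.mem_top a
    exact h1 h2
  have hTR : T ∈ R := Subring.subset_closure hTΓ
  have hform : ∀ a b : A, Matrix.scalar (Fin 2) a + b • T ∈ R := by
    intro a b
    refine R.add_mem (hscal a) ?_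
    have : b • T = Matrix.scalar (Fin 2) b * T := by
      ext i j
      fin_cases i <;> fin_cases j <;> simp [Matrix.mul_apply, Fin.sum_univ_two]
    rw [this]
    exact R.mul_mem (hscal b) hTR
  -- coset representatives
  let J := U ⧸ V.subgroupOf U
  let r : J → GQ := fun j => ((Quotient.out j : U) : GQ)
  have hr : ∀ g : U, IsTp T (ρ (r (QuotientGroup.mk g : J))⁻¹ * ρ (g : GQ)) := by
    intro g
    have h1 : (QuotientGroup.mk (Quotient.out (QuotientGroup.mk g : J)) : J) =
        QuotientGroup.mk g := Quotient.out_eq _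
    rw [QuotientGroup.eq] at h1
    have h2 := (Subgroup.mem_subgroupOf.mp h1).2
    rw [← map_mul]
    exact h2
  have hJfin : Finite J := by
    refine Finite.of_injective (fun j => ρ (r j)) ?_
    intro j j' hj
    have h1 : (QuotientGroup.mk (Quotient.out j) : J) = QuotientGroup.mk (Quotient.out j') := by
      rw [QuotientGroup.eq, Subgroup.mem_subgroupOf]
      refine ⟨((Quotient.out j)⁻¹ * Quotient.out j' : U).2, Or.inl ?_⟩
      have hj' : ρ (Quotient.out j : U) = ρ (Quotient.out j' : U) := hj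
      change ρ (((Quotient.out j : U) : GQ)⁻¹ * ((Quotient.out j' : U) : GQ)) = 1
      rw [map_mul, ← hj', ← map_mul, inv_mul_cancel, map_one]
    calc j = QuotientGroup.mk (Quotient.out j) := (Quotient.out_eq _).symm
      _ = QuotientGroup.mk (Quotient.out j') := h1
      _ = j' := Quotient.out_eq _
  have := Fintype.ofFinite J
  let c2 := algebraMap (ZMod 2) A
  let Φ : (J → ZMod 2 × ZMod 2) →+ M2 A :=
    { toFun := fun f => ∑ j, (Matrix.scalar (Fin 2) (c2 (f j).1) + c2 (f j).2 • T) * ρ (r j)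
      map_zero' := by simp
      map_add' := by
        intro f f'
        rw [← Finset.sum_add_distrib]
        refine Finset.sum_congr rfl fun j _ => ?_
        rw [Pi.add_apply, Prod.fst_add, Prod.snd_add, map_add, map_add, map_add, add_smul,
          ← add_mul]
        congr 1
        abel }
  have hΦ : ∀ f, Φ f = ∑ j, (Matrix.scalar (Fin 2) (c2 (f j).1) + c2 (f j).2 • T) * ρ (r j) :=
    fun f => rfl
  have hsub : ∀ x ∈ Γ, x ∈ Φ.range := by
    intro x hx
    obtain ⟨g, hg, rfl⟩ := hΓ.mp hx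
    let j0 : J := QuotientGroup.mk (⟨g, hg⟩ : U)
    have h1 := hr ⟨g, hg⟩
    change IsTp T (ρ (r j0)⁻¹ * ρ g) at h1
    have h2 : ρ (r j0) * ρ (r j0)⁻¹ = 1 := by rw [← map_mul, mul_inv_cancel, map_one]
    have h3 : ρ g = (ρ (r j0)⁻¹ * ρ g) * ρ (r j0) := by
      have hrU : eM (rb (r j0)) = 0 := (Quotient.out j0 : U).2
      have h4 : ρ g * ρ (r j0) = ρ (r j0) * ρ g := comm_even' h hG hg hrU
      rw [mul_assoc, h4, ← mul_assoc, ← map_mul, inv_mul_cancel, map_one, one_mul]
    have h4 : ∃ ab : ZMod 2 × ZMod 2, ρ (r j0)⁻¹ * ρ g =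
        Matrix.scalar (Fin 2) (c2 ab.1) + c2 ab.2 • T := by
      rcases h1 with h1 | h1 | h1
      · exact ⟨(1, 0), by rw [h1]; simp [c2]⟩
      · exact ⟨(0, 1), by rw [h1]; simp [c2]⟩
      · exact ⟨(1, 1), by rw [h1, T_sq hG]; simp [c2, add_comm]⟩
    obtain ⟨ab, hab⟩ := h4
    refine ⟨Function.update 0 j0 ab, ?_⟩
    rw [hΦ, Finset.sum_eq_single j0]
    · rw [Function.update_self, ← hab, ← h3]
    · intro j _ hj
      rw [Function.update_of_ne hj]
      simp
    · intro h5
      exact absurd (Finset.mem_univ _) h5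
  have hRle : ∀ x ∈ R, x ∈ Φ.range := by
    intro x hx
    have h1 : x ∈ AddSubgroup.closure ((Submonoid.closure (Γ : Set (M2 A)) : Submonoid (M2 A)) :
        Set (M2 A)) := Subring.mem_closure_iff.mp hx
    rw [Submonoid.closure_eq] at h1
    have h2 : AddSubgroup.closure (Γ : Set (M2 A)) ≤ Φ.range := by
      rw [AddSubgroup.closure_le]
      exact hsub
    exact h2 h1
  -- cardinalities
  have hcard1 : Nat.card (A × A) ≤ Nat.card (J → ZMod 2 × ZMod 2) := by
    have hex : ∀ p : A × A, ∃ f, Φ f = Matrix.scalar (Fin 2) p.1 + p.2 • T :=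
      fun p => hRle _ (hform p.1 p.2)
    choose F hF using hex
    have hFinj : Function.Injective F := by
      intro p p' hp
      have h1 : Matrix.scalar (Fin 2) p.1 + p.2 • T = Matrix.scalar (Fin 2) p'.1 + p'.2 • T := by
        rw [← hF p, ← hF p', hp]
      have hu : IsUnit (T 0 1) := by
        refine det_map_ne (π := π) ?_ h.nil
        exact congrFun (congrFun hG.2.1 0) 1
      have h2 : p.2 * T 0 1 = p'.2 * T 0 1 := by
        have := congrFun (congrFun h1 0) 1
        simpa using this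
      have h3 : p.2 = p'.2 := hu.mul_right_cancel h2
      have h4 : p.1 = p'.1 := by
        have := congrFun (congrFun h1 0) 0
        simp only [Matrix.add_apply, Matrix.smul_apply, smul_eq_mul, Matrix.scalar_apply,
          Matrix.diagonal_apply_eq, h3] at this
        exact add_right_cancel this
      exact Prod.ext h4 h3
    exact Nat.card_le_card_of_injective F hFinj
  have hidx : V.relIndex U = Nat.card J := rfl
  rw [hidx]
  rw [Nat.card_prod, Nat.card_fun, Nat.card_prod, Nat.card_zmod] at hcard1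
  have h5 : Nat.card A * Nat.card A ≤ 2 ^ Nat.card J * 2 ^ Nat.card J := by
    calc Nat.card A * Nat.card A ≤ (2 * 2) ^ Nat.card J := hcard1
      _ = 2 ^ Nat.card J * 2 ^ Nat.card J := mul_pow _ _ _
  exact Nat.mul_self_le_mul_self_iff.mp h5

end

universe u

/-- **Step 2 of Theorem Z.** -/
theorem step2 {A : Type u} [CommRing A] [Algebra (ZMod 2) A] [Finite A]
    {π : A →+* ZMod 2} {rb : GQ →* M2 (ZMod 2)} {N : ℕ} {Q : Finset ℕ} {ρ : GQ →* M2 A}
    (hsel : SelZero rb N Q) (h : Hyp π rb N Q ρ) (hS : ∃ c, rb c = S0)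
    (hgen : Subring.closure (Set.range fun g => (ρ g).trace) = ⊤) :
    ∃ V : Subgroup GQ, V ≤ evenSub rb (det_rb h) ∧
      (∃ L : IntermediateField ℚ Qb, FiniteDimensional ℚ L ∧ ∀ σ : GQ, (∀ x ∈ L, σ x = x) → σ ∈ V) ∧
      (∀ a ∈ evenSub rb (det_rb h), ∀ b ∈ V, a * b * a⁻¹ ∈ V) ∧
      (∀ a ∈ evenSub rb (det_rb h), ∀ b ∈ evenSub rb (det_rb h), a * b * a⁻¹ * b⁻¹ ∈ V) ∧
      (∃ k : ℕ, ∀ a ∈ evenSub rb (det_rb h), a ^ (2 ^ k) ∈ V) ∧
      (∀ ℓ : ℕ, ℓ.Prime → ∀ B : ValuationSubring Qb, B.LiesOverPrime ℓ →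
        ∀ g ∈ B.inertiaSubgroupIn ℚ, g ∈ evenSub rb (det_rb h) → g ∈ V) ∧
      Nat.card A ≤ 2 ^ V.relIndex (evenSub rb (det_rb h)) := by
  obtain ⟨T, hG⟩ := exists_good hsel h
  have hone : ∀ g, ρ g = 1 → g ∈ Vsub hG (det_rb h) := by
    intro g hg
    refine ⟨?_, Or.inl hg⟩
    have : rb g = 1 := by
      rw [← h.map g, hg]
      exact Matrix.map_one π (map_zero π) (map_one π)
    rw [this, eM_one]
  have hcommutator : ∀ a ∈ evenSub rb (det_rb h), ∀ b ∈ evenSub rb (det_rb h),
      ρ (a * b * a⁻¹ * b⁻¹) = 1 := by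
    intro a ha b hb
    rw [map_mul, map_mul, map_mul, comm_even' h hG ha hb, mul_assoc (ρ b), ← map_mul ρ a,
      mul_inv_cancel, map_one, mul_one, ← map_mul, mul_inv_cancel, map_one]
  refine ⟨Vsub hG (det_rb h), Vsub_le, ?_, ?_, ?_, ?_, ?_, card_le h hG hS hgen⟩
  · obtain ⟨L, hL, h1⟩ := h.smooth
    exact ⟨L, hL, fun σ hσ => hone σ (h1 σ hσ)⟩
  · intro a ha b hb
    refine ⟨(evenSub rb (det_rb h)).mul_mem ((evenSub rb (det_rb h)).mul_mem ha hb.1)
      ((evenSub rb (det_rb h)).inv_mem ha), ?_⟩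
    have h1 := hcommutator a ha b hb.1
    have h2 : ρ (a * b * a⁻¹) = ρ b := by
      calc ρ (a * b * a⁻¹) = ρ (a * b * a⁻¹ * b⁻¹) * ρ b := by
            rw [← map_mul, inv_mul_cancel_right]
        _ = ρ b := by rw [h1, one_mul]
    rw [h2]
    exact hb.2
  · intro a ha b hb
    exact hone _ (hcommutator a ha b hb)
  · obtain ⟨k, hk⟩ := exists_pow_isTp h hG
    refine ⟨2 * k, fun a ha => ⟨(evenSub rb (det_rb h)).pow_mem ha _, ?_⟩⟩
    rw [map_pow, pow_mul]
    exact (hk a ha).1
  · intro ℓ hℓ B hB g hgI hg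
    exact hone g (inertia_trivial h hG hℓ hB hg hgI)

end Fermat.Agent.ZThm
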