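import Fermat.Agent.ZThm.Step4b

/-!
# Theorem Z, Step 4: eigenvectors modulo powers of `2`
-/

set_option autoImplicit false

namespace Fermat.Agent.ZThm

open Matrix

local notation "Qb" => AlgebraicClosure ℚ
local notation "GQ" => AlgebraicClosure ℚ ≃ₐ[ℚ] AlgebraicClosure ℚ

attribute [local instance] algZ

/-- The statement of the class field theory bound `CF1`, used as a hypothesis: open normal subgroups
of the group of even elements with abelian `2`-quotient, unramified everywhere, have index at most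
`c`. -/
def CFBound (rb : GQ →* M2 (ZMod 2)) (hdet0 : ∀ g, (rb g).det = 1) (c : ℕ) : Prop :=
  ∀ V : Subgroup GQ, V ≤ evenSub rb hdet0 →
      (∃ L : IntermediateField ℚ Qb, FiniteDimensional ℚ L ∧ ∀ σ : GQ, (∀ x ∈ L, σ x = x) → σ ∈ V) →
      (∀ a ∈ evenSub rb hdet0, ∀ b ∈ V, a * b * a⁻¹ ∈ V) →
      (∀ a ∈ evenSub rb hdet0, ∀ b ∈ evenSub rb hdet0, a * b * a⁻¹ * b⁻¹ ∈ V) →
      (∃ k : ℕ, ∀ a ∈ evenSub rb hdet0, a ^ (2 ^ k) ∈ V) →
      (∀ ℓ : ℕ, ℓ.Prime → ∀ B : ValuationSubring Qb, B.LiesOverPrime ℓ →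
        ∀ g ∈ B.inertiaSubgroupIn ℚ, g ∈ evenSub rb hdet0 → g ∈ V) →
      V.relIndex (evenSub rb hdet0) ≤ c

section

variable {Λ : Type} [AddCommGroup Λ] [Module ℤ_[2] Λ]

/-- the algebra generated by the quadratic operators -/
noncomputable abbrev TA (ρ : GQ →* Module.End ℤ_[2] Λ) (χ : GQ →* ℤ_[2]) :
    Subalgebra ℤ_[2] (Module.End ℤ_[2] Λ) := Algebra.adjoin ℤ_[2] (Set.range (tOp ρ χ))

theorem tOp_tOp (ρ : GQ →* Module.End ℤ_[2] Λ) (χ : GQ →* ℤ_[2])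
    (hcomm : ∀ g h, ρ h * tOp ρ χ g = tOp ρ χ g * ρ h) (g h : GQ) :
    tOp ρ χ g * tOp ρ χ h = tOp ρ χ h * tOp ρ χ g := by
  conv_lhs => rw [tOp.eq_1 ρ χ h]
  conv_rhs => rw [tOp.eq_1 ρ χ h]
  rw [mul_add, add_mul, ← hcomm, mul_smul_comm, smul_mul_assoc, ← hcomm]

variable [Module.Finite ℤ_[2] Λ] [Module.Free ℤ_[2] Λ]

/-- **Step 4 of Theorem Z.** -/
theorem step4 {ρ : GQ →* Module.End ℤ_[2] Λ} {RE : GQ →* M2 ℤ_[2]} {rb : GQ →* M2 (ZMod 2)} {N : ℕ}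
    {Q : Finset ℕ} {k : ℕ} (h : Lat ρ RE rb N Q k)
    (hsel : SelZero rb N Q) (hdet0 : ∀ g, (rb g).det = 1)
    (g₁ g₂ : GQ) (hg₁ : rb g₁ = !![1, 1; 0, 1]) (hg₂ : rb g₂ = !![1, 0; 1, 1]) (c : ℕ)
    (hV : CFBound rb hdet0 c)
    (hc : c ≤ Module.finrank ℤ_[2] (TA ρ (detM RE))) (b : ℕ) (hb : b * Module.finrank ℤ_[2] Λ < k) :
    ∃ x : Λ, (¬ ∃ y : Λ, x = (2 : ℤ_[2]) • y) ∧
      ∀ g, ∃ y : Λ, tOp ρ (detM RE) g x - (RE g).trace • x = (2 : ℤ_[2]) ^ (b + 1) • y := by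
  have hk : k ≠ 0 := by omega
  let χ := detM RE
  let T := TA ρ χ
  let : CommRing T := Algebra.adjoinCommRingOfComm ℤ_[2] (by
    rintro _ ⟨g, rfl⟩ _ ⟨h', rfl⟩
    exact tOp_tOp ρ χ h.comm g h')
  have hend : IsNoetherian ℤ_[2] (Module.End ℤ_[2] Λ) :=
    isNoetherian_of_isNoetherianRing_of_finite _ _
  have hfin : Module.Finite ℤ_[2] T :=
    Module.Finite.of_injective (TA ρ χ).val.toLinearMap Subtype.val_injective
  have hst : IsScalarTower ℤ_[2] T Λ := ⟨fun r a x => rfl⟩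
  have hfaith : FaithfulSMul T Λ := ⟨fun {a b} hab => Subtype.ext (LinearMap.ext hab)⟩
  let t : GQ → T := fun g => ⟨tOp ρ χ g, Algebra.subset_adjoin ⟨g, rfl⟩⟩
  have ht : ∀ g x, tOp ρ (detM RE) g x = t g • x := fun g x => rfl
  have hgen : Algebra.adjoin ℤ_[2] (Set.range t) = ⊤ := by
    apply Subalgebra.map_injective (f := (TA ρ χ).val) Subtype.val_injective
    rw [AlgHom.map_adjoin, Algebra.map_top, Subalgebra.range_val, ← Set.range_comp]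
    rfl
  obtain ⟨lam, hlam⟩ := step4_aux (T := T) (t := t) ht hgen h hk hsel hdet0 g₁ g₂ hg₁ hg₂ c hV hc
  obtain ⟨x, hx, hx2⟩ := exists_eigenvector (T := T) (Λ := Λ) (RingHom.ker lam) k b (by
    intro m hm
    have h1 : lam ((2 : T) ^ m) = 0 := hm
    rw [map_pow, map_ofNat] at h1
    have h2 : ((2 ^ m : ℕ) : ZMod (2 ^ k)) = 0 := by push_cast; exact h1
    rw [ZMod.natCast_eq_zero_iff] at h2
    exact (Nat.pow_dvd_pow_iff_le_right (by norm_num)).1 h2) hb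
  refine ⟨x, hx, fun g => ?_⟩
  obtain ⟨y, hy⟩ := hx2 (t g - algebraMap ℤ_[2] T (RE g).trace) (by
    rw [RingHom.mem_ker, map_sub, hlam, AlgHom.commutes]
    exact sub_self _)
  refine ⟨y, ?_⟩
  rw [← hy, sub_smul, algebraMap_smul]
  rfl

/-- The rank of the trace algebra is bounded by the class number. -/
theorem finrank_TA_le {ρ : GQ →* Module.End ℤ_[2] Λ} {RE : GQ →* M2 ℤ_[2]} {rb : GQ →* M2 (ZMod 2)}
    {N : ℕ} {Q : Finset ℕ} {k : ℕ} (h : Lat ρ RE rb N Q k) (hk : k ≠ 0)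
    (hsel : SelZero rb N Q) (hdet0 : ∀ g, (rb g).det = 1)
    (g₁ g₂ : GQ) (hg₁ : rb g₁ = !![1, 1; 0, 1]) (hg₂ : rb g₂ = !![1, 0; 1, 1]) (c : ℕ)
    (hV : CFBound rb hdet0 c) : Module.finrank ℤ_[2] (TA ρ (detM RE)) ≤ c := by
  let χ := detM RE
  let T := TA ρ χ
  let : CommRing T := Algebra.adjoinCommRingOfComm ℤ_[2] (by
    rintro _ ⟨g, rfl⟩ _ ⟨h', rfl⟩
    exact tOp_tOp ρ χ h.comm g h')
  have hend : IsNoetherian ℤ_[2] (Module.End ℤ_[2] Λ) :=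
    isNoetherian_of_isNoetherianRing_of_finite _ _
  have hfin : Module.Finite ℤ_[2] T :=
    Module.Finite.of_injective (TA ρ χ).val.toLinearMap Subtype.val_injective
  have hst : IsScalarTower ℤ_[2] T Λ := ⟨fun r a x => rfl⟩
  have hfaith : FaithfulSMul T Λ := ⟨fun {a b} hab => Subtype.ext (LinearMap.ext hab)⟩
  let t : GQ → T := fun g => ⟨tOp ρ χ g, Algebra.subset_adjoin ⟨g, rfl⟩⟩
  have ht : ∀ g x, tOp ρ (detM RE) g x = t g • x := fun g x => rfl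
  have hgen : Algebra.adjoin ℤ_[2] (Set.range t) = ⊤ := by
    apply Subalgebra.map_injective (f := (TA ρ χ).val) Subtype.val_injective
    rw [AlgHom.map_adjoin, Algebra.map_top, Subalgebra.range_val, ← Set.range_comp]
    rfl
  exact finrank_T_le (T := T) (t := t) ht hgen h hk hsel hdet0 g₁ g₂ hg₁ hg₂ c hV

/-- The multiplier operators belong to the trace algebra. -/
theorem mem_TA {ρ : GQ →* Module.End ℤ_[2] Λ} {RE : GQ →* M2 ℤ_[2]} {rb : GQ →* M2 (ZMod 2)}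
    {k : ℕ} (hcomm : ∀ g h, ρ h * tOp ρ (detM RE) g = tOp ρ (detM RE) g * ρ h) (hk : k ≠ 0)
    (hred : ∀ g, (RE g).map PadicInt.toZMod = rb g)
    (hnil : ∀ g, ∃ n : ℕ, ∀ x, ∃ y,
      ((tOp ρ (detM RE) g - (RE g).trace • (1 : Module.End ℤ_[2] Λ)) ^ n) x = (2 : ℤ_[2]) • y)
    (hdet0 : ∀ g, (rb g).det = 1)
    (g₁ g₂ : GQ) (hg₁ : rb g₁ = !![1, 1; 0, 1]) (hg₂ : rb g₂ = !![1, 0; 1, 1])
    {D I : Subgroup GQ} {Φ : GQ} {w : Module.End ℤ_[2] Λ} {z : ℤ_[2]} {K : Submodule ℤ_[2] Λ}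
    (h : LLoc ρ RE rb k D I Φ w z K) : w ∈ TA ρ (detM RE) := by
  let χ := detM RE
  let T := TA ρ χ
  let : CommRing T := Algebra.adjoinCommRingOfComm ℤ_[2] (by
    rintro _ ⟨g, rfl⟩ _ ⟨h', rfl⟩
    exact tOp_tOp ρ χ hcomm g h')
  have hend : IsNoetherian ℤ_[2] (Module.End ℤ_[2] Λ) :=
    isNoetherian_of_isNoetherianRing_of_finite _ _
  have hfin : Module.Finite ℤ_[2] T :=
    Module.Finite.of_injective (TA ρ χ).val.toLinearMap Subtype.val_injective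
  have hst : IsScalarTower ℤ_[2] T Λ := ⟨fun r a x => rfl⟩
  have hfaith : FaithfulSMul T Λ := ⟨fun {a b} hab => Subtype.ext (LinearMap.ext hab)⟩
  let t : GQ → T := fun g => ⟨tOp ρ χ g, Algebra.subset_adjoin ⟨g, rfl⟩⟩
  have ht : ∀ g x, tOp ρ (detM RE) g x = t g • x := fun g x => rfl
  obtain ⟨ζ, hζ, -, -⟩ := exists_zeta (T := T) (t := t) ht hcomm hk hred hnil hdet0 g₁ g₂ hg₁ hg₂ h
  have h1 : w = ζ.1.1.1 := LinearMap.ext fun x => (hζ x).symm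
  rw [h1]
  exact ζ.1.1.2

end

end Fermat.Agent.ZThm
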