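import Mathlib
import Fermat.Agent.ZThm.Defs

/-!
# Theorem Z, Step 4: the structure of a residually surjective quadratic algebra (Cayley-Hamilton)
-/

namespace Fermat.Agent.ZThm

open Matrix

section MatUnits

variable {A B : Type*} [CommRing A] [Ring B] [Algebra A B]

/-- matrix units for the size two -/
structure MU (e f a b : B) : Prop where
  ef : e + f = 1
  ee : e * e = e
  ab : a * b = e
  ba : b * a = f
  ea : e * a = a
  be : b * e = b

variable {e f a b : B}

namespace MU

theorem ff (h : MU e f a b) : f * f = f := by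
  have : f = 1 - e := by rw [← h.ef]; abel
  rw [this, sub_mul, one_mul, mul_sub, mul_one, h.ee, sub_self, sub_zero]

theorem ef0 (h : MU e f a b) : e * f = 0 := by
  have : f = 1 - e := by rw [← h.ef]; abel
  rw [this, mul_sub, mul_one, h.ee, sub_self]

theorem fe0 (h : MU e f a b) : f * e = 0 := by
  have : f = 1 - e := by rw [← h.ef]; abel
  rw [this, sub_mul, one_mul, h.ee, sub_self]

theorem af (h : MU e f a b) : a * f = a := by
  rw [← h.ba, ← mul_assoc, h.ab, h.ea]

theorem fb (h : MU e f a b) : f * b = b := by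
  rw [← h.ba, mul_assoc, h.ab, h.be]

theorem ae (h : MU e f a b) : a * e = 0 := by
  rw [← h.af, mul_assoc, h.fe0, mul_zero]

theorem fa (h : MU e f a b) : f * a = 0 := by
  rw [← h.ea, ← mul_assoc, h.fe0, zero_mul]

theorem bf (h : MU e f a b) : b * f = 0 := by
  rw [← h.be, mul_assoc, h.ef0, mul_zero]

theorem eb (h : MU e f a b) : e * b = 0 := by
  rw [← h.fb, ← mul_assoc, h.ef0, zero_mul]

theorem aa (h : MU e f a b) : a * a = 0 := by
  rw [← h.ea, ← mul_assoc, mul_assoc e a e, h.ae, mul_zero, zero_mul]

theorem bb (h : MU e f a b) : b * b = 0 := by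
  rw [← h.be, mul_assoc, ← mul_assoc e b e, h.eb, zero_mul, mul_zero]

end MU

/-- the map from matrices -/
def mu (e f a b : B) (X : Matrix (Fin 2) (Fin 2) A) : B :=
  X 0 0 • e + X 0 1 • a + X 1 0 • b + X 1 1 • f

theorem mu_one (h : MU e f a b) : mu (A := A) e f a b 1 = 1 := by
  simp [mu, h.ef]

theorem mu_add (X Y : Matrix (Fin 2) (Fin 2) A) :
    mu e f a b (X + Y) = mu e f a b X + mu e f a b Y := by
  simp only [mu, Matrix.add_apply, add_smul]; abel

theorem mu_mul (h : MU e f a b) (X Y : Matrix (Fin 2) (Fin 2) A) :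
    mu e f a b (X * Y) = mu e f a b X * mu e f a b Y := by
  simp only [mu, Matrix.mul_apply, Fin.sum_univ_two, mul_add, add_mul, smul_mul_smul_comm,
    h.ee, h.ab, h.ba, h.ea, h.be, h.ff, h.ef0, h.fe0, h.af, h.fb, h.ae, h.fa, h.bf, h.eb,
    h.aa, h.bb, smul_zero, add_smul]
  abel

theorem mu_injective (h : MU e f a b) (hinj : Function.Injective (algebraMap A B)) :
    Function.Injective (mu (A := A) e f a b) := by
  have hz : ∀ x : A, x • e = 0 → x = 0 := by
    intro x hx
    have h2 : x • f = 0 := by
      have h3 : b * (x • e) * a = x • f := by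
        rw [mul_smul_comm, smul_mul_assoc, h.be, h.ba]
      rw [← h3, hx, mul_zero, zero_mul]
    apply hinj
    rw [map_zero, Algebra.algebraMap_eq_smul_one, ← h.ef, smul_add, hx, h2, add_zero]
  have hz' : ∀ x : A, x • f = 0 → x = 0 := by
    intro x hx
    apply hz
    have : x • e = a * (x • f) * b := by
      rw [mul_smul_comm, smul_mul_assoc, h.af, h.ab]
    rw [this, hx, mul_zero, zero_mul]
  have hza : ∀ x : A, x • a = 0 → x = 0 := by
    intro x hx
    apply hz
    rw [← h.ab, ← smul_mul_assoc, hx, zero_mul]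
  have hzb : ∀ x : A, x • b = 0 → x = 0 := by
    intro x hx
    apply hz'
    rw [← h.ba, ← smul_mul_assoc, hx, zero_mul]
  intro X Y hXY
  have hs : ∀ X : Matrix (Fin 2) (Fin 2) A,
      e * mu e f a b X * e = X 0 0 • e ∧ e * mu e f a b X * f = X 0 1 • a ∧
      f * mu e f a b X * e = X 1 0 • b ∧ f * mu e f a b X * f = X 1 1 • f := by
    intro X
    simp only [mu, mul_add, add_mul, mul_smul_comm, smul_mul_assoc,
      h.ee, h.ea, h.be, h.ff, h.ef0, h.fe0, h.af, h.fb, h.ae, h.fa, h.bf, h.eb,
      smul_zero, add_zero, zero_add, and_self]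
  obtain ⟨x1, x2, x3, x4⟩ := hs X
  obtain ⟨y1, y2, y3, y4⟩ := hs Y
  rw [hXY] at x1 x2 x3 x4
  have e1 : X 0 0 = Y 0 0 := by
    have := x1.symm.trans y1
    rw [← sub_eq_zero, ← sub_smul] at this
    exact sub_eq_zero.1 (hz _ this)
  have e2 : X 0 1 = Y 0 1 := by
    have := x2.symm.trans y2
    rw [← sub_eq_zero, ← sub_smul] at this
    exact sub_eq_zero.1 (hza _ this)
  have e3 : X 1 0 = Y 1 0 := by
    have := x3.symm.trans y3
    rw [← sub_eq_zero, ← sub_smul] at this
    exact sub_eq_zero.1 (hzb _ this)
  have e4 : X 1 1 = Y 1 1 := by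
    have := x4.symm.trans y4
    rw [← sub_eq_zero, ← sub_smul] at this
    exact sub_eq_zero.1 (hz' _ this)
  ext i j
  fin_cases i <;> fin_cases j <;> assumption

end MatUnits

theorem exists_pow_idem {M : Type*} [Monoid M] [Finite M] (x : M) :
    ∃ n : ℕ, 0 < n ∧ x ^ n * x ^ n = x ^ n := by
  obtain ⟨i, j, hij, he⟩ := Finite.exists_ne_map_eq_of_infinite (fun n : ℕ => x ^ n)
  wlog h : i < j generalizing i j
  · exact this j i hij.symm he.symm (lt_of_le_of_ne (not_lt.1 h) hij.symm)
  replace he : x ^ i = x ^ j := he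
  obtain ⟨p, rfl⟩ := Nat.exists_eq_add_of_lt h
  -- x^i = x^(i+p+1)
  have h1 : ∀ m, i ≤ m → x ^ (m + (p + 1)) = x ^ m := by
    intro m hm
    obtain ⟨k, rfl⟩ := Nat.exists_eq_add_of_le hm
    rw [show i + k + (p + 1) = (i + p + 1) + k by ring, pow_add, ← he, ← pow_add]
  have h2 : ∀ q m, i ≤ m → x ^ (m + q * (p + 1)) = x ^ m := by
    intro q
    induction q with
    | zero => intro m _; simp
    | succ q ih =>
      intro m hm
      rw [show m + (q + 1) * (p + 1) = (m + q * (p + 1)) + (p + 1) by ring, h1 _ (by omega), ih m hm]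
  refine ⟨(i + 1) * (p + 1), by positivity, ?_⟩
  rw [← pow_add]
  apply h2
  nlinarith

section Core

variable {A B G : Type*} [CommRing A] [Ring B] [Algebra A B] [Group G]

theorem ch_structure [Finite B] (hinj : Function.Injective (algebraMap A B))
    (ρ : G →* B) (χ : G →* A) (t : G → A)
    (ht : ∀ g, ρ g + χ g • ρ g⁻¹ = algebraMap A B (t g))
    (π : A →+* ZMod 2) (hπ : ∀ a, π a = 0 → IsNilpotent a)
    (rb : G →* Matrix (Fin 2) (Fin 2) (ZMod 2))
    (htr : ∀ g, π (t g) = (rb g).trace)
    (g₁ g₂ : G) (hg₁ : rb g₁ = !![1, 1; 0, 1]) (hg₂ : rb g₂ = !![1, 0; 1, 1]) :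
    ∃ (ρA : G →* Matrix (Fin 2) (Fin 2) A) (e f a b : B), MU e f a b ∧
      (∀ g, mu e f a b (ρA g) = ρ g) ∧ (∀ g, (ρA g).map π = rb g) ∧
      (∀ g, (ρA g).trace = t g) ∧ (∀ g, (ρA g).det = χ g) ∧
      (∀ X : Matrix (Fin 2) (Fin 2) A, X ∈ Submodule.span A (Set.range ρA)) := by
  classical
  have hu : ∀ x : A, π x = 1 → IsUnit x := by
    intro x hx
    have h1 : IsNilpotent (x - 1) := hπ _ (by rw [map_sub, hx, map_one, sub_self])
    have := h1.isUnit_one_add
    rwa [add_sub_cancel] at this
  have hχ : ∀ g, χ g * χ g⁻¹ = 1 := by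
    intro g; rw [← map_mul, mul_inv_cancel, map_one]
  -- the lifted maps
  set r : MonoidAlgebra A G →ₐ[A] B := MonoidAlgebra.lift A B G ρ with hr
  let ρ' : G →* Bᵐᵒᵖ :=
    { toFun := fun g => MulOpposite.op (χ g • ρ g⁻¹)
      map_one' := by simp
      map_mul' := by
        intro g h
        rw [← MulOpposite.op_mul, _root_.mul_inv_rev, map_mul, map_mul, smul_mul_smul_comm,
          mul_comm (χ h)] }
  set r' : MonoidAlgebra A G →ₐ[A] Bᵐᵒᵖ := MonoidAlgebra.lift A Bᵐᵒᵖ G ρ' with hr'
  let R : MonoidAlgebra A G →+* Matrix (Fin 2) (Fin 2) (ZMod 2) :=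
    MonoidAlgebra.liftNCRingHom ((algebraMap (ZMod 2) (Matrix (Fin 2) (Fin 2) (ZMod 2))).comp π) rb
      (fun x y => Algebra.commutes (π x) (rb y))
  let τ : MonoidAlgebra A G →+ A := MonoidAlgebra.liftNC (AddMonoidHom.id A) t
  have hτs : ∀ g x, τ (MonoidAlgebra.single g x) = x * t g := fun g x => by
    simp [τ, MonoidAlgebra.liftNC_single]
  have hRs : ∀ g x, R (MonoidAlgebra.single g x) = π x • rb g := fun g x => by
    simp only [R, MonoidAlgebra.liftNCRingHom_single]
    simp [Algebra.smul_def]
  have hsum : ∀ u, r u + (r' u).unop = algebraMap A B (τ u) := by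
    intro u
    induction u using MonoidAlgebra.induction_linear with
    | zero => simp
    | add u v hu hv => 
      simp only [map_add, MulOpposite.unop_add]
      rw [← hu, ← hv]; abel
    | single g x =>
      rw [hτs, hr, hr', MonoidAlgebra.lift_single, MonoidAlgebra.lift_single]
      simp only [ρ', MonoidHom.coe_mk, OneHom.coe_mk, MulOpposite.unop_smul, MulOpposite.unop_op]
      rw [← smul_add, ht, map_mul, Algebra.smul_def]
  have htrR : ∀ u, π (τ u) = (R u).trace := by
    intro u
    induction u using MonoidAlgebra.induction_linear with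
    | zero => simp
    | add u v hu hv => simp only [map_add, Matrix.trace_add, hu, hv]
    | single g x => rw [hτs, hRs, Matrix.trace_smul, map_mul, htr, smul_eq_mul]
  -- the idempotent
  have : Finite Bᵐᵒᵖ := Finite.of_equiv B MulOpposite.opEquiv
  obtain ⟨n, hn, hid⟩ := exists_pow_idem
    ((r ((MonoidAlgebra.single g₁ 1 - 1) * (MonoidAlgebra.single g₂ 1 - 1)), r' ((MonoidAlgebra.single g₁ 1 - 1) * (MonoidAlgebra.single g₂ 1 - 1))) :
      B × Bᵐᵒᵖ)
  set u : MonoidAlgebra A G := ((MonoidAlgebra.single g₁ 1 - 1) * (MonoidAlgebra.single g₂ 1 - 1)) ^ n with hudef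
  have hid1 : r u * r u = r u := by
    have := congrArg Prod.fst hid
    simpa [hudef] using this
  have hid2 : (r' u).unop * (r' u).unop = (r' u).unop := by
    have := congrArg Prod.snd hid
    simp only [Prod.snd_mul, Prod.pow_snd, ← map_pow] at this
    rw [← hudef] at this
    have h2 := congrArg MulOpposite.unop this
    simpa using h2
  have hRu : R u = !![1, 0; 0, 0] := by
    rw [hudef, map_pow, map_mul, map_sub, map_sub, map_one, hRs, hRs, hg₁, hg₂, map_one, one_smul,
      one_smul]
    have : (!![1, 1; 0, 1] - 1 : Matrix (Fin 2) (Fin 2) (ZMod 2)) * (!![1, 0; 1, 1] - 1) =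
      !![1, 0; 0, 0] := by decide +kernel
    rw [this]
    obtain ⟨m, rfl⟩ : ∃ m, n = m + 1 := ⟨n - 1, by omega⟩
    clear hid hudef hid1 hid2 hn this
    induction m with
    | zero => simp
    | succ m ih => rw [pow_succ, ih]; decide +kernel
  clear_value u
  set e : B := r u with he
  set e' : B := (r' u).unop with he'
  have hee' : e + e' = algebraMap A B (τ u) := hsum u
  have hτu : π (τ u) = 1 := by rw [htrR, hRu]; decide +kernel
  -- e * e' = (τ - 1) e
  have hcomm : e' = algebraMap A B (τ u) - e := by rw [← hee']; abel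
  have hp1 : e * e' = algebraMap A B (τ u - 1) * e := by
    rw [hcomm, mul_sub, hid1, ← Algebra.commutes, map_sub, map_one, sub_mul, one_mul]
  have hp2 : e' * e = algebraMap A B (τ u - 1) * e := by
    rw [hcomm, sub_mul, hid1, map_sub, map_one, sub_mul, one_mul]
  have hpp : e * e' = 0 := by
    have hnil : IsNilpotent (τ u - 1) := hπ _ (by rw [map_sub, hτu, map_one, sub_self])
    obtain ⟨m, hm⟩ := hnil
    have hidp : ∀ k : ℕ, algebraMap A B ((τ u - 1) ^ (k + 1)) * e = e * e' := by
      intro k
      induction k with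
      | zero => rw [zero_add, pow_one, hp1]
      | succ k ih =>
        have h1 : algebraMap A B ((τ u - 1) ^ (k + 1 + 1)) * e =
            algebraMap A B (τ u - 1) * (algebraMap A B ((τ u - 1) ^ (k + 1)) * e) := by
          rw [← mul_assoc, ← map_mul, ← pow_succ']
        rw [h1, ih, ← mul_assoc, ← hp1]
        rw [mul_assoc, hid2]
    have := hidp m
    rw [pow_succ, hm, zero_mul, map_zero, zero_mul] at this
    exact this.symm
  have hτ1 : τ u = 1 := by
    have h1 : algebraMap A B (τ u - 1) * e = 0 := by rw [← hp1, hpp]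
    have h2 : algebraMap A B (τ u - 1) * e' = 0 := by
      have : e' * e = 0 := by rw [hp2, h1]
      have h3 : e' * (e + e') = algebraMap A B (τ u) * e' := by
        rw [hee', ← Algebra.commutes]
      rw [mul_add, this, hid2, zero_add] at h3
      rw [map_sub, map_one, sub_mul, one_mul, ← h3, sub_self]
    have h3 : (τ u - 1) * τ u = 0 := by
      apply hinj
      rw [map_mul, ← hee', mul_add, h1, h2, add_zero, map_zero]
    have h4 := hu _ hτu
    have h5 := h4.mul_left_eq_zero.1 h3
    exact sub_eq_zero.1 h5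
  have hf : e + e' = 1 := by rw [hee', hτ1, map_one]
  have hef0 : e * e' = 0 := hpp
  have hfe0 : e' * e = 0 := by
    rw [hp2, hτ1, sub_self, map_zero, zero_mul]
  set v : MonoidAlgebra A G := 1 - u with hv
  have hrv : r v = e' := by
    rw [hv, map_sub, map_one, ← hf]; abel
  have hr'v : (r' v).unop = e := by
    rw [hv, map_sub, map_one, MulOpposite.unop_sub, MulOpposite.unop_one, ← he', ← hf]; abel
  have hRv : R v = !![0, 0; 0, 1] := by
    rw [hv, map_sub, map_one, hRu]; decide +kernel
  clear_value v
  have hkey1 : ∀ w, r (u * w * u) = τ (u * w * u) • e := by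
    intro w
    have h1 := hsum (u * w * u)
    have h2 : (r' (u * w * u)).unop = e' * (r' w).unop * e' := by
      rw [map_mul, map_mul, MulOpposite.unop_mul, MulOpposite.unop_mul, mul_assoc]
    have h3 : e * r (u * w * u) = r (u * w * u) := by
      rw [map_mul, map_mul, ← he, ← mul_assoc, ← mul_assoc, hid1]
    have h4 : e * (r (u * w * u) + (r' (u * w * u)).unop) = e * algebraMap A B (τ (u * w * u)) := by
      rw [h1]
    rw [mul_add, h3, h2, ← mul_assoc, ← mul_assoc, hef0, zero_mul, zero_mul, add_zero,
      ← Algebra.commutes, ← Algebra.smul_def] at h4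
    exact h4
  have hkey2 : ∀ w, r (v * w * v) = τ (v * w * v) • e' := by
    intro w
    have h1 := hsum (v * w * v)
    have h2 : (r' (v * w * v)).unop = e * (r' w).unop * e := by
      rw [map_mul, map_mul, MulOpposite.unop_mul, MulOpposite.unop_mul, mul_assoc, hr'v]
    have h3 : e' * r (v * w * v) = r (v * w * v) := by
      rw [map_mul, map_mul, hrv, ← mul_assoc, ← mul_assoc, hid2]
    have h4 : e' * (r (v * w * v) + (r' (v * w * v)).unop) =
        e' * algebraMap A B (τ (v * w * v)) := by
      rw [h1]
    rw [mul_add, h3, h2, ← mul_assoc, ← mul_assoc, hfe0, zero_mul, zero_mul, add_zero,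
      ← Algebra.commutes, ← Algebra.smul_def] at h4
    exact h4
  -- off-diagonal elements
  set α : A := τ (u * (MonoidAlgebra.single g₁ 1 * v * MonoidAlgebra.single g₂ 1) * u) with hα
  have hπα : π α = 1 := by
    rw [hα, htrR, map_mul, map_mul, map_mul, map_mul, hRu, hRv, hRs, hRs, hg₁, hg₂, map_one,
      one_smul, one_smul]
    decide +kernel
  obtain ⟨α', hα'⟩ := (hu _ hπα).exists_left_inv
  have hπα' : π α' = 1 := by
    have := congrArg π hα'
    rwa [map_mul, hπα, mul_one, map_one] at this
  set x : MonoidAlgebra A G := α' • (u * MonoidAlgebra.single g₁ 1 * v) with hx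
  set y : MonoidAlgebra A G := v * MonoidAlgebra.single g₂ 1 * u with hy
  have hvv : r v * r v = r v := by rw [hrv, hid2]
  have hab : r x * r y = e := by
    have h1 : r x * r y = α' • r (u * (MonoidAlgebra.single g₁ 1 * v * MonoidAlgebra.single g₂ 1) * u) := by
      rw [hx, map_smul, smul_mul_assoc, hy]
      simp only [map_mul]
      rw [show r u * r (MonoidAlgebra.single g₁ 1) * r v * (r v * r (MonoidAlgebra.single g₂ 1) * r u) =
        r u * r (MonoidAlgebra.single g₁ 1) * (r v * r v) * r (MonoidAlgebra.single g₂ 1) * r u by noncomm_ring, hvv]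
      simp only [mul_assoc]
    rw [h1, hkey1, smul_smul, ← hα, hα', one_smul]
  set β : A := τ (v * (MonoidAlgebra.single g₂ 1 * u * (α' • (u * MonoidAlgebra.single g₁ 1))) * v) with hβ
  have hsm : ∀ (c : A) (w : MonoidAlgebra A G), R (c • w) = π c • R w := by
    intro c w
    induction w using MonoidAlgebra.induction_linear with
    | zero => simp
    | add u v hu hv => rw [smul_add, map_add, map_add, smul_add, hu, hv]
    | single g x => rw [MonoidAlgebra.smul_single, hRs, hRs, smul_eq_mul, map_mul, smul_smul]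
  have hπβ : π β = 1 := by
    rw [hβ, htrR]
    simp only [map_mul, hsm, hRu, hRv, hRs, hg₁, hg₂, map_one, one_smul, hπα']
    decide +kernel
  have hba0 : r y * r x = β • e' := by
    have h1 : r y * r x = r (v * (MonoidAlgebra.single g₂ 1 * u * (α' • (u * MonoidAlgebra.single g₁ 1))) * v) := by
      rw [hx, hy]
      simp only [map_mul, map_smul, mul_smul_comm, smul_mul_assoc]
      congr 1
      simp only [mul_assoc]
    rw [h1, hkey2, ← hβ]
  have hea : e * r x = r x := by
    rw [hx, map_smul, mul_smul_comm, map_mul, map_mul, ← he, ← mul_assoc, ← mul_assoc, hid1]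
  have hbe : r y * e = r y := by
    rw [hy, map_mul, map_mul, ← he, mul_assoc, mul_assoc, mul_assoc, hid1]
  have hba : r y * r x = e' := by
    have h1 : (r y * r x) * (r y * r x) = r y * r x := by
      rw [show (r y * r x) * (r y * r x) = r y * (r x * r y) * r x by noncomm_ring, hab, hbe]
    rw [hba0, smul_mul_smul_comm, hid2] at h1
    have h2 : β * β - β = (β - 1) * β := by ring
    have h3 : ((β - 1) * β) • e' = 0 := by
      rw [← h2, sub_smul, h1, sub_self]
    obtain ⟨β', hβ'⟩ := (hu _ hπβ).exists_right_inv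
    have h4 : (β - 1) • e' = 0 := by
      have : (β - 1) • e' = β' • (((β - 1) * β) • e') := by
        rw [smul_smul]
        congr 1
        linear_combination (-(β - 1)) * hβ'
      rw [this, h3, smul_zero]
    rw [hba0]
    rw [sub_smul, one_smul, sub_eq_zero] at h4
    exact h4
  have hMU : MU e e' (r x) (r y) := ⟨hf, hid1, hab, hba, hea, hbe⟩
  have hRx : R x = !![0, 1; 0, 0] := by
    rw [hx, hsm, map_mul, map_mul, hRu, hRv, hRs, hg₁, map_one, one_smul, hπα']
    decide +kernel
  have hRy : R y = !![0, 0; 1, 0] := by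
    rw [hy, map_mul, map_mul, hRu, hRv, hRs, hg₂, map_one, one_smul]
    decide +kernel
  have huu : r u * r u = r u := hid1
  -- coordinates
  have hcoord : ∀ w, ∃ X : Matrix (Fin 2) (Fin 2) A, mu e e' (r x) (r y) X = r w ∧
      X.map π = R w ∧ X 0 0 = τ (u * w * u) ∧ X 1 1 = τ (v * w * v) := by
    intro w
    refine ⟨!![τ (u * w * u), τ (u * (w * y) * u); τ (v * (w * x) * v), τ (v * w * v)],
      ?_, ?_, by simp, by simp⟩
    · have h12 : τ (u * (w * y) * u) • r x = r u * r w * r v := by
        have : τ (u * (w * y) * u) • r x = r (u * (w * y) * u) * r x := by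
          rw [hkey1, smul_mul_assoc, hea]
        rw [this]
        simp only [map_mul]
        rw [← he, show e * (r w * r y) * e * r x = e * r w * (r y * (e * r x)) by noncomm_ring,
          hea, hba, hrv]
      have h21 : τ (v * (w * x) * v) • r y = r v * r w * r u := by
        have : τ (v * (w * x) * v) • r y = r (v * (w * x) * v) * r y := by
          rw [hkey2, smul_mul_assoc, hMU.fb]
        rw [this]
        simp only [map_mul]
        rw [hrv, show e' * (r w * r x) * e' * r y = e' * r w * (r x * (e' * r y)) by noncomm_ring,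
          hMU.fb, hab]
      simp only [mu, Matrix.of_apply, Matrix.cons_val', Matrix.cons_val_zero, Matrix.cons_val_one,
        Matrix.cons_val_fin_one]
      rw [h12, h21, ← hkey1, ← hkey2]
      simp only [map_mul]
      rw [hrv, ← he]
      have : r w = (e + e') * r w * (e + e') := by rw [hf]; noncomm_ring
      conv_rhs => rw [this]
      noncomm_ring
    · ext i j
      fin_cases i <;> fin_cases j
      · simp only [Fin.zero_eta, Matrix.map_apply, Matrix.of_apply, Matrix.cons_val',
          Matrix.cons_val_zero, Matrix.cons_val_fin_one]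
        rw [htrR, map_mul, map_mul, hRu]
        generalize R w = Y
        revert Y; decide +kernel
      · simp only [Fin.zero_eta, Fin.mk_one, Matrix.map_apply, Matrix.of_apply, Matrix.cons_val',
          Matrix.cons_val_zero, Matrix.cons_val_one, Matrix.cons_val_fin_one]
        rw [htrR, map_mul, map_mul, map_mul, hRu, hRy]
        generalize R w = Y
        revert Y; decide +kernel
      · simp only [Fin.zero_eta, Fin.mk_one, Matrix.map_apply, Matrix.of_apply, Matrix.cons_val',
          Matrix.cons_val_zero, Matrix.cons_val_one, Matrix.cons_val_fin_one]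
        rw [htrR, map_mul, map_mul, map_mul, hRv, hRx]
        generalize R w = Y
        revert Y; decide +kernel
      · simp only [Fin.mk_one, Matrix.map_apply, Matrix.of_apply, Matrix.cons_val',
          Matrix.cons_val_one, Matrix.cons_val_fin_one]
        rw [htrR, map_mul, map_mul, hRv]
        generalize R w = Y
        revert Y; decide +kernel
  have hmuinj : Function.Injective (mu (A := A) e e' (r x) (r y)) := mu_injective hMU hinj
  have hrsingle : ∀ g, r (MonoidAlgebra.single g 1) = ρ g := by
    intro g; rw [hr, MonoidAlgebra.lift_single, one_smul]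
  choose X hX1 hX2 hX3 hX4 using fun g : G => hcoord (MonoidAlgebra.single g 1)
  have hmul : ∀ g h, X (g * h) = X g * X h := by
    intro g h
    apply hmuinj
    rw [mu_mul hMU, hX1, hX1, hX1, hrsingle, hrsingle, hrsingle, map_mul]
  let ρA : G →* Matrix (Fin 2) (Fin 2) A :=
    { toFun := X
      map_one' := by
        apply hmuinj
        rw [mu_one hMU, hX1, hrsingle, map_one]
      map_mul' := hmul }
  have hρA : ∀ g, ρA g = X g := fun g => rfl
  -- the trace
  have htrace : ∀ g, (ρA g).trace = t g := by
    intro g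
    obtain ⟨Y, hY1, -, hY3, hY4⟩ := hcoord (MonoidAlgebra.single g⁻¹ (χ g))
    have hYX : Y = χ g • X g⁻¹ := by
      apply hmuinj
      rw [hY1]
      have : mu e e' (r x) (r y) (χ g • X g⁻¹) = χ g • mu e e' (r x) (r y) (X g⁻¹) := by
        simp only [mu, Matrix.smul_apply, smul_add, smul_smul, smul_eq_mul]
      rw [this, hX1, hrsingle, hr, MonoidAlgebra.lift_single]
    -- t g = X g + Y as scalar
    have hsumXY : X g + Y = algebraMap A (Matrix (Fin 2) (Fin 2) A) (t g) := by
      apply hmuinj
      rw [mu_add, hX1, hY1, hrsingle, hr, MonoidAlgebra.lift_single, ht]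
      simp [mu, Matrix.algebraMap_matrix_apply, Algebra.algebraMap_eq_smul_one, ← smul_add, hf]
    -- Y 0 0 = X g 1 1
    have hY00 : Y 0 0 = X g 1 1 := by
      -- e * (χ g ρ g⁻¹) * e is the star of f ρ(g) f
      have h1 : r' (v * MonoidAlgebra.single g 1 * v) = MulOpposite.op (e * (χ g • ρ g⁻¹) * e) := by
        rw [map_mul, map_mul]
        apply MulOpposite.unop_injective
        rw [MulOpposite.unop_mul, MulOpposite.unop_mul, hr'v, hr', MonoidAlgebra.lift_single]
        simp only [ρ', MonoidHom.coe_mk, OneHom.coe_mk, one_smul, MulOpposite.unop_op,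
          mul_assoc]
      have h2 := hsum (v * MonoidAlgebra.single g 1 * v)
      rw [h1, MulOpposite.unop_op, hkey2, ← hX4 g] at h2
      have h3 : e * (X g 1 1 • e' + e * (χ g • ρ g⁻¹) * e) = e * algebraMap A B (X g 1 1) := by
        rw [h2]
      rw [mul_add, mul_smul_comm, hef0, smul_zero, zero_add, ← Algebra.commutes,
        ← Algebra.smul_def, ← mul_assoc, ← mul_assoc, hid1] at h3
      have h4 : e * (χ g • ρ g⁻¹) * e = Y 0 0 • e := by
        rw [hY3, ← hkey1, map_mul, map_mul, ← he]
        congr 2
        rw [hr, MonoidAlgebra.lift_single]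
      rw [h4] at h3
      -- cancel e
      have h5 : mu (A := A) e e' (r x) (r y) !![Y 0 0, 0; 0, 0] =
          mu e e' (r x) (r y) !![X g 1 1, 0; 0, 0] := by
        simp [mu, h3]
      have h6 := congrFun (congrFun (hmuinj h5) 0) 0
      simpa using h6
    have h7 := congrFun (congrFun hsumXY 0) 0
    rw [Matrix.add_apply, Matrix.algebraMap_matrix_apply, if_pos rfl, hY00] at h7
    rw [hρA, Matrix.trace_fin_two]
    exact h7
  refine ⟨ρA, e, e', r x, r y, hMU, fun g => by rw [hρA, hX1, hrsingle], fun g => ?_, htrace, ?_,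
    ?_⟩
  · rw [hρA, hX2, hRs, map_one, one_smul]
  · intro g
    -- χ g • ρA g⁻¹ = t g - ρA g = adjugate
    have hsumXY : ρA g + χ g • ρA g⁻¹ = algebraMap A (Matrix (Fin 2) (Fin 2) A) (t g) := by
      apply hmuinj
      rw [mu_add]
      have : mu e e' (r x) (r y) (χ g • ρA g⁻¹) = χ g • mu e e' (r x) (r y) (X g⁻¹) := by
        simp only [mu, Matrix.smul_apply, smul_add, smul_smul, smul_eq_mul, hρA]
      rw [this, hρA, hX1, hX1, hrsingle, hrsingle, ht]
      simp [mu, Matrix.algebraMap_matrix_apply, Algebra.algebraMap_eq_smul_one, ← smul_add, hf]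
    have hadj : χ g • ρA g⁻¹ = (ρA g).adjugate := by
      have h1 : χ g • ρA g⁻¹ = algebraMap A (Matrix (Fin 2) (Fin 2) A) (t g) - ρA g := by
        rw [← hsumXY]; abel
      rw [h1, ← htrace g]
      ext i j
      fin_cases i <;> fin_cases j <;>
        simp [Matrix.algebraMap_matrix_apply, Matrix.adjugate_fin_two, Matrix.trace_fin_two]
    have h2 : ρA g * (ρA g).adjugate = (ρA g).det • 1 := Matrix.mul_adjugate _
    rw [← hadj, mul_smul_comm, ← map_mul, mul_inv_cancel, map_one] at h2
    have h3 := congrFun (congrFun h2 0) 0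
    simp only [Matrix.smul_apply, Matrix.one_apply_eq, smul_eq_mul, mul_one] at h3
    exact h3.symm
  · intro Z
    set RA : MonoidAlgebra A G →ₐ[A] Matrix (Fin 2) (Fin 2) A := MonoidAlgebra.lift A _ G ρA with hRA
    have hmuRA : ∀ w, mu e e' (r x) (r y) (RA w) = r w := by
      intro w
      induction w using MonoidAlgebra.induction_linear with
      | zero => simp [mu]
      | add u v hu hv => rw [map_add, map_add, mu_add, hu, hv]
      | single g c =>
        rw [hRA, MonoidAlgebra.lift_single, hr, MonoidAlgebra.lift_single]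
        have : mu e e' (r x) (r y) (c • ρA g) = c • mu e e' (r x) (r y) (X g) := by
          simp only [mu, Matrix.smul_apply, smul_add, smul_smul, smul_eq_mul, hρA]
        rw [← hr, this, hX1, hrsingle]
    have hmem : ∀ w, RA w ∈ Submodule.span A (Set.range ρA) := by
      intro w
      induction w using MonoidAlgebra.induction_linear with
      | zero => simp
      | add u v hu hv => rw [map_add]; exact Submodule.add_mem _ hu hv
      | single g c =>
        rw [hRA, MonoidAlgebra.lift_single]
        exact Submodule.smul_mem _ _ (Submodule.subset_span ⟨g, rfl⟩)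
    have hw : Z = RA (Z 0 0 • u + Z 0 1 • x + Z 1 0 • y + Z 1 1 • v) := by
      apply hmuinj
      rw [hmuRA]
      simp only [map_add, map_smul, hrv, ← he, mu]
    rw [hw]
    exact hmem _

end Core

end Fermat.Agent.ZThm
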