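import Mathlib

/-!
# Theorem Z, Step 4: a congruence between a faithful module and a character gives eigenvectors
-/

set_option autoImplicit false

namespace Fermat.Agent.ZThm

section

variable {T Λ : Type*} [CommRing T] [Algebra ℤ_[2] T] [AddCommGroup Λ] [Module T Λ]
  [Module ℤ_[2] Λ] [IsScalarTower ℤ_[2] T Λ] [Module.Finite ℤ_[2] Λ] [Module.Free ℤ_[2] Λ]

/-- the transposed action -/
noncomputable def dualAct (T Λ : Type*) [CommRing T] [Algebra ℤ_[2] T] [AddCommGroup Λ]
    [Module T Λ] [Module ℤ_[2] Λ] [IsScalarTower ℤ_[2] T Λ] :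
    T →+* Module.End ℤ_[2] (Module.Dual ℤ_[2] Λ) where
  toFun a := (Algebra.lsmul ℤ_[2] ℤ_[2] Λ a).dualMap
  map_one' := by ext d x; simp
  map_mul' a b := by
    ext d x
    simp only [LinearMap.dualMap_apply, Algebra.lsmul_coe, Module.End.mul_apply]
    rw [mul_comm, mul_smul]
  map_zero' := by ext d x; simp
  map_add' a b := by ext d x; simp

omit [Module.Finite ℤ_[2] Λ] [Module.Free ℤ_[2] Λ] in
theorem dualAct_apply (a : T) (d : Module.Dual ℤ_[2] Λ) (x : Λ) :
    dualAct T Λ a d x = d (a • x) := rfl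

theorem two_pow_dvd_of_not_dvd {a : ℤ_[2]} {b : ℕ} (h : ¬ a ∣ 2 ^ b) : (2 : ℤ_[2]) ^ (b + 1) ∣ a := by
  by_cases ha : a = 0
  · rw [ha]; exact dvd_zero _
  have h2 : Irreducible (2 : ℤ_[2]) := by
    have := PadicInt.irreducible_p (p := 2)
    exact_mod_cast this
  obtain ⟨n, hn⟩ := IsDiscreteValuationRing.associated_pow_irreducible ha h2
  by_cases hnb : n ≤ b
  · exact absurd ((hn.dvd_iff_dvd_left).2 (pow_dvd_pow 2 hnb)) h
  · exact (pow_dvd_pow 2 (by omega)).trans hn.symm.dvd

theorem exists_eigenvector [FaithfulSMul T Λ] (I : Ideal T) (k b : ℕ)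
    (hI : ∀ m : ℕ, (2 : T) ^ m ∈ I → k ≤ m) (hb : b * Module.finrank ℤ_[2] Λ < k) :
    ∃ x : Λ, (¬ ∃ y : Λ, x = (2 : ℤ_[2]) • y) ∧ ∀ a ∈ I, ∃ y : Λ, a • x = (2 : ℤ_[2]) ^ (b + 1) • y := by
  classical
  let : Module T (Module.Dual ℤ_[2] Λ) := Module.compHom _ (dualAct T Λ)
  have hact : ∀ (a : T) (d : Module.Dual ℤ_[2] Λ) (x : Λ), (a • d) x = d (a • x) := fun _ _ _ => rfl
  have : IsScalarTower ℤ_[2] T (Module.Dual ℤ_[2] Λ) := by
    refine ⟨fun r a d => ?_⟩
    ext x
    rw [hact, smul_assoc, map_smul, LinearMap.smul_apply, hact]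
  let D := Module.Dual ℤ_[2] Λ
  let S : Submodule ℤ_[2] D := (I • (⊤ : Submodule T D)).restrictScalars ℤ_[2]
  let β := Module.Free.chooseBasis ℤ_[2] Λ
  let δ := β.dualBasis
  obtain ⟨n, snf⟩ := Submodule.smithNormalForm δ S
  by_cases hall : ∀ j, (2 : ℤ_[2]) ^ b • snf.bM j ∈ S
  · exfalso
    -- the determinant trick
    have hall' : ∀ d : D, (2 : ℤ_[2]) ^ b • d ∈ S := by
      intro d
      rw [← snf.bM.sum_repr d, Finset.smul_sum]
      refine S.sum_mem fun j _ => ?_
      rw [smul_comm]
      exact S.smul_mem _ (hall j)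
    have hspan : Submodule.span T (Set.range δ) = ⊤ := by
      rw [eq_top_iff]
      intro d _
      rw [← δ.sum_repr d]
      refine Submodule.sum_mem _ fun j _ => ?_
      rw [← algebraMap_smul T (δ.repr d j) (δ j)]
      exact Submodule.smul_mem _ _ (Submodule.subset_span ⟨j, rfl⟩)
    have hcoef : ∀ i, ∃ c : Module.Free.ChooseBasisIndex ℤ_[2] Λ → T,
        (∀ j, c j ∈ I) ∧ ∑ j, c j • δ j = (2 : ℤ_[2]) ^ b • δ i := by
      intro i
      have h1 : (2 : ℤ_[2]) ^ b • δ i ∈ I • Submodule.span T (Set.range δ) := by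
        rw [hspan]; exact hall' _
      rw [Submodule.mem_ideal_smul_span_iff_exists_sum] at h1
      obtain ⟨a, ha, hsum⟩ := h1
      refine ⟨a, ha, ?_⟩
      rw [← hsum, Finsupp.sum_fintype _ _ (by simp)]
    choose c hc1 hc2 using hcoef
    let M : Matrix (Module.Free.ChooseBasisIndex ℤ_[2] Λ) (Module.Free.ChooseBasisIndex ℤ_[2] Λ) T :=
      Matrix.scalar _ ((2 : T) ^ b) - Matrix.of c
    have hM : ∀ i, ∑ j, M i j • δ j = 0 := by
      intro i
      have h1 : ∀ j, M i j • δ j = (if i = j then (2 : T) ^ b • δ j else 0) - c i j • δ j := by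
        intro j
        simp only [M, Matrix.sub_apply, Matrix.scalar_apply, Matrix.diagonal_apply, Matrix.of_apply,
          sub_smul]
        split_ifs <;> simp
      rw [Finset.sum_congr rfl fun j _ => h1 j, Finset.sum_sub_distrib, hc2, Finset.sum_ite_eq,
        if_pos (Finset.mem_univ _), ← algebraMap_smul T ((2 : ℤ_[2]) ^ b) (δ i), map_pow,
        map_ofNat, sub_self]
    have hdet : ∀ k, M.det • δ k = 0 := by
      intro k
      have h1 : ∑ i, M.adjugate k i • ∑ j, M i j • δ j = 0 := by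
        simp only [hM, smul_zero, Finset.sum_const_zero]
      simp only [Finset.smul_sum, smul_smul] at h1
      rw [Finset.sum_comm] at h1
      have h2 : ∀ j, ∑ i, (M.adjugate k i * M i j) • δ j = (if k = j then M.det • δ j else 0) := by
        intro j
        rw [← Finset.sum_smul, ← Matrix.mul_apply, Matrix.adjugate_mul, Matrix.smul_apply,
          Matrix.one_apply]
        split_ifs <;> simp
      rw [Finset.sum_congr rfl fun j _ => h2 j, Finset.sum_ite_eq, if_pos (Finset.mem_univ _)] at h1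
      exact h1
    have hdet0 : M.det = 0 := by
      apply FaithfulSMul.eq_of_smul_eq_smul (α := Λ)
      intro x
      rw [zero_smul]
      apply β.ext_elem
      intro i
      have h1 : ∀ y, β.repr y i = δ i y := fun y => (Module.Basis.dualBasis_apply β i y).symm
      rw [h1, h1, map_zero, ← hact, hdet]
      rfl
    have hdetI : (Ideal.Quotient.mk I) M.det = (Ideal.Quotient.mk I) (2 ^ (b * Module.finrank ℤ_[2] Λ)) := by
      rw [RingHom.map_det]
      have h1 : (Ideal.Quotient.mk I).mapMatrix M = Matrix.scalar _ ((Ideal.Quotient.mk I) ((2 : T) ^ b)) := by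
        ext i j
        simp only [M, RingHom.mapMatrix_apply, Matrix.map_apply, Matrix.sub_apply, Matrix.scalar_apply,
          Matrix.diagonal_apply, Matrix.of_apply, map_sub]
        rw [Ideal.Quotient.eq_zero_iff_mem.2 (hc1 i j), sub_zero]
        split_ifs <;> simp
      rw [h1, Matrix.scalar_apply, Matrix.det_diagonal, Finset.prod_const, Finset.card_univ,
        ← Module.finrank_eq_card_basis β, ← map_pow, ← pow_mul]
    rw [hdet0, map_zero] at hdetI
    have := hI _ (Ideal.Quotient.eq_zero_iff_mem.1 hdetI.symm)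
    omega
  · push Not at hall
    obtain ⟨j, hj⟩ := hall
    let x : Λ := (Module.evalEquiv ℤ_[2] Λ).symm (snf.bM.coord j)
    have hx : ∀ d : D, d x = snf.bM.coord j d := by
      intro d
      have h1 : Module.evalEquiv ℤ_[2] Λ x = snf.bM.coord j := LinearEquiv.apply_symm_apply _ _
      rw [← h1]
      rfl
    have hS : ∀ s ∈ S, (2 : ℤ_[2]) ^ (b + 1) ∣ snf.bM.coord j s := by
      intro s hs
      have h1 := snf.bN.sum_repr ⟨s, hs⟩
      have h2 : s = ∑ i, (snf.bN.repr ⟨s, hs⟩ i) • (snf.a i • snf.bM (snf.f i)) := by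
        calc s = ((∑ i, (snf.bN.repr ⟨s, hs⟩ i) • snf.bN i : S) : D) := by rw [h1]
          _ = _ := by
            rw [AddSubmonoidClass.coe_finsetSum]
            refine Finset.sum_congr rfl fun i _ => ?_
            rw [SetLike.val_smul, snf.snf]
      rw [h2, map_sum]
      refine Finset.dvd_sum fun i _ => ?_
      rw [map_smul, map_smul, Module.Basis.coord_apply, Module.Basis.repr_self, smul_eq_mul,
        smul_eq_mul]
      by_cases hij : snf.f i = j
      · apply Dvd.dvd.mul_left
        apply Dvd.dvd.mul_right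
        apply two_pow_dvd_of_not_dvd
        rintro ⟨c, hc⟩
        apply hj
        rw [← hij, hc, mul_comm, mul_smul, ← snf.snf]
        exact S.smul_mem _ (snf.bN i).2
      · rw [Finsupp.single_eq_of_ne (Ne.symm hij), mul_zero, mul_zero]
        exact dvd_zero _
    refine ⟨x, ?_, ?_⟩
    · rintro ⟨y, hy⟩
      have h1 : snf.bM j x = 1 := by
        rw [hx, Module.Basis.coord_apply, Module.Basis.repr_self, Finsupp.single_eq_same]
      rw [hy, map_smul, smul_eq_mul] at h1
      have h2 : IsUnit (2 : ℤ_[2]) := IsUnit.of_mul_eq_one _ h1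
      have h3 := PadicInt.prime_p (p := 2)
      exact h3.not_isUnit (by exact_mod_cast h2)
    · intro a ha
      have h1 : ∀ i, (2 : ℤ_[2]) ^ (b + 1) ∣ β.repr (a • x) i := by
        intro i
        have h2 : β.repr (a • x) i = δ i (a • x) := (Module.Basis.dualBasis_apply β i _).symm
        have h3 : (a • δ i : D) ∈ S := by
          change (a • δ i : D) ∈ (I • (⊤ : Submodule T D))
          exact Submodule.smul_mem_smul ha Submodule.mem_top
        have h4 : δ i (a • x) = (a • δ i : D) x := rfl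
        rw [h2, h4, hx]
        exact hS _ h3
      choose c hc using h1
      refine ⟨∑ i, c i • β i, ?_⟩
      rw [Finset.smul_sum]
      conv_lhs => rw [← β.sum_repr (a • x)]
      refine Finset.sum_congr rfl fun i _ => ?_
      rw [hc, mul_smul]

end

end Fermat.Agent.ZThm
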