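import Fermat.Agent.ZThm.Defs
import Mathlib.RingTheory.Nilpotent.Basic
import Mathlib.RingTheory.Noetherian.Nilpotent
import Mathlib.RingTheory.Ideal.Quotient.Operations
import Mathlib.LinearAlgebra.Matrix.NonsingularInverse

/-!
# Theorem Z, step 2: representations in characteristic `2` with trivial Selmer group are dihedral
-/

set_option autoImplicit false

namespace Fermat.Agent.ZThm

open Matrix

local notation "Qb" => AlgebraicClosure ℚ
local notation "GQ" => AlgebraicClosure ℚ ≃ₐ[ℚ] AlgebraicClosure ℚ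

/-- the standard element of order `3` -/
def S0 : M2 (ZMod 2) := !![0, 1; 1, 1]

/-- the sign character on `GL₂(𝔽₂)`, as a function with values in `ZMod 2`. -/
def eM (m : M2 (ZMod 2)) : ZMod 2 := if m * S0 = S0 * m then 0 else 1

theorem eM_spec : ∀ m : M2 (ZMod 2), m.det = 1 → m * S0 = (S0 + Matrix.scalar (Fin 2) (eM m)) * m := by
  decide +kernel

theorem eM_mul : ∀ m n : M2 (ZMod 2), m.det = 1 → n.det = 1 → eM (m * n) = eM m + eM n := by
  decide +kernel

theorem eM_one : eM 1 = 0 := by decide +kernel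

/-- off-diagonal matrices (with respect to `S0`) -/
def IsOff (X : M2 (ZMod 2)) : Prop := S0 * X + X * S0 + X = 0

instance (X : M2 (ZMod 2)) : Decidable (IsOff X) := by unfold IsOff; infer_instance

/-- coordinates of off-diagonal matrices -/
def phi (X : M2 (ZMod 2)) : V2 := ![X 0 1, X 1 0]

/-- inverse of `phi` -/
def phiInv (v : V2) : M2 (ZMod 2) := !![v 0 + v 1, v 0; v 1, v 0 + v 1]

theorem isOff_phiInv : ∀ v : V2, IsOff (phiInv v) := by decide +kernel

theorem phiInv_phi : ∀ X : M2 (ZMod 2), IsOff X → phiInv (phi X) = X := by decide +kernel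

theorem phi_phiInv : ∀ v : V2, phi (phiInv v) = v := by decide +kernel

theorem phi_conj : ∀ m X : M2 (ZMod 2), m.det = 1 → IsOff X →
    phi (m * X * m.adjugate) = m.mulVec (phi X) := by
  decide +kernel

theorem phi_add (X Y : M2 (ZMod 2)) : phi (X + Y) = phi X + phi Y := by
  ext i; fin_cases i <;> rfl

theorem isOff_conj : ∀ m X : M2 (ZMod 2), m.det = 1 → IsOff X → IsOff (m * X * m.adjugate) := by
  decide +kernel

section Socle

variable {A : Type*} [CommRing A]

theorem exists_socle [Finite A] (π : A →+* ZMod 2)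
    (hnil : ∀ a, π a = 0 → IsNilpotent a) (hinj : ¬ Function.Injective π) :
    ∃ s : A, s ≠ 0 ∧ π s = 0 ∧ ∀ a, π a = 0 → a * s = 0 := by
  classical
  have hnt : Nontrivial A := ⟨0, 1, fun h => zero_ne_one (α := ZMod 2) (by
    rw [← map_zero π, ← map_one π, h])⟩
  have hI : IsNilpotent (RingHom.ker π) := by
    have hfg : (RingHom.ker π).FG := IsNoetherian.noetherian _
    rw [Ideal.FG.isNilpotent_iff_le_nilradical hfg]
    intro a ha
    exact hnil a ha
  have hn := Nat.find_spec hI
  set n := Nat.find hI with hndef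
  have hn0 : n ≠ 0 := by
    intro h
    rw [h, pow_zero, Ideal.one_eq_top] at hn
    exact top_ne_bot hn
  obtain ⟨k, hk⟩ := Nat.exists_eq_succ_of_ne_zero hn0
  have hk1 : (RingHom.ker π) ^ k ≠ 0 := Nat.find_min hI (by omega)
  have hk0 : k ≠ 0 := by
    rintro rfl
    rw [hk, Nat.succ_eq_add_one, zero_add, pow_one] at hn
    exact hinj ((RingHom.injective_iff_ker_eq_bot π).mpr hn)
  obtain ⟨s, hs, hs0⟩ := Submodule.exists_mem_ne_zero_of_ne_bot hk1
  refine ⟨s, hs0, ?_, ?_⟩
  · exact Ideal.pow_le_self hk0 hs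
  · intro a ha
    have h1 : a * s ∈ (RingHom.ker π) ^ n := by
      rw [hk, Nat.succ_eq_add_one, pow_succ']
      exact Ideal.mul_mem_mul ha hs
    rw [hn] at h1
    exact h1

variable {π : A →+* ZMod 2} {s : A} (hs0 : s ≠ 0) (hs : ∀ a, π a = 0 → a * s = 0)

include hs in
theorem smul_eq_zero_of_map {M : M2 A} (h : M.map π = 0) : s • M = 0 := by
  ext i j
  have h1 : π (M i j) = 0 := congrFun (congrFun h i) j
  simp only [Matrix.smul_apply, smul_eq_mul, Matrix.zero_apply]
  rw [mul_comm]
  exact hs _ h1

include hs hs0 in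
theorem map_eq_zero_of_smul {M : M2 A} (h : s • M = 0) : M.map π = 0 := by
  ext i j
  have h1 : s * M i j = 0 := congrFun (congrFun h i) j
  simp only [Matrix.map_apply, Matrix.zero_apply]
  by_contra h2
  have h3 : π (M i j) = 1 := by
    revert h2
    generalize π (M i j) = x
    revert x; decide
  have h4 : π (M i j - 1) = 0 := by rw [map_sub, map_one, h3, sub_self]
  have h5 := hs _ h4
  rw [sub_mul, one_mul, mul_comm, h1, zero_sub, neg_eq_zero] at h5
  exact hs0 h5

/-- matrices vanishing modulo `s` -/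
theorem exists_eq_smul {M : M2 A} (h : M.map (Ideal.Quotient.mk (Ideal.span {s})) = 0) :
    ∃ Y : M2 A, M = s • Y := by
  have h1 : ∀ i j, ∃ y, M i j = s * y := by
    intro i j
    have h2 : Ideal.Quotient.mk (Ideal.span {s}) (M i j) = 0 := congrFun (congrFun h i) j
    rw [Ideal.Quotient.eq_zero_iff_mem, Ideal.mem_span_singleton] at h2
    obtain ⟨y, hy⟩ := h2
    exact ⟨y, hy⟩
  choose Y hY using h1
  exact ⟨Matrix.of Y, by ext i j; simp [hY]⟩

end Socle

/-- Local structure at a decomposition group `D` with inertia group `I`: `ρ s = z s + f s N`. -/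
def LocForm {A : Type*} [CommRing A] (π : A →+* ZMod 2) (ρ : GQ →* M2 A) (D I : Subgroup GQ) :
    Prop :=
  ∃ (N : M2 A) (z f : GQ → A), N * N = 0 ∧ N.map π ≠ 0 ∧
    (∀ s ∈ D, z s * z s = 1 ∧ ρ s = Matrix.scalar (Fin 2) (z s) + f s • N) ∧
    ∀ s ∈ D, s ∈ I → z s = 1

/-- The hypotheses on a representation in characteristic `2`. -/
structure Hyp {A : Type*} [CommRing A] (π : A →+* ZMod 2) (rb : GQ →* M2 (ZMod 2)) (N : ℕ)
    (Q : Finset ℕ) (ρ : GQ →* M2 A) : Prop where
  nil : ∀ a, π a = 0 → IsNilpotent a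
  map : ∀ g, (ρ g).map π = rb g
  det : ∀ g, (ρ g).det = 1
  smooth : ∃ L : IntermediateField ℚ Qb, FiniteDimensional ℚ L ∧
    ∀ σ : GQ, (∀ x ∈ L, σ x = x) → ρ σ = 1
  unram : ∀ ℓ : ℕ, ℓ.Prime → ¬ ℓ ∣ N → ℓ ∉ Q → ∀ A : ValuationSubring Qb, A.LiesOverPrime ℓ →
    ∀ s ∈ A.inertiaSubgroupIn ℚ, ρ s = 1
  loc : ∀ v : ℕ, v.Prime → (v ∣ N ∨ v ∈ Q) → ∀ A : ValuationSubring Qb, A.LiesOverPrime v →
    LocForm π ρ (A.decompositionSubgroup ℚ) (A.inertiaSubgroupIn ℚ)

section Step

variable {A : Type*} [CommRing A] [Algebra (ZMod 2) A] {π : A →+* ZMod 2}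
  {rb : GQ →* M2 (ZMod 2)} {N : ℕ} {Q : Finset ℕ} {ρ : GQ →* M2 A}

/-- the sign as an element of `A` -/
def eA (A : Type*) [CommRing A] [Algebra (ZMod 2) A] (m : M2 (ZMod 2)) : A :=
  algebraMap (ZMod 2) A (eM m)

omit [Algebra (ZMod 2) A] in
theorem det_rb (h : Hyp π rb N Q ρ) (g : GQ) : (rb g).det = 1 := by
  rw [← h.map g, ← RingHom.mapMatrix_apply, ← RingHom.map_det, h.det, map_one]

theorem two_eq_zero' : (2 : A) = 0 := by
  have h : (2 : ZMod 2) = 0 := by decide
  have h1 := congrArg (algebraMap (ZMod 2) A) h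
  rw [map_ofNat, map_zero] at h1
  exact h1

theorem add_self_M (M : M2 A) : M + M = 0 := by
  rw [← two_smul A M, two_eq_zero', zero_smul]

theorem neg_eq_M (M : M2 A) : -M = M := by
  rw [neg_eq_iff_add_eq_zero, add_self_M]

theorem sub_eq_M (M M' : M2 A) : M - M' = M + M' := by
  rw [sub_eq_add_neg, neg_eq_M]

theorem eA_mul_self (m : M2 (ZMod 2)) : eA A m * eA A m = eA A m := by
  rw [eA, ← map_mul]
  congr 1
  generalize eM m = x
  revert x; decide

theorem map_scalar_algebraMap (x : ZMod 2) :
    (Matrix.scalar (Fin 2) (algebraMap (ZMod 2) A x)).map π = Matrix.scalar (Fin 2) x := by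
  have h : ∀ y : ZMod 2, π (algebraMap (ZMod 2) A y) = y := by
    intro y
    have : (π.comp (algebraMap (ZMod 2) A)) = RingHom.id (ZMod 2) := Subsingleton.elim _ _
    exact congrArg (fun f : ZMod 2 →+* ZMod 2 => f y) this
  ext i j
  fin_cases i <;> fin_cases j <;> simp [h]

theorem map_lift (Y : M2 (ZMod 2)) : (Y.map (algebraMap (ZMod 2) A)).map π = Y := by
  ext i j
  have : (π.comp (algebraMap (ZMod 2) A)) = RingHom.id (ZMod 2) := Subsingleton.elim _ _
  exact congrArg (fun f : ZMod 2 →+* ZMod 2 => f (Y i j)) this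

/-- The statement to be proved by induction. -/
def Good (π : A →+* ZMod 2) (rb : GQ →* M2 (ZMod 2)) (ρ : GQ →* M2 A) (T : M2 A) : Prop :=
  T * T + T + 1 = 0 ∧ T.map π = S0 ∧
    ∀ g, ρ g * T = (T + Matrix.scalar (Fin 2) (eA A (rb g))) * ρ g

omit [Algebra (ZMod 2) A] in
theorem scalar_comm (a : A) (M : M2 A) :
    Matrix.scalar (Fin 2) a * M = M * Matrix.scalar (Fin 2) a :=
  (Matrix.scalar_commute a (fun _ => Commute.all _ _) M).eq

variable {s : A} (hs0 : s ≠ 0) (hs : ∀ a, π a = 0 → a * s = 0) (hss : s * s = 0)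

omit [Algebra (ZMod 2) A] in
include hss in
theorem smul_mul_smul_zero (X Y : M2 A) : (s • X) * (s • Y) = 0 := by
  rw [Matrix.smul_mul, Matrix.mul_smul, smul_smul, hss, zero_smul]

include hs0 hs hss in
/-- the inductive step -/
theorem good_step (h : Hyp π rb N Q ρ) (hsel : SelZero rb N Q) (T : M2 A)
    (hT : T * T + T + 1 = 0) (hTπ : T.map π = S0)
    (hg : ∀ g, ∃ X : M2 A, ρ g * T * ρ g⁻¹ = T + Matrix.scalar (Fin 2) (eA A (rb g)) + s • X) :
    ∃ T', Good π rb ρ T' := by
  choose X hX using hg
  have hinv : ∀ g, ρ g * ρ g⁻¹ = 1 := fun g => by rw [← map_mul, mul_inv_cancel, map_one]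
  have hinv' : ∀ g, ρ g⁻¹ * ρ g = 1 := fun g => by rw [← map_mul, inv_mul_cancel, map_one]
  have hdet := det_rb h
  have hrbinv : ∀ g, rb g⁻¹ = (rb g).adjugate := by
    intro g
    have h1 : rb g * rb g⁻¹ = 1 := by rw [← map_mul, mul_inv_cancel, map_one]
    have h2 : (rb g).adjugate * rb g = 1 := by rw [Matrix.adjugate_mul, hdet, one_smul]
    calc rb g⁻¹ = ((rb g).adjugate * rb g) * rb g⁻¹ := by rw [h2, one_mul]
      _ = (rb g).adjugate := by rw [mul_assoc, h1, mul_one]
  have hmap : ∀ M M' : M2 A, (M * M').map π = M.map π * M'.map π := fun M M' =>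
    Matrix.map_mul
  have hmapadd : ∀ M M' : M2 A, (M + M').map π = M.map π + M'.map π := fun M M' =>
    Matrix.map_add π (map_add π) M M'
  have hinj : ∀ M M' : M2 A, s • M = s • M' → M.map π = M'.map π := by
    intro M M' h1
    have h2 : s • (M - M') = 0 := by rw [smul_sub, h1, sub_self]
    have h3 := map_eq_zero_of_smul hs0 hs h2
    have h4 : (M - M').map π = M.map π - M'.map π := Matrix.map_sub π (map_sub π) M M'
    rw [h4] at h3
    exact sub_eq_zero.mp h3
  have hcong : ∀ M M' : M2 A, M.map π = M'.map π → s • M = s • M' := by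
    intro M M' h1
    have h4 : (M - M').map π = M.map π - M'.map π := Matrix.map_sub π (map_sub π) M M'
    have h2 : s • (M - M') = 0 := smul_eq_zero_of_map hs (by rw [h4, h1, sub_self])
    rw [smul_sub] at h2
    exact sub_eq_zero.mp h2
  let Xb : GQ → M2 (ZMod 2) := fun g => (X g).map π
  have headd : ∀ g k, eA A (rb (g * k)) = eA A (rb g) + eA A (rb k) := by
    intro g k
    rw [eA, map_mul, eM_mul _ _ (hdet g) (hdet k), map_add]
    rfl
  -- cocycle relation
  have hcoc : ∀ g k, Xb (g * k) = Xb g + rb g * Xb k * rb g⁻¹ := by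
    intro g k
    have h1 : s • X (g * k) = s • (X g + ρ g * X k * ρ g⁻¹) := by
      have e1 := hX (g * k)
      have e2 : ρ (g * k) * T * ρ (g * k)⁻¹ = ρ g * (ρ k * T * ρ k⁻¹) * ρ g⁻¹ := by
        rw [_root_.mul_inv_rev, map_mul, map_mul]
        simp only [mul_assoc]
      rw [e2, hX k, mul_add, mul_add, add_mul, add_mul, hX g, ← scalar_comm, mul_assoc, hinv,
        mul_one, headd, map_add, Matrix.mul_smul, Matrix.smul_mul] at e1
      have e3 : T + Matrix.scalar (Fin 2) (eA A (rb g)) + s • X g +
          Matrix.scalar (Fin 2) (eA A (rb k)) + s • (ρ g * X k * ρ g⁻¹) =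
          T + (Matrix.scalar (Fin 2) (eA A (rb g)) + Matrix.scalar (Fin 2) (eA A (rb k))) +
            (s • X g + s • (ρ g * X k * ρ g⁻¹)) := by abel
      rw [e3] at e1
      rw [smul_add]
      exact (add_left_cancel e1).symm
    have h2 := hinj _ _ h1
    rw [hmapadd, hmap, hmap, h.map, h.map] at h2
    exact h2
  -- off-diagonal
  have hoff : ∀ g, IsOff (Xb g) := by
    intro g
    set e := Matrix.scalar (Fin 2) (eA A (rb g)) with he
    have h1 : (ρ g * T * ρ g⁻¹) * (ρ g * T * ρ g⁻¹) + ρ g * T * ρ g⁻¹ + 1 = 0 := by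
      have e1 : (ρ g * T * ρ g⁻¹) * (ρ g * T * ρ g⁻¹) = ρ g * (T * T) * ρ g⁻¹ := by
        calc (ρ g * T * ρ g⁻¹) * (ρ g * T * ρ g⁻¹) = ρ g * T * (ρ g⁻¹ * ρ g) * T * ρ g⁻¹ := by
              simp only [mul_assoc]
          _ = _ := by rw [hinv', mul_one]; simp only [mul_assoc]
      have e2 : ρ g * (T * T + T + 1) * ρ g⁻¹ = 0 := by rw [hT, mul_zero, zero_mul]
      rw [mul_add, mul_add, add_mul, add_mul, mul_one, hinv] at e2
      rw [e1]
      exact e2
    have hee : e * e = e := by
      rw [he, ← map_mul, eA_mul_self]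
    have heT : e * T = T * e := scalar_comm _ _
    have heX : e * X g = X g * e := scalar_comm _ _
    rw [hX g] at h1
    have h2 : s • (T * X g + X g * T + X g) = 0 := by
      have e3 : (T + e + s • X g) * (T + e + s • X g) + (T + e + s • X g) + 1 =
          (T * T + T + 1) + (T * e + T * e) + (e + e) + (s • X g * s • X g) +
          (s • (X g * e) + s • (X g * e)) + s • (T * X g + X g * T + X g) := by
        simp only [add_mul, mul_add, Matrix.mul_smul, Matrix.smul_mul, smul_add, heT, hee, heX]
        abel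
      rw [e3, hT, smul_mul_smul_zero hss, add_self_M (T * e), add_self_M e,
        add_self_M (s • (X g * e))] at h1
      simpa only [add_zero, zero_add] using h1
    have h3 := map_eq_zero_of_smul hs0 hs h2
    rw [hmapadd, hmapadd, hmap, hmap, hTπ] at h3
    exact h3
  -- the Selmer cocycle
  have hfix : ∀ g, ρ g = 1 → Xb g = 0 := by
    intro g hg1
    have e1 := hX g
    have hrb : rb g = 1 := by
      rw [← h.map g, hg1]
      exact Matrix.map_one π (map_zero π) (map_one π)
    have hg2 : ρ g⁻¹ = 1 := by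
      have := hinv g
      rwa [hg1, one_mul] at this
    rw [hg1, hg2, one_mul, mul_one, hrb, eA, eM_one, map_zero, map_zero, add_zero] at e1
    have e2 : s • X g = 0 := by
      have := e1
      nth_rewrite 1 [← add_zero T] at this
      exact (add_left_cancel this).symm
    exact map_eq_zero_of_smul hs0 hs e2
  have hcommloc : ∀ D I : Subgroup GQ, LocForm π ρ D I → ∀ g ∈ D, ∀ t ∈ D,
      rb t * Xb g = Xb g * rb t := by
    rintro D I ⟨N', z, f, hN, -, hD, -⟩ g hgD t ht
    have hinvg : ρ g⁻¹ = ρ g := by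
      have e1 : ρ g * ρ g = 1 := by
        rw [(hD g hgD).2]
        have e2 : (Matrix.scalar (Fin 2) (z g) + f g • N') * (Matrix.scalar (Fin 2) (z g) + f g • N')
            = Matrix.scalar (Fin 2) (z g * z g) + (f g • (Matrix.scalar (Fin 2) (z g) * N') +
              f g • (Matrix.scalar (Fin 2) (z g) * N')) + (f g * f g) • (N' * N') := by
          rw [map_mul, add_mul, mul_add, mul_add, Matrix.mul_smul, Matrix.smul_mul, Matrix.smul_mul,
            Matrix.mul_smul, ← scalar_comm (z g) N', smul_smul]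
          abel
        rw [e2, (hD g hgD).1, add_self_M, hN, smul_zero, add_zero, add_zero, map_one]
      calc ρ g⁻¹ = ρ g⁻¹ * (ρ g * ρ g) := by rw [e1, mul_one]
        _ = ρ g := by rw [← mul_assoc, hinv', one_mul]
    have hNN : N' * T * N' * N' = 0 := by rw [mul_assoc, hN, mul_zero]
    have hNN' : N' * (N' * T * N') = 0 := by
      rw [← mul_assoc, ← mul_assoc, hN, zero_mul, zero_mul]
    have key : N' * (s • X g) = (s • X g) * N' := by
      have e1 := hX g
      rw [hinvg] at e1
      set e := Matrix.scalar (Fin 2) (eA A (rb g)) with he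
      set Z := Matrix.scalar (Fin 2) (z g) with hZ
      have hZN : Z * N' = N' * Z := scalar_comm _ _
      have hZT : Z * T = T * Z := scalar_comm _ _
      have hZZ : Z * Z = 1 := by rw [hZ, ← map_mul, (hD g hgD).1, map_one]
      have e2 : ρ g * T * ρ g = T + f g • (Z * (N' * T + T * N')) + (f g * f g) • (N' * T * N') := by
        rw [(hD g hgD).2, ← hZ]
        have c1 : Z * T * Z = T := by rw [hZT, mul_assoc, hZZ, mul_one]
        have c2 : N' * T * Z = Z * (N' * T) := by
          rw [← mul_assoc, hZN, mul_assoc, mul_assoc, hZT]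
        have c3 : Z * T * N' = Z * (T * N') := mul_assoc _ _ _
        rw [add_mul, add_mul, mul_add, mul_add, c1, Matrix.smul_mul, Matrix.smul_mul,
          Matrix.smul_mul, Matrix.mul_smul, Matrix.mul_smul, c2, c3, smul_smul, mul_add, smul_add]
        abel
      rw [e2] at e1
      have e3 : s • X g = f g • (Z * (N' * T + T * N')) + (f g * f g) • (N' * T * N') + e := by
        have e4 : T + (f g • (Z * (N' * T + T * N')) + (f g * f g) • (N' * T * N') + e) =
            T + s • X g := by
          calc T + (f g • (Z * (N' * T + T * N')) + (f g * f g) • (N' * T * N') + e)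
              = (T + f g • (Z * (N' * T + T * N')) + (f g * f g) • (N' * T * N')) + e := by abel
            _ = T + e + s • X g + e := by rw [e1]
            _ = T + s • X g + (e + e) := by abel
            _ = T + s • X g := by rw [add_self_M, add_zero]
        exact (add_left_cancel e4).symm
      have heN : N' * e = e * N' := (scalar_comm _ _).symm
      have c4 : N' * (Z * (N' * T + T * N')) = Z * (N' * T * N') := by
        rw [← mul_assoc, ← hZN, mul_assoc, mul_add, ← mul_assoc N' N' T, hN, zero_mul, zero_add,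
          mul_assoc N' T N']
      have c5 : (Z * (N' * T + T * N')) * N' = Z * (N' * T * N') := by
        rw [mul_assoc, add_mul, mul_assoc T N' N', hN, mul_zero, add_zero]
      rw [e3, mul_add, mul_add, add_mul, add_mul, Matrix.mul_smul, Matrix.mul_smul, Matrix.smul_mul,
        Matrix.smul_mul, c4, c5, hNN, hNN', heN]
    have key2 : s • (ρ t * X g) = s • (X g * ρ t) := by
      rw [(hD t ht).2, add_mul, mul_add, smul_add, smul_add, scalar_comm, Matrix.smul_mul,
        Matrix.mul_smul]
      congr 1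
      rw [smul_comm s (f t), smul_comm s (f t)]
      congr 1
      rw [Matrix.mul_smul, Matrix.smul_mul] at key
      exact key
    have h3 := hinj _ _ key2
    rw [hmap, hmap, h.map] at h3
    exact h3
  have hSel : IsSel rb N Q (fun g => phi (Xb g)) := by
    refine ⟨⟨?_, ?_⟩, ?_, ?_⟩
    · intro g k
      change phi (Xb (g * k)) = phi (Xb g) + (rb g).mulVec (phi (Xb k))
      rw [hcoc, phi_add, hrbinv, phi_conj _ _ (hdet g) (hoff k)]
    · obtain ⟨L, hL, h1⟩ := h.smooth
      refine ⟨L, hL, fun σ hσ => ?_⟩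
      change phi (Xb σ) = 0
      rw [hfix σ (h1 σ hσ)]
      ext i; fin_cases i <;> rfl
    · intro ℓ hℓ hℓN hℓQ B hB g hgB
      change phi (Xb g) = 0
      rw [hfix g (h.unram ℓ hℓ hℓN hℓQ B hB g hgB)]
      ext i; fin_cases i <;> rfl
    · intro v hv hvN B hB
      refine ⟨0, fun g hgD t ht => ?_⟩
      have h1 := hcommloc _ _ (h.loc v hv hvN B hB) g hgD t ht
      have h2 : rb t * Xb g * rb t⁻¹ = Xb g := by
        rw [h1, mul_assoc, ← map_mul, mul_inv_cancel, map_one, mul_one]
      have h3 : (rb g).mulVec (0 : V2) - 0 = 0 := by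
        rw [Matrix.mulVec_zero, sub_zero]
      rw [h3, add_zero]
      change (rb t).mulVec (phi (Xb g)) = phi (Xb g)
      rw [← phi_conj _ _ (hdet t) (hoff g), ← hrbinv, h2]
  obtain ⟨m, hm⟩ := hsel _ hSel
  let W := phiInv m
  have hW : IsOff W := isOff_phiInv m
  have hXW : ∀ g, Xb g = rb g * W * rb g⁻¹ + W := by
    intro g
    have e1 : phi (Xb g) = (rb g).mulVec m - m := hm g
    have e2 : phi (rb g * W * rb g⁻¹ + W) = (rb g).mulVec m - m := by
      rw [phi_add, hrbinv, phi_conj _ _ (hdet g) hW, phi_phiInv]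
      have : ∀ x y : V2, x + y = x - y := by decide +kernel
      exact this _ _
    have hoffW : IsOff (rb g * W * rb g⁻¹ + W) := by
      rw [hrbinv]
      have e3 := isOff_conj (rb g) W (hdet g) hW
      have : ∀ x y : M2 (ZMod 2), IsOff x → IsOff y → IsOff (x + y) := by
        intro x y hx hy
        have : S0 * (x + y) + (x + y) * S0 + (x + y) =
            (S0 * x + x * S0 + x) + (S0 * y + y * S0 + y) := by
          rw [mul_add, add_mul]; abel
        rw [IsOff, this, hx, hy, add_zero]
      exact this _ _ e3 hW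
    rw [← phiInv_phi _ (hoff g), ← phiInv_phi _ hoffW, e1, e2]
  set W' : M2 A := W.map (algebraMap (ZMod 2) A) with hW'
  have hW'π : W'.map π = W := map_lift W
  refine ⟨T + s • W', ?_, ?_, ?_⟩
  · have e1 : (T + s • W') * (T + s • W') + (T + s • W') + 1 =
        (T * T + T + 1) + (s • W' * s • W') + s • (T * W' + W' * T + W') := by
      simp only [add_mul, mul_add, Matrix.mul_smul, Matrix.smul_mul, smul_add]
      abel
    rw [e1, hT, smul_mul_smul_zero hss, zero_add, zero_add]
    refine smul_eq_zero_of_map hs ?_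
    rw [hmapadd, hmapadd, hmap, hmap, hTπ, hW'π]
    exact hW
  · rw [hmapadd, hTπ]
    have : (s • W').map π = 0 := by
      ext i j
      simp only [Matrix.map_apply, Matrix.smul_apply, smul_eq_mul, map_mul, Matrix.zero_apply]
      have hπs : π s = 0 := by
        by_contra h1
        have h2 : π (s - 1) = 0 := by
          rw [map_sub, map_one]
          revert h1
          generalize π s = x
          revert x; decide
        have h3 := hs _ h2
        rw [sub_mul, one_mul, hss, zero_sub, neg_eq_zero] at h3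
        exact hs0 h3
      rw [hπs, zero_mul]
    rw [this, add_zero]
  · intro g
    set e := Matrix.scalar (Fin 2) (eA A (rb g)) with he
    have e1 : ρ g * T = (T + e + s • X g) * ρ g := by
      rw [← hX g, mul_assoc, hinv', mul_one]
    have e2 : s • X g * ρ g + ρ g * s • W' = s • W' * ρ g := by
      rw [Matrix.smul_mul, Matrix.mul_smul, Matrix.smul_mul, ← smul_add]
      refine hcong _ _ ?_
      rw [hmapadd, hmap, hmap, hmap, h.map, hW'π]
      have e3 : (X g).map π = rb g * W * rb g⁻¹ + W := hXW g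
      have e4 : rb g⁻¹ * rb g = 1 := by rw [← map_mul, inv_mul_cancel, map_one]
      rw [e3, add_mul, mul_assoc (rb g * W), e4, mul_one]
      have : ∀ x y : M2 (ZMod 2), x + y + x = y := by
        intro x y
        have hx : x + x = 0 := by
          ext i j
          have : ∀ a : ZMod 2, a + a = 0 := by decide
          exact this _
        rw [add_comm x y, add_assoc, hx, add_zero]
      exact this _ _
    calc ρ g * (T + s • W') = T * ρ g + e * ρ g + (s • X g * ρ g + ρ g * s • W') := by
          rw [mul_add, e1, add_mul, add_mul]; abel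
      _ = (T + s • W' + e) * ρ g := by rw [e2, add_mul, add_mul]; abel

end Step

section Main

universe u

theorem det_map_ne {A : Type*} [CommRing A] {π : A →+* ZMod 2} {a : A} (h : π a = 1)
    (hnil : ∀ a, π a = 0 → IsNilpotent a) : IsUnit a := by
  have h1 : IsNilpotent (a - 1) := hnil _ (by rw [map_sub, map_one, h, sub_self])
  have h2 := h1.isUnit_one_add
  rwa [add_sub_cancel] at h2

theorem exists_good_aux (rb : GQ →* M2 (ZMod 2)) (N : ℕ) (Q : Finset ℕ)
    (hsel : SelZero rb N Q) (n : ℕ) :
    ∀ (A : Type u) [CommRing A] [Algebra (ZMod 2) A] [Finite A] (π : A →+* ZMod 2)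
      (ρ : GQ →* M2 A), Nat.card A = n → Hyp π rb N Q ρ → ∃ T, Good π rb ρ T := by
  induction n using Nat.strong_induction_on with
  | _ n ih =>
  intro A _ _ _ π ρ hn h
  by_cases hinj : Function.Injective π
  · -- `A = 𝔽₂`
    have hsurj : ∀ y : ZMod 2, π (algebraMap (ZMod 2) A y) = y := by
      intro y
      have : (π.comp (algebraMap (ZMod 2) A)) = RingHom.id (ZMod 2) := Subsingleton.elim _ _
      exact congrArg (fun f : ZMod 2 →+* ZMod 2 => f y) this
    have hinjM : Function.Injective (fun M : M2 A => M.map π) := by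
      intro M M' hMM
      ext i j
      exact hinj (congrFun (congrFun hMM i) j)
    have hdet := det_rb h
    refine ⟨S0.map (algebraMap (ZMod 2) A), ?_, map_lift _, ?_⟩
    · apply hinjM
      change ((S0.map (algebraMap (ZMod 2) A)) * (S0.map (algebraMap (ZMod 2) A)) +
        S0.map (algebraMap (ZMod 2) A) + 1).map π = (0 : M2 A).map π
      rw [Matrix.map_add π (map_add π), Matrix.map_add π (map_add π), Matrix.map_mul, map_lift,
        Matrix.map_one π (map_zero π) (map_one π), Matrix.map_zero π (map_zero π)]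
      decide +kernel
    · intro g
      apply hinjM
      change (ρ g * S0.map (algebraMap (ZMod 2) A)).map π = ((S0.map (algebraMap (ZMod 2) A) +
        Matrix.scalar (Fin 2) (eA A (rb g))) * ρ g).map π
      rw [Matrix.map_mul, Matrix.map_mul, Matrix.map_add π (map_add π), map_lift, h.map, eA,
        map_scalar_algebraMap]
      exact eM_spec _ (hdet g)
  · obtain ⟨s, hs0, hπs, hs⟩ := exists_socle π h.nil hinj
    have hss : s * s = 0 := hs s hπs
    let B := A ⧸ Ideal.span {s}
    let q : A →+* B := Ideal.Quotient.mk (Ideal.span {s})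
    have hqs : q s = 0 := Ideal.Quotient.eq_zero_iff_mem.mpr (Ideal.mem_span_singleton_self s)
    let π' : B →+* ZMod 2 := Ideal.Quotient.lift (Ideal.span {s}) π (by
      intro a ha
      rw [Ideal.mem_span_singleton] at ha
      obtain ⟨c, rfl⟩ := ha
      rw [map_mul, hπs, zero_mul])
    have hππ' : ∀ a, π' (q a) = π a := fun a => Ideal.Quotient.lift_mk _ _ _
    have hfin : Finite B := Finite.of_surjective q Ideal.Quotient.mk_surjective
    have hcard : Nat.card B < n := by
      rw [← hn]
      classical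
      have := Fintype.ofFinite A
      have := Fintype.ofFinite B
      rw [Nat.card_eq_fintype_card, Nat.card_eq_fintype_card]
      refine Fintype.card_lt_of_surjective_not_injective q Ideal.Quotient.mk_surjective ?_
      intro hi
      exact hs0 (hi (by rw [hqs, map_zero]))
    let ρ' : GQ →* M2 B := (q.mapMatrix : M2 A →+* M2 B).toMonoidHom.comp ρ
    have hρ' : ∀ g, ρ' g = (ρ g).map q := fun g => rfl
    have hH : Hyp π' rb N Q ρ' := by
      refine ⟨?_, ?_, ?_, ?_, ?_, ?_⟩
      · intro b hb
        obtain ⟨a, rfl⟩ := Ideal.Quotient.mk_surjective b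
        have : π a = 0 := by rw [← hππ']; exact hb
        exact (h.nil a this).map q
      · intro g
        rw [← h.map g, hρ']
        ext i j
        exact hππ' _
      · intro g
        have := h.det g
        rw [hρ', ← RingHom.mapMatrix_apply, ← RingHom.map_det, this, map_one]
      · obtain ⟨L, hL, h1⟩ := h.smooth
        refine ⟨L, hL, fun σ hσ => ?_⟩
        rw [hρ', h1 σ hσ]
        exact Matrix.map_one q (map_zero q) (map_one q)
      · intro ℓ hℓ hℓN hℓQ C hC g hg
        rw [hρ', h.unram ℓ hℓ hℓN hℓQ C hC g hg]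
        exact Matrix.map_one q (map_zero q) (map_one q)
      · intro v hv hvN C hC
        obtain ⟨M, z, f, hM, hM', hD, hI⟩ := h.loc v hv hvN C hC
        refine ⟨M.map q, fun g => q (z g), fun g => q (f g), ?_, ?_, ?_, fun g hgD hgI => by
          simp only [hI g hgD hgI, map_one]⟩
        · rw [← Matrix.map_mul, hM, Matrix.map_zero q (map_zero q)]
        · have : (M.map q).map π' = M.map π := by
            ext i j
            exact hππ' _
          rw [this]
          exact hM'
        · intro g hg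
          refine ⟨by rw [← map_mul, (hD g hg).1, map_one], ?_⟩
          rw [hρ', (hD g hg).2]
          ext i j
          fin_cases i <;> fin_cases j <;> simp
    obtain ⟨T', hT', hT'π, hT'g⟩ := ih _ hcard B π' ρ' rfl hH
    -- lift `T'`
    choose lft hlft using (Ideal.Quotient.mk_surjective : Function.Surjective q)
    let T0 : M2 A := T'.map lft
    have hT0 : T0.map q = T' := by
      ext i j
      exact hlft _
    have hqmul : ∀ M M' : M2 A, (M * M').map q = M.map q * M'.map q := fun M M' =>
      Matrix.map_mul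
    have hqadd : ∀ M M' : M2 A, (M + M').map q = M.map q + M'.map q := fun M M' =>
      Matrix.map_add q (map_add q) M M'
    have hq1 : (1 : M2 A).map q = 1 := Matrix.map_one q (map_zero q) (map_one q)
    obtain ⟨Y, hY⟩ := exists_eq_smul (M := T0 * T0 + T0 + 1) (s := s) (by
      change (T0 * T0 + T0 + 1).map q = 0
      rw [hqadd, hqadd, hqmul, hq1, hT0, hT'])
    have hsq : ∀ Z : M2 A, (s • Z).map q = 0 := by
      intro Z
      ext i j
      simp only [Matrix.map_apply, Matrix.smul_apply, smul_eq_mul, map_mul, hqs, zero_mul,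
        Matrix.zero_apply]
    set T := T0 + s • Y with hTdef
    have hTq : T.map q = T' := by rw [hTdef, hqadd, hT0, hsq, add_zero]
    have hTπ : T.map π = S0 := by
      rw [← hT'π, ← hTq]
      ext i j
      exact (hππ' _).symm
    have hT : T * T + T + 1 = 0 := by
      have e1 : T * T + T + 1 = (T0 * T0 + T0 + 1) + s • Y + (s • Y * s • Y) +
          s • (T0 * Y + Y * T0) := by
        rw [hTdef]
        simp only [add_mul, mul_add, Matrix.mul_smul, Matrix.smul_mul, smul_add]
        abel
      have e2 : s • (T0 * Y + Y * T0) = 0 := by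
        have e3 : T0 * (T0 * T0 + T0 + 1) = (T0 * T0 + T0 + 1) * T0 := by
          simp only [mul_add, add_mul, mul_one, one_mul, mul_assoc]
        rw [hY, Matrix.mul_smul, Matrix.smul_mul] at e3
        rw [smul_add, e3, add_self_M]
      rw [e1, hY, e2, smul_mul_smul_zero hss, add_self_M, add_zero, add_zero]
    clear_value T
    clear hTdef
    refine good_step hs0 hs hss h hsel T hT hTπ fun g => ?_
    have hinv : ρ g * ρ g⁻¹ = 1 := by rw [← map_mul, mul_inv_cancel, map_one]
    obtain ⟨Z, hZ⟩ := exists_eq_smul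
      (M := ρ g * T - (T + Matrix.scalar (Fin 2) (eA A (rb g))) * ρ g) (s := s) (by
        change (ρ g * T - (T + Matrix.scalar (Fin 2) (eA A (rb g))) * ρ g).map q = 0
        rw [Matrix.map_sub q (map_sub q), hqmul, hqmul, hqadd, hTq]
        have e1 : (Matrix.scalar (Fin 2) (eA A (rb g))).map q =
            Matrix.scalar (Fin 2) (eA B (rb g)) := by
          have e2 : q (eA A (rb g)) = eA B (rb g) := rfl
          ext i j
          fin_cases i <;> fin_cases j <;> simp [e2]
        rw [e1]
        have e3 := hT'g g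
        rw [hρ'] at e3
        rw [e3, sub_self])
    refine ⟨Z * ρ g⁻¹, ?_⟩
    have e4 : ρ g * T = (T + Matrix.scalar (Fin 2) (eA A (rb g))) * ρ g + s • Z := by
      rw [← hZ]; abel
    rw [e4, add_mul, mul_assoc, hinv, mul_one, Matrix.smul_mul]

theorem exists_good {A : Type u} [CommRing A] [Algebra (ZMod 2) A] [Finite A]
    {π : A →+* ZMod 2} {rb : GQ →* M2 (ZMod 2)} {N : ℕ} {Q : Finset ℕ} {ρ : GQ →* M2 A}
    (hsel : SelZero rb N Q) (h : Hyp π rb N Q ρ) : ∃ T, Good π rb ρ T :=
  exists_good_aux rb N Q hsel _ A π ρ rfl h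

end Main

end Fermat.Agent.ZThm
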