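import Fermat.Agent.ZThm.LatLoc

/-!
# Theorem Z, Step 4
-/

set_option autoImplicit false

namespace Fermat.Agent.ZThm

open Matrix

local notation "Qb" => AlgebraicClosure ℚ
local notation "GQ" => AlgebraicClosure ℚ ≃ₐ[ℚ] AlgebraicClosure ℚ

attribute [local instance] algZ

/-- the determinant character -/
noncomputable def detM (RE : GQ →* M2 ℤ_[2]) : GQ →* ℤ_[2] := Matrix.detMonoidHom.comp RE

theorem detM_apply (RE : GQ →* M2 ℤ_[2]) (g : GQ) : detM RE g = (RE g).det := rfl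

section Mat

variable {R : Type*} [CommRing R]

theorem trace_add_adj (A B : Matrix (Fin 2) (Fin 2) R) :
    (A * B).trace + (A.adjugate * B).trace = A.trace * B.trace := by
  simp only [Matrix.trace_fin_two, Matrix.mul_apply, Fin.sum_univ_two, Matrix.adjugate_fin_two,
    Matrix.of_apply, Matrix.cons_val', Matrix.cons_val_zero, Matrix.cons_val_one,
    Matrix.cons_val_fin_one]
  ring

theorem adj_sub (A : Matrix (Fin 2) (Fin 2) R) (z : R) :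
    (A - z • (1 : Matrix (Fin 2) (Fin 2) R)).adjugate = A.adjugate - z • 1 := by
  ext i j
  fin_cases i <;> fin_cases j <;> simp [Matrix.adjugate_fin_two]

end Mat

theorem adj_RE (RE : GQ →* M2 ℤ_[2]) (g : GQ) : (RE g).adjugate = detM RE g • RE g⁻¹ := by
  have h1 : RE g⁻¹ * RE g = 1 := by rw [← map_mul, inv_mul_cancel, map_one]
  calc (RE g).adjugate = (RE g⁻¹ * RE g) * (RE g).adjugate := by rw [h1, one_mul]
    _ = _ := by rw [mul_assoc, Matrix.mul_adjugate, mul_smul_comm, mul_one, detM_apply]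

theorem RE_mul (RE : GQ →* M2 ℤ_[2]) (g h : GQ) :
    (RE (g * h)).trace + detM RE g * (RE (g⁻¹ * h)).trace = (RE g).trace * (RE h).trace := by
  rw [← trace_add_adj, adj_RE, smul_mul_assoc, Matrix.trace_smul, map_mul, map_mul, smul_eq_mul]

theorem ell_identity (RE : GQ →* M2 ℤ_[2]) (p q : GQ × ℤ_[2]) (k : ℕ)
    (h : ∃ Y : M2 ℤ_[2], (RE q.1 - q.2 • (1 : M2 ℤ_[2])).adjugate * (RE p.1 - p.2 • (1 : M2 ℤ_[2])) =
      (2 : ℤ_[2]) ^ k • Y) (g : GQ) :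
    (2 : ℤ_[2]) ^ k ∣ detM RE q.1 * (RE (p.1 * g * q.1⁻¹)).trace - q.2 * (RE (p.1 * g)).trace -
      detM RE q.1 * (p.2 * (RE (g * q.1⁻¹)).trace) + p.2 * q.2 * (RE g).trace := by
  obtain ⟨Y, hY⟩ := h
  refine ⟨(Y * RE g).trace, ?_⟩
  have h1 : ((RE q.1 - q.2 • (1 : M2 ℤ_[2])).adjugate * (RE p.1 - p.2 • (1 : M2 ℤ_[2])) * RE g).trace =
      (2 : ℤ_[2]) ^ k * (Y * RE g).trace := by
    rw [hY, smul_mul_assoc, Matrix.trace_smul, smul_eq_mul]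
  rw [← h1, adj_sub, adj_RE]
  have h2 : (detM RE q.1 • RE q.1⁻¹ - q.2 • (1 : M2 ℤ_[2])) * (RE p.1 - p.2 • (1 : M2 ℤ_[2])) * RE g =
      detM RE q.1 • (RE q.1⁻¹ * (RE p.1 * RE g)) - q.2 • (RE p.1 * RE g) -
        (detM RE q.1 * p.2) • (RE q.1⁻¹ * RE g) + (p.2 * q.2) • RE g := by
    simp only [sub_mul, mul_sub, smul_mul_assoc, mul_smul_comm, one_mul, mul_one, smul_sub,
      smul_smul, mul_assoc]
    rw [mul_comm p.2 (detM RE q.1)]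
    abel
  rw [h2, Matrix.trace_add, Matrix.trace_sub, Matrix.trace_sub, Matrix.trace_smul,
    Matrix.trace_smul, Matrix.trace_smul, Matrix.trace_smul, Matrix.trace_mul_comm (RE q.1⁻¹),
    Matrix.trace_mul_comm (RE q.1⁻¹), ← map_mul, ← map_mul, ← map_mul]
  simp only [smul_eq_mul]
  ring

/-- Local data at a place. -/
structure LLoc {Λ : Type} [AddCommGroup Λ] [Module ℤ_[2] Λ] (ρ : GQ →* Module.End ℤ_[2] Λ)
    (RE : GQ →* M2 ℤ_[2]) (rb : GQ →* M2 (ZMod 2)) (k : ℕ) (D I : Subgroup GQ) (Φ : GQ)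
    (w : Module.End ℤ_[2] Λ) (z : ℤ_[2]) (K : Submodule ℤ_[2] Λ) : Prop where
  memD : Φ ∈ D
  ww : w * w = 1
  wρ : ∀ g, w * ρ g = ρ g * w
  zz : z * z = 1
  s0 : ∃ s₀ ∈ D, rb s₀ ≠ 1 ∧ (s₀ ∈ I ∨ (s₀ = Φ ∧ w = 1 ∧ z = 1))
  gen : ∀ τ ∈ D, ∀ L : IntermediateField ℚ Qb, FiniteDimensional ℚ L →
    ∃ n : ℕ, ∃ s ∈ I, ∀ x ∈ L, τ x = (Φ ^ n * s) x
  inert : ∀ s ∈ I, ∀ x, ρ s x - x ∈ K
  frob : ∀ x, ρ Φ x - w x ∈ K
  nostable : ∀ Λ' : Submodule ℤ_[2] Λ, Λ' ≤ K → (∀ g, ∀ x ∈ Λ', ρ g x ∈ Λ') → Λ' = ⊥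
  ell : ∀ p ∈ pairs I Φ z, ∀ q ∈ pairs I Φ z, ∃ Y : M2 ℤ_[2],
    (RE q.1 - q.2 • (1 : M2 ℤ_[2])).adjugate * (RE p.1 - p.2 • (1 : M2 ℤ_[2])) = (2 : ℤ_[2]) ^ k • Y

/-- The hypotheses of Step 4. -/
structure Lat {Λ : Type} [AddCommGroup Λ] [Module ℤ_[2] Λ] (ρ : GQ →* Module.End ℤ_[2] Λ)
    (RE : GQ →* M2 ℤ_[2]) (rb : GQ →* M2 (ZMod 2)) (N : ℕ) (Q : Finset ℕ) (k : ℕ) : Prop where
  comm : ∀ g h, ρ h * tOp ρ (detM RE) g = tOp ρ (detM RE) g * ρ h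
  red : ∀ g, (RE g).map PadicInt.toZMod = rb g
  nil : ∀ g, ∃ n : ℕ, ∀ x, ∃ y, ((tOp ρ (detM RE) g - (RE g).trace • (1 : Module.End ℤ_[2] Λ)) ^ n) x =
    (2 : ℤ_[2]) • y
  smooth : ∀ K : ℕ, ∃ L : IntermediateField ℚ Qb, FiniteDimensional ℚ L ∧
    ∀ σ : GQ, (∀ x ∈ L, σ x = x) → (∀ x, ∃ y, ρ σ x - x = (2 : ℤ_[2]) ^ K • y) ∧
      ∃ Y : M2 ℤ_[2], RE σ - 1 = (2 : ℤ_[2]) ^ K • Y
  unram : ∀ ℓ : ℕ, ℓ.Prime → ¬ ℓ ∣ N → ℓ ∉ Q → ∀ B : ValuationSubring Qb, B.LiesOverPrime ℓ →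
    ∀ s ∈ B.inertiaSubgroupIn ℚ, ρ s = 1 ∧ RE s = 1
  loc : ∀ v : ℕ, v.Prime → (v ∣ N ∨ v ∈ Q) → ∀ B : ValuationSubring Qb, B.LiesOverPrime v →
    ∃ Φ w z K, LLoc ρ RE rb k (B.decompositionSubgroup ℚ) (B.inertiaSubgroupIn ℚ) Φ w z K

section Ops

variable {Λ : Type} [AddCommGroup Λ] [Module ℤ_[2] Λ] (ρ : GQ →* Module.End ℤ_[2] Λ)
  (χ : GQ →* ℤ_[2])

theorem tOp_mul (hcomm : ∀ g h, ρ h * tOp ρ χ g = tOp ρ χ g * ρ h) (g h : GQ) :
    tOp ρ χ (g * h) + χ g • tOp ρ χ (g⁻¹ * h) = tOp ρ χ g * tOp ρ χ h := by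
  have hχ : χ g * χ g⁻¹ = 1 := by rw [← map_mul, mul_inv_cancel, map_one]
  have h1 : tOp ρ χ g * tOp ρ χ h = tOp ρ χ g * ρ h + χ h • (ρ h⁻¹ * tOp ρ χ g) := by
    rw [hcomm]
    conv_lhs => rw [tOp.eq_1 ρ χ h]
    rw [mul_add, mul_smul_comm]
  rw [h1]
  simp only [tOp, map_mul, _root_.mul_inv_rev, inv_inv, mul_add, add_mul, smul_add, smul_mul_assoc,
    mul_smul_comm, smul_smul]
  rw [show χ g * (χ g⁻¹ * χ h) = χ h by rw [← mul_assoc, hχ, one_mul], mul_comm (χ g) (χ h)]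
  abel

theorem tOp_comm (hcomm : ∀ g h, ρ h * tOp ρ χ g = tOp ρ χ g * ρ h) (g h : GQ) :
    tOp ρ χ (g * h) = tOp ρ χ (h * g) := by
  have h1 : ρ g⁻¹ * tOp ρ χ (g * h) * ρ g = tOp ρ χ (g * h) := by
    rw [hcomm, mul_assoc, ← map_mul, inv_mul_cancel, map_one, mul_one]
  rw [← h1, tOp, mul_add, add_mul, mul_smul_comm, smul_mul_assoc, ← map_mul, ← map_mul, ← map_mul,
    ← map_mul, tOp]
  congr 1
  · congr 1; group
  · rw [map_mul χ, map_mul χ, mul_comm (χ g)]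
    congr 2
    group

end Ops

theorem exists_trace_ne : ∀ M : M2 (ZMod 2), M.det = 1 → M ≠ 1 →
    ∃ a b c d : Fin 2, (!![1, 1; 0, 1] ^ (a : ℕ) * !![1, 0; 1, 1] ^ (b : ℕ) * !![1, 1; 0, 1] ^ (c : ℕ) *
      !![1, 0; 1, 1] ^ (d : ℕ) * M.adjugate : M2 (ZMod 2)).trace -
      (!![1, 1; 0, 1] ^ (a : ℕ) * !![1, 0; 1, 1] ^ (b : ℕ) * !![1, 1; 0, 1] ^ (c : ℕ) *
      !![1, 0; 1, 1] ^ (d : ℕ) : M2 (ZMod 2)).trace = 1 := by
  decide +kernel

section Main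

variable {T Λ : Type} [CommRing T] [Algebra ℤ_[2] T] [Module.Finite ℤ_[2] T]
  [AddCommGroup Λ] [Module T Λ] [Module ℤ_[2] Λ] [IsScalarTower ℤ_[2] T Λ]
  [Module.Finite ℤ_[2] Λ] [Module.Free ℤ_[2] Λ] [FaithfulSMul T Λ]
  {ρ : GQ →* Module.End ℤ_[2] Λ} {RE : GQ →* M2 ℤ_[2]} {rb : GQ →* M2 (ZMod 2)} {N : ℕ}
  {Q : Finset ℕ} {k : ℕ} {t : GQ → T}

/-- the combined trace -/
noncomputable def ttr (t : GQ → T) (RE : GQ →* M2 ℤ_[2]) (k : ℕ) (g : GQ) : T × ZMod (2 ^ k) :=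
  (t g, PadicInt.toZModPow k (RE g).trace)

/-- the combined trace algebra -/
noncomputable abbrev SA (t : GQ → T) (RE : GQ →* M2 ℤ_[2]) (k : ℕ) :
    Subalgebra ℤ_[2] (T × ZMod (2 ^ k)) := Algebra.adjoin ℤ_[2] (Set.range (ttr t RE k))

/-- the combined trace with values in the algebra -/
noncomputable def tS (t : GQ → T) (RE : GQ →* M2 ℤ_[2]) (k : ℕ) (g : GQ) : SA t RE k :=
  ⟨ttr t RE k g, Algebra.subset_adjoin ⟨g, rfl⟩⟩

omit [Module.Finite ℤ_[2] T] in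
theorem tS_gen : Algebra.adjoin ℤ_[2] (Set.range (tS t RE k)) = ⊤ := by
  apply Subalgebra.map_injective (f := (SA t RE k).val) Subtype.val_injective
  rw [AlgHom.map_adjoin, Algebra.map_top, Subalgebra.range_val, ← Set.range_comp]
  rfl

theorem finite_SA : Module.Finite ℤ_[2] (SA t RE k) := by
  have h1 := finite_algZ k
  have h2 : IsNoetherian ℤ_[2] (T × ZMod (2 ^ k)) := isNoetherian_of_isNoetherianRing_of_finite _ _
  exact Module.Finite.of_injective (SA t RE k).val.toLinearMap Subtype.val_injective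

omit [Module.Finite ℤ_[2] T] [Module.Finite ℤ_[2] Λ] [Module.Free ℤ_[2] Λ] [Module ℤ_[2] Λ]
  [IsScalarTower ℤ_[2] T Λ] in
theorem tS_ext {a b : SA t RE k} (h1 : ∀ x : Λ, a.1.1 • x = b.1.1 • x) (h2 : a.1.2 = b.1.2) :
    a = b :=
  Subtype.ext (Prod.ext (FaithfulSMul.eq_of_smul_eq_smul (α := Λ) h1) h2)

/-- the residue map -/
noncomputable def piS (t : GQ → T) (RE : GQ →* M2 ℤ_[2]) (k : ℕ) (hk : k ≠ 0) :
    SA t RE k →+* ZMod 2 :=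
  (ZMod.castHom (dvd_pow_self 2 hk) (ZMod 2)).comp
    ((RingHom.snd T (ZMod (2 ^ k))).comp (SA t RE k).val.toRingHom)

omit [Module.Finite ℤ_[2] T] in
theorem piS_algebraMap (hk : k ≠ 0) (c : ℤ_[2]) :
    piS t RE k hk (algebraMap ℤ_[2] _ c) = PadicInt.toZMod c :=
  ringHom_z2 ((piS t RE k hk).comp (algebraMap ℤ_[2] _)) PadicInt.toZMod c

omit [Module.Finite ℤ_[2] T] in
theorem piS_tS (hk : k ≠ 0) (hred : ∀ g, (RE g).map PadicInt.toZMod = rb g) (g : GQ) :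
    piS t RE k hk (tS t RE k g) = (rb g).trace := by
  have h1 : piS t RE k hk (tS t RE k g) =
      ((ZMod.castHom (dvd_pow_self 2 hk) (ZMod 2)).comp (PadicInt.toZModPow (p := 2) k))
        (RE g).trace := rfl
  rw [h1, ringHom_z2 _ PadicInt.toZMod, ← hred]
  simp [Matrix.trace_fin_two]

omit [Module.Finite ℤ_[2] T] in
theorem piS_smul (hk : k ≠ 0) (c : ℤ_[2]) (hc : IsUnit c) (a : SA t RE k) :
    piS t RE k hk (c • a) = piS t RE k hk a := by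
  rw [Algebra.smul_def, map_mul, piS_algebraMap]
  obtain ⟨c', rfl⟩ := unit_eq_one_add hc
  rw [map_add, toZMod_two_mul, map_one, add_zero, one_mul]

variable (ht : ∀ g x, tOp ρ (detM RE) g x = t g • x)

include ht

omit [Module.Finite ℤ_[2] T] in
theorem tS_nil (hnil : ∀ g, ∃ n : ℕ, ∀ x, ∃ y,
    ((tOp ρ (detM RE) g - (RE g).trace • (1 : Module.End ℤ_[2] Λ)) ^ n) x = (2 : ℤ_[2]) • y) (g : GQ) :
    ∃ (c : ℤ_[2]) (n : ℕ), (2 : SA t RE k) ∣ (tS t RE k g - algebraMap ℤ_[2] _ c) ^ n := by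
  obtain ⟨K, hK⟩ := exists_AR (T := T) (Λ := Λ) k (SA t RE k)
  obtain ⟨n, hn⟩ := hnil g
  set c := (RE g).trace with hc
  refine ⟨c, n * K + 1, hK _ ?_ ?_⟩
  · set a : T := t g - algebraMap ℤ_[2] T c with ha
    have h0 : ∀ x : Λ, a • x = (tOp ρ (detM RE) g - c • (1 : Module.End ℤ_[2] Λ)) x := by
      intro x
      rw [ha, sub_smul, algebraMap_smul, LinearMap.sub_apply, ht]
      rfl
    have h1 : ∀ m : ℕ, ∀ x : Λ, a ^ m • x =
        ((tOp ρ (detM RE) g - c • (1 : Module.End ℤ_[2] Λ)) ^ m) x := by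
      intro m
      induction m with
      | zero => intro x; simp
      | succ m ih => intro x; rw [pow_succ, mul_smul, h0, ih, pow_succ]; rfl
    have h2 : ∀ m : ℕ, ∀ x : Λ, ∃ y, a ^ (n * m) • x = (2 : ℤ_[2]) ^ m • y := by
      intro m
      induction m with
      | zero => intro x; exact ⟨x, by simp⟩
      | succ m ih =>
        intro x
        obtain ⟨y, hy⟩ := ih x
        obtain ⟨z, hz⟩ := hn y
        refine ⟨z, ?_⟩
        rw [show n * (m + 1) = n + n * m by ring, pow_add, mul_smul, hy, smul_comm, h1, hz, smul_smul,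
          pow_succ]
    intro x
    obtain ⟨y, hy⟩ := h2 K (a • x)
    refine ⟨y, ?_⟩
    rw [← hy, ← mul_smul, ← pow_succ]
    rfl
  · have h3 : ((tS t RE k g - algebraMap ℤ_[2] _ c : SA t RE k).1.2 : ZMod (2 ^ k)) = 0 := by
      change PadicInt.toZModPow k (RE g).trace - PadicInt.toZModPow k c = 0
      rw [hc, sub_self]
    change ((tS t RE k g - algebraMap ℤ_[2] _ c : SA t RE k).1.2 : ZMod (2 ^ k)) ^ (n * K + 1) = 0
    rw [h3, pow_succ, mul_zero]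

variable (hcomm : ∀ g h, ρ h * tOp ρ (detM RE) g = tOp ρ (detM RE) g * ρ h)

include hcomm

omit [Module.Finite ℤ_[2] T] [Module.Finite ℤ_[2] Λ] [Module.Free ℤ_[2] Λ] in
theorem tS_mul (g h : GQ) : tS t RE k (g * h) + detM RE g • tS t RE k (g⁻¹ * h) =
    tS t RE k g * tS t RE k h := by
  apply tS_ext (Λ := Λ)
  · intro x
    change (t (g * h) + detM RE g • t (g⁻¹ * h)) • x = (t g * t h) • x
    have h1 := LinearMap.congr_fun (tOp_mul ρ (detM RE) hcomm g h) x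
    rw [LinearMap.add_apply, LinearMap.smul_apply, Module.End.mul_apply, ht, ht, ht, ht] at h1
    rw [add_smul, smul_assoc, mul_smul]
    exact h1
  · change PadicInt.toZModPow k (RE (g * h)).trace +
      PadicInt.toZModPow k (detM RE g) * PadicInt.toZModPow k (RE (g⁻¹ * h)).trace =
      PadicInt.toZModPow k (RE g).trace * PadicInt.toZModPow k (RE h).trace
    rw [← map_mul, ← map_mul, ← map_add, RE_mul]

omit [Module.Finite ℤ_[2] T] [Module.Finite ℤ_[2] Λ] [Module.Free ℤ_[2] Λ]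
  [IsScalarTower ℤ_[2] T Λ] in
theorem tS_comm (g h : GQ) : tS t RE k (g * h) = tS t RE k (h * g) := by
  apply tS_ext (Λ := Λ)
  · intro x
    change t (g * h) • x = t (h * g) • x
    rw [← ht, ← ht, tOp_comm ρ _ hcomm]
  · change PadicInt.toZModPow k (RE (g * h)).trace = PadicInt.toZModPow k (RE (h * g)).trace
    rw [map_mul, map_mul, Matrix.trace_mul_comm]

omit hcomm [Module.Finite ℤ_[2] T] in
theorem tS_smooth (hsm : ∀ K : ℕ, ∃ L : IntermediateField ℚ Qb, FiniteDimensional ℚ L ∧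
    ∀ σ : GQ, (∀ x ∈ L, σ x = x) → (∀ x, ∃ y, ρ σ x - x = (2 : ℤ_[2]) ^ K • y) ∧
      ∃ Y : M2 ℤ_[2], RE σ - 1 = (2 : ℤ_[2]) ^ K • Y) :
    ∃ L : IntermediateField ℚ Qb, FiniteDimensional ℚ L ∧
      ∀ σ : GQ, (∀ x ∈ L, σ x = x) → ∀ g, (2 : SA t RE k) ∣ tS t RE k (g * σ) - tS t RE k g := by
  obtain ⟨K, hK⟩ := exists_AR (T := T) (Λ := Λ) k (SA t RE k)
  obtain ⟨L, hL, hL1⟩ := hsm (K + k)
  refine ⟨L, hL, fun σ hσ g => hK _ ?_ ?_⟩
  · obtain ⟨h1, Y, hY⟩ := hL1 σ hσ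
    have hσ' : ∀ x ∈ L, σ⁻¹ x = x := by
      intro x hx
      have := hσ x hx
      exact (AlgEquiv.symm_apply_eq σ).2 this.symm
    obtain ⟨h2, -⟩ := hL1 σ⁻¹ hσ'
    intro x
    change ∃ y, (t (g * σ) - t g) • x = (2 : ℤ_[2]) ^ K • y
    obtain ⟨y₁, hy₁⟩ := h1 x
    obtain ⟨y₂, hy₂⟩ := h2 (ρ g⁻¹ x)
    -- det
    obtain ⟨d, hd⟩ : ∃ d, detM RE σ = 1 + (2 : ℤ_[2]) ^ (K + k) * d := by
      have h3 : RE σ = 1 + (2 : ℤ_[2]) ^ (K + k) • Y := by rw [← hY]; abel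
      refine ⟨Y 0 0 + Y 1 1 + (2 : ℤ_[2]) ^ (K + k) * (Y 0 0 * Y 1 1 - Y 0 1 * Y 1 0), ?_⟩
      rw [detM_apply, h3, Matrix.det_fin_two]
      simp only [Matrix.add_apply, Matrix.smul_apply, smul_eq_mul, Matrix.one_apply_eq,
        Matrix.one_apply_ne (show (0 : Fin 2) ≠ 1 by decide),
        Matrix.one_apply_ne (show (1 : Fin 2) ≠ 0 by decide)]
      ring
    refine ⟨(2 : ℤ_[2]) ^ k • (ρ g y₁ + detM RE g • (d • ρ σ⁻¹ (ρ g⁻¹ x) + y₂)), ?_⟩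
    rw [sub_smul, ← ht, ← ht, smul_smul, ← pow_add]
    simp only [tOp, LinearMap.add_apply, LinearMap.smul_apply, _root_.mul_inv_rev, map_mul,
      Module.End.mul_apply]
    have e1 : ρ σ x = x + (2 : ℤ_[2]) ^ (K + k) • y₁ := by rw [← hy₁]; abel
    have e2 : ρ σ⁻¹ (ρ g⁻¹ x) = ρ g⁻¹ x + (2 : ℤ_[2]) ^ (K + k) • y₂ := by rw [← hy₂]; abel
    rw [e1, e2, hd, map_add, map_smul]
    module
  · obtain ⟨-, Y, hY⟩ := hL1 σ hσ
    change PadicInt.toZModPow k (RE (g * σ)).trace - PadicInt.toZModPow k (RE g).trace = 0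
    have h3 : RE σ = 1 + (2 : ℤ_[2]) ^ (K + k) • Y := by rw [← hY]; abel
    rw [map_mul, h3, mul_add, mul_one, Matrix.trace_add, map_add, add_sub_cancel_left, mul_smul_comm,
      Matrix.trace_smul, smul_eq_mul, map_mul, map_pow, map_ofNat, pow_add]
    have : (2 : ZMod (2 ^ k)) ^ k = 0 := by
      have := ZMod.natCast_self (2 ^ k)
      exact_mod_cast this
    rw [this, mul_zero, zero_mul]

end Main

end Fermat.Agent.ZThm
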