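import Fermat.Agent.Tate.Package
import Fermat.Agent.Tate.JInput
import Fermat.Agent.Cusps.GenusFinal
import Fermat.Agent.Cheb.Exist
import Fermat.Agent.ZThm.Step4
import Fermat.Agent.ZEnd.Dec
import Fermat.Agent.ZThm.EDat

/-!
# Theorem Z: Hecke operators and Galois operators on `J₀(M)[2^∞]`
-/

set_option autoImplicit false
set_option linter.unusedSectionVars false

namespace Fermat.Agent.ZThm

open Matrix ModularCurve ModularCurve.Period CongruenceSubgroup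
open Fermat.Agent.HeckeHom Fermat.Agent.HGModule Fermat.Agent.TorsCmp Fermat.Agent.GalJ
open Fermat.Agent.Tate

local notation "Qb" => AlgebraicClosure ℚ
local notation "GQ" => AlgebraicClosure ℚ ≃ₐ[ℚ] AlgebraicClosure ℚ

attribute [local instance] algZ

theorem frobJ (M : ℕ) [NeZero M] : FrobJ M 2 :=
  frobJ_of_packages (hasPackages_of_genusEq (Cusps.genusEq M))

theorem unrJ (M : ℕ) [NeZero M] : UnrJ M 2 :=
  unrJ_of_packages (hasPackages_of_genusEq (Cusps.genusEq M))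

/-- the Tate input of `J₀(M)` at `2` -/
noncomputable def jI (M : ℕ) [NeZero M] : TateInput 2 M {q | q ∣ M} :=
  jInput M 2 _ (fun _ _ h => h) (frobJ M) (unrJ M)

section Points

variable {M : ℕ} [NeZero M]

theorem smul_nsmul' (g : GQ) (n : ℕ) (x : JZero M) : g • (n • x) = n • (g • x) :=
  map_nsmul (DistribSMul.toAddMonoidHom (JZero M) g) n x

theorem smul_zero' (g : GQ) : g • (0 : JZero M) = 0 :=
  map_zero (DistribSMul.toAddMonoidHom (JZero M) g)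

/-- Eichler-Shimura in the form `T_ℓ = Φ + ℓ Φ⁻¹`. -/
theorem hecke_eq {ℓ : ℕ} (hℓ : ℓ.Prime) (hℓM : ¬ ℓ ∣ M) (hℓ2 : ℓ ≠ 2)
    {A : ValuationSubring Qb} (hA : A.LiesOverPrime ℓ) {Φ : GQ} (hΦ : A.IsFrobeniusAt Φ ℓ)
    {x : JZero M} {b : ℕ} (hx : 2 ^ b • x = 0) :
    heckeOperatorBar M ⟨ℓ, hℓ⟩ x = Φ • x + ℓ • (Φ⁻¹ • x) := by
  have h1 := frobJ M ℓ hℓ hℓM hℓ2 A hA Φ hΦ (Φ⁻¹ • x) ⟨b, by rw [← smul_nsmul', hx, smul_zero']⟩
  rw [smul_inv_smul] at h1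
  rw [← sub_eq_zero, ← neg_eq_zero, ← h1]
  abel

theorem val_smul {b : ℕ} {x : JZero M} (hx : 2 ^ b • x = 0) (n : ℕ) :
    ((n : ZMod (2 ^ b))).val • x = n • x := by
  rw [ZMod.val_natCast]
  conv_rhs => rw [← Nat.mod_add_div n (2 ^ b), add_smul, mul_comm, mul_smul, hx, smul_zero, add_zero]

theorem val_smul_int {b : ℕ} {x : JZero M} (hx : 2 ^ b • x = 0) (n : ℤ) :
    ((n : ZMod (2 ^ b))).val • x = n • x := by
  have hne : NeZero (2 ^ b) := ⟨by positivity⟩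
  rw [← natCast_zsmul, ZMod.val_intCast]
  have hx' : ((2 : ℤ) ^ b) • x = 0 := by
    have : ((2 ^ b : ℕ) : ℤ) • x = 0 := by rw [natCast_zsmul]; exact hx
    exact_mod_cast this
  conv_rhs => rw [← Int.emod_add_mul_ediv n (2 ^ b), add_zsmul, mul_comm, mul_zsmul, hx', zsmul_zero,
    add_zero]
  norm_cast

/-- The quadratic relation of the elliptic curve at a point. -/
def QRel (RE : GQ →* M2 ℤ_[2]) (b : ℕ) (x : JZero M) : Prop :=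
  ∀ g : GQ, g • x + (PadicInt.toZModPow b (RE g).det).val • (g⁻¹ • x) =
    (PadicInt.toZModPow b (RE g).trace).val • x

variable {RE : GQ →* M2 ℤ_[2]} {a : ℕ → ℤ} {N : ℕ}

theorem hecke_of_rel (hE : EDat RE a N) (hNM : N ∣ M) {b : ℕ} {x : JZero M} (hx : 2 ^ b • x = 0)
    (h : QRel RE b x) {ℓ : ℕ} (hℓ : ℓ.Prime) (hℓM : ¬ ℓ ∣ M) :
    heckeOperatorBar M ⟨ℓ, hℓ⟩ x = a ℓ • x := by
  have hℓN : ¬ ℓ ∣ N := fun h' => hℓM (h'.trans hNM)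
  have hℓ2 : ℓ ≠ 2 := fun h' => hℓN (h' ▸ hE.two)
  obtain ⟨A, hA⟩ := Frob.exists_liesOverPrime Qb hℓ
  obtain ⟨Φ, hΦ⟩ := Frob.exists_isFrobeniusAt hℓ hA
  have h1 := h Φ
  rw [hE.tr ℓ hℓ hℓN A hA Φ hΦ, hE.det ℓ hℓ hℓ2 A hA Φ hΦ, map_natCast, map_intCast,
    val_smul_int hx, val_smul (by rw [← smul_nsmul', hx, smul_zero'])] at h1
  rw [hecke_eq hℓ hℓM hℓ2 hA hΦ hx, h1]

theorem exists_level_points (b : ℕ) : ∃ L : IntermediateField ℚ Qb, FiniteDimensional ℚ L ∧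
    ∀ σ : GQ, (∀ z ∈ L, σ z = z) → ∀ x : JZero M, 2 ^ b • x = 0 → σ • x = x :=
  (jI M).exists_level b

theorem toZModPow_eq {b : ℕ} {x y c : ℤ_[2]} (h : x - y = (2 : ℤ_[2]) ^ b * c) :
    PadicInt.toZModPow b x = PadicInt.toZModPow b y := by
  rw [← sub_eq_zero, ← map_sub, h, map_mul, map_pow, map_ofNat]
  have : (2 : ZMod (2 ^ b)) ^ b = 0 := by
    have := ZMod.natCast_self (2 ^ b)
    exact_mod_cast this
  rw [this, zero_mul]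

theorem trace_congr {b : ℕ} {X Z Y : M2 ℤ_[2]} (h : X = Z + (2 : ℤ_[2]) ^ b • Y) :
    PadicInt.toZModPow b X.trace = PadicInt.toZModPow b Z.trace := by
  refine toZModPow_eq (c := Y.trace) ?_
  rw [h, Matrix.trace_add, Matrix.trace_smul, smul_eq_mul]
  ring

theorem det_congr {b : ℕ} {X Z Y : M2 ℤ_[2]} (h : X = Z + (2 : ℤ_[2]) ^ b • Y) :
    PadicInt.toZModPow b X.det = PadicInt.toZModPow b Z.det := by
  refine toZModPow_eq (c := Z 0 0 * Y 1 1 + Y 0 0 * Z 1 1 - Z 0 1 * Y 1 0 - Y 0 1 * Z 1 0 +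
    (2 : ℤ_[2]) ^ b * (Y 0 0 * Y 1 1 - Y 0 1 * Y 1 0)) ?_
  rw [h, Matrix.det_fin_two, Matrix.det_fin_two]
  simp only [Matrix.add_apply, Matrix.smul_apply, smul_eq_mul]
  ring

/-- Chebotarev: simultaneous approximation by Frobenius elements. -/
theorem exists_frob_approx (hE : EDat RE a N) (L : IntermediateField ℚ Qb)
    (hL : FiniteDimensional ℚ L) (K : ℕ) (D : ℕ) (hD : D ≠ 0) (g : GQ) :
    ∃ ℓ : ℕ, ℓ.Prime ∧ ¬ ℓ ∣ D ∧ ∃ A : ValuationSubring Qb, A.LiesOverPrime ℓ ∧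
      ∃ Φ : GQ, A.IsFrobeniusAt Φ ℓ ∧ (∀ x ∈ L, Φ x = g x) ∧ (∀ x ∈ L, (g⁻¹ * Φ) x = x) ∧
        ∃ Y : M2 ℤ_[2], RE Φ = RE g + (2 : ℤ_[2]) ^ K • Y := by
  obtain ⟨L', hL', hsm⟩ := hE.smooth K
  have hfin : FiniteDimensional ℚ (L ⊔ L' : IntermediateField ℚ Qb) :=
    IntermediateField.finiteDimensional_sup L L'
  obtain ⟨ℓ, hℓ, hℓS, -, A, hA, Φ, hΦ, hΦg⟩ :=
    Cheb.exists_frobenius_eq (L ⊔ L') hfin g D.primeFactors
  refine ⟨ℓ, hℓ, fun h => hℓS (Nat.mem_primeFactors.2 ⟨hℓ, h, hD⟩), A, hA, Φ, hΦ,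
    fun x hx => hΦg x (le_sup_left (a := L) (b := L') hx), ?_, ?_⟩
  · intro x hx
    rw [AlgEquiv.mul_apply, hΦg x (le_sup_left (a := L) (b := L') hx)]
    exact g.symm_apply_apply x
  · obtain ⟨Y, hY⟩ := hsm (g⁻¹ * Φ) (fun x hx => by
      rw [AlgEquiv.mul_apply, hΦg x (le_sup_right (a := L) (b := L') hx)]
      exact g.symm_apply_apply x)
    refine ⟨RE g * Y, ?_⟩
    have h1 : RE (g⁻¹ * Φ) = 1 + (2 : ℤ_[2]) ^ K • Y := by rw [← hY]; abel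
    calc RE Φ = RE g * RE (g⁻¹ * Φ) := by rw [← map_mul, mul_inv_cancel_left]
      _ = _ := by rw [h1, mul_add, mul_one, mul_smul_comm]

theorem rel_of_hecke (hE : EDat RE a N) {D : ℕ} (hD : D ≠ 0) (hMD : M ∣ D) (hND : N ∣ D)
    {b : ℕ} {x : JZero M} (hx : 2 ^ b • x = 0)
    (h : ∀ (ℓ : ℕ) (hℓ : ℓ.Prime), ¬ ℓ ∣ D → heckeOperatorBar M ⟨ℓ, hℓ⟩ x = a ℓ • x) :
    QRel RE b x := by
  intro g
  obtain ⟨L, hL, hlev⟩ := exists_level_points (M := M) b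
  obtain ⟨ℓ, hℓ, hℓD, A, hA, Φ, hΦ, -, hgΦ, Y, hY⟩ := exists_frob_approx hE L hL b D hD g
  have hℓM : ¬ ℓ ∣ M := fun h' => hℓD (h'.trans hMD)
  have hℓN : ¬ ℓ ∣ N := fun h' => hℓD (h'.trans hND)
  have hℓ2 : ℓ ≠ 2 := fun h' => hℓN (h' ▸ hE.two)
  have hcong : ∀ y : JZero M, 2 ^ b • y = 0 → Φ • y = g • y := by
    intro y hy
    have h1 := hlev (g⁻¹ * Φ) hgΦ y hy
    rw [mul_smul, inv_smul_eq_iff] at h1
    exact h1
  have hcong' : Φ⁻¹ • x = g⁻¹ • x := by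
    rw [inv_smul_eq_iff, hcong _ (by rw [← smul_nsmul', hx, smul_zero']), smul_inv_smul]
  have h1 := h ℓ hℓ hℓD
  rw [hecke_eq hℓ hℓM hℓ2 hA hΦ hx, hcong x hx, hcong'] at h1
  rw [← trace_congr hY, ← det_congr hY, hE.tr ℓ hℓ hℓN A hA Φ hΦ, hE.det ℓ hℓ hℓ2 A hA Φ hΦ,
    map_natCast, map_intCast, val_smul_int hx, val_smul (by rw [← smul_nsmul', hx, smul_zero']), h1]

end Points

end Fermat.Agent.ZThm
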