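import Fermat.Agent.ZThm.Step4c

/-!
# Theorem Z: the kernel submodules contain no Galois submodules
-/

set_option autoImplicit false

namespace Fermat.Agent.ZThm

open Matrix

local notation "Qb" => AlgebraicClosure ℚ
local notation "GQ" => AlgebraicClosure ℚ ≃ₐ[ℚ] AlgebraicClosure ℚ

attribute [local instance] algZ

variable {Λ : Type} [AddCommGroup Λ] [Module ℤ_[2] Λ]
  {ρ : GQ →* Module.End ℤ_[2] Λ} {RE : GQ →* M2 ℤ_[2]} {rb : GQ →* M2 (ZMod 2)}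

theorem isUnit_trace (hred : ∀ g, (RE g).map PadicInt.toZMod = rb g) {c : GQ}
    (hc : (rb c).trace = 1) : IsUnit (RE c).trace := by
  have h1 : PadicInt.toZMod (p := 2) (RE c).trace = 1 := by
    rw [← hc, ← hred]
    simp [Matrix.trace_fin_two]
  by_contra hcon
  have h2 : (RE c).trace ∈ IsLocalRing.maximalIdeal ℤ_[2] := hcon
  rw [← PadicInt.ker_toZMod, RingHom.mem_ker, h1] at h2
  exact one_ne_zero h2

theorem nostable_of [Module.Finite ℤ_[2] Λ]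
    (hred : ∀ g, (RE g).map PadicInt.toZMod = rb g)
    (hnil : ∀ g, ∃ n : ℕ, ∀ x, ∃ y,
      ((tOp ρ (detM RE) g - (RE g).trace • (1 : Module.End ℤ_[2] Λ)) ^ n) x = (2 : ℤ_[2]) • y)
    (c : GQ) (hc : (rb c).trace = 1) (K : Submodule ℤ_[2] Λ)
    (hsat : ∀ x, (2 : ℤ_[2]) • x ∈ K → x ∈ K)
    (hK : ∀ Λ' : Submodule ℤ_[2] Λ, Λ' ≤ K → (∀ x, (2 : ℤ_[2]) • x ∈ Λ' → x ∈ Λ') →
      (∀ g, ∀ x ∈ Λ', ρ g x ∈ Λ') → ∀ x ∈ Λ', ∃ y, ρ c x - x = (2 : ℤ_[2]) • y) :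
    ∀ Λ' : Submodule ℤ_[2] Λ, Λ' ≤ K → (∀ g, ∀ x ∈ Λ', ρ g x ∈ Λ') → Λ' = ⊥ := by
  intro Λ' hΛ' hst
  -- the saturation
  let S : Submodule ℤ_[2] Λ :=
    { carrier := {x | ∃ m : ℕ, (2 : ℤ_[2]) ^ m • x ∈ Λ'}
      zero_mem' := ⟨0, by simp⟩
      add_mem' := by
        rintro x y ⟨m, hm⟩ ⟨n, hn⟩
        refine ⟨m + n, ?_⟩
        rw [smul_add]
        refine Λ'.add_mem ?_ ?_
        · rw [pow_add, mul_comm, mul_smul]; exact Λ'.smul_mem _ hm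
        · rw [pow_add, mul_smul]; exact Λ'.smul_mem _ hn
      smul_mem' := by
        rintro a x ⟨m, hm⟩
        refine ⟨m, ?_⟩
        rw [smul_comm]
        exact Λ'.smul_mem _ hm }
  have hS : ∀ x, x ∈ S ↔ ∃ m : ℕ, (2 : ℤ_[2]) ^ m • x ∈ Λ' := fun _ => Iff.rfl
  have hle : Λ' ≤ S := fun x hx => ⟨0, by simpa using hx⟩
  have hpow : ∀ (m : ℕ) (x : Λ), (2 : ℤ_[2]) ^ m • x ∈ K → x ∈ K := by
    intro m
    induction m with
    | zero => intro x hx; simpa using hx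
    | succ m ih =>
      intro x hx
      apply hsat
      apply ih
      rwa [smul_smul, ← pow_succ]
  have hSK : S ≤ K := by
    rintro x ⟨m, hm⟩
    exact hpow m x (hΛ' hm)
  have hSst : ∀ g, ∀ x ∈ S, ρ g x ∈ S := by
    rintro g x ⟨m, hm⟩
    refine ⟨m, ?_⟩
    rw [← map_smul]
    exact hst g _ hm
  have hSsat : ∀ x, (2 : ℤ_[2]) • x ∈ S → x ∈ S := by
    rintro x ⟨m, hm⟩
    refine ⟨m + 1, ?_⟩
    rwa [pow_succ, mul_smul]
  -- `S ≤ 2 Λ`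
  have hu := isUnit_trace hred hc
  set u := (RE c).trace with hudef
  have h2 : ∀ x ∈ S, ∃ y, x = (2 : ℤ_[2]) • y := by
    intro x hx
    obtain ⟨n, hn⟩ := hnil c
    obtain ⟨d, hd⟩ := unit_eq_one_add (isUnit_detM RE c)
    have key : ∀ z ∈ S, ∃ y, tOp ρ (detM RE) c z = (2 : ℤ_[2]) • y := by
      intro z hz
      obtain ⟨y₁, hy₁⟩ := hK S hSK hSsat hSst z hz
      obtain ⟨y₂, hy₂⟩ : ∃ y, ρ c⁻¹ z - z = (2 : ℤ_[2]) • y := by
        obtain ⟨y, hy⟩ := hK S hSK hSsat hSst (ρ c⁻¹ z) (hSst _ _ hz)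
        refine ⟨-y, ?_⟩
        have e : ρ c (ρ c⁻¹ z) = z := by
          rw [← Module.End.mul_apply, ← map_mul, mul_inv_cancel, map_one]; rfl
        rw [e] at hy
        rw [smul_neg, ← hy]; abel
      have e1 : ρ c z = z + (2 : ℤ_[2]) • y₁ := by rw [← hy₁]; abel
      have e2 : ρ c⁻¹ z = z + (2 : ℤ_[2]) • y₂ := by rw [← hy₂]; abel
      refine ⟨z + y₁ + y₂ + d • (z + (2 : ℤ_[2]) • y₂), ?_⟩
      rw [tOp, LinearMap.add_apply, LinearMap.smul_apply, e1, e2, hd]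
      module
    have hTS : ∀ z ∈ S, (tOp ρ (detM RE) c - u • (1 : Module.End ℤ_[2] Λ)) z ∈ S := by
      intro z hz
      rw [tOp, LinearMap.sub_apply, LinearMap.add_apply, LinearMap.smul_apply, LinearMap.smul_apply]
      exact S.sub_mem (S.add_mem (hSst _ _ hz) (S.smul_mem _ (hSst _ _ hz))) (S.smul_mem _ hz)
    have h3 : ∀ m : ℕ, ((tOp ρ (detM RE) c - u • (1 : Module.End ℤ_[2] Λ)) ^ m) x ∈ S ∧
        ∃ y, ((tOp ρ (detM RE) c - u • (1 : Module.End ℤ_[2] Λ)) ^ m) x =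
          (-u) ^ m • x + (2 : ℤ_[2]) • y := by
      intro m
      induction m with
      | zero => exact ⟨by simpa using hx, 0, by simp⟩
      | succ m ih =>
        obtain ⟨h4, y, hy⟩ := ih
        rw [pow_succ', Module.End.mul_apply]
        refine ⟨hTS _ h4, ?_⟩
        obtain ⟨y', hy'⟩ := key _ h4
        refine ⟨y' - u • y, ?_⟩
        rw [LinearMap.sub_apply, hy', LinearMap.smul_apply, Module.End.one_apply, hy, pow_succ']
        module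
    obtain ⟨-, y, hy⟩ := h3 n
    obtain ⟨y', hy'⟩ := hn x
    rw [hy] at hy'
    have hun : IsUnit ((-u) ^ n) := (hu.neg).pow n
    obtain ⟨v, hv⟩ := hun.exists_left_inv
    refine ⟨v • (y' - y), ?_⟩
    calc x = (v * (-u) ^ n) • x := by rw [hv, one_smul]
      _ = v • ((-u) ^ n • x + (2 : ℤ_[2]) • y) - v • (2 : ℤ_[2]) • y := by
        rw [mul_smul, smul_add]; abel
      _ = _ := by rw [hy']; module
  -- Nakayama
  have hbot : S = ⊥ := by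
    have hnoeth : IsNoetherian ℤ_[2] Λ := isNoetherian_of_isNoetherianRing_of_finite _ _
    refine Submodule.eq_bot_of_le_smul_of_le_jacobson_bot (Ideal.span {(2 : ℤ_[2])}) _
      (IsNoetherian.noetherian _) ?_ ?_
    · intro x hx
      obtain ⟨y, rfl⟩ := h2 x hx
      exact Submodule.smul_mem_smul (Ideal.mem_span_singleton_self _) (hSsat _ hx)
    · rw [IsLocalRing.jacobson_eq_maximalIdeal ⊥ bot_ne_top, PadicInt.maximalIdeal_eq_span_p]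
      simp
  exact le_bot_iff.1 (hle.trans hbot.le)

/-- elements of order three among the commutators -/
theorem exists_comm_trace : ∀ M : M2 (ZMod 2), M.det = 1 → M ≠ 1 →
    (M * !![1, 1; 0, 1] * M.adjugate * !![1, 1; 0, 1]).trace = 1 ∨
    (M * !![1, 0; 1, 1] * M.adjugate * !![1, 0; 1, 1]).trace = 1 := by
  decide +kernel

theorem rb_inv (hdet : ∀ g, (rb g).det = 1) (s : GQ) : rb s⁻¹ = (rb s).adjugate := by
  have h1 : rb s * (rb s).adjugate = 1 := by rw [Matrix.mul_adjugate, hdet, one_smul]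
  calc rb s⁻¹ = rb s⁻¹ * (rb s * (rb s).adjugate) := by rw [h1, mul_one]
    _ = (rb s).adjugate := by rw [← mul_assoc, ← map_mul, inv_mul_cancel, map_one, one_mul]

/-- `nostable` at an odd place. -/
theorem nostable_odd [Module.Finite ℤ_[2] Λ] [Module.Free ℤ_[2] Λ]
    (hcomm : ∀ g h, ρ h * tOp ρ (detM RE) g = tOp ρ (detM RE) g * ρ h)
    (hred : ∀ g, (RE g).map PadicInt.toZMod = rb g)
    (hnil : ∀ g, ∃ n : ℕ, ∀ x, ∃ y,
      ((tOp ρ (detM RE) g - (RE g).trace • (1 : Module.End ℤ_[2] Λ)) ^ n) x = (2 : ℤ_[2]) • y)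
    (hdet : ∀ g, (rb g).det = 1)
    (g₁ g₂ : GQ) (hg₁ : rb g₁ = !![1, 1; 0, 1]) (hg₂ : rb g₂ = !![1, 0; 1, 1])
    (Φ : GQ) (v : ℤ_[2]) (hv : detM RE Φ = v) (hv1 : v ≠ 1) (hv2 : v ≠ -1)
    (K : Submodule ℤ_[2] Λ) (hK : ∀ x, x ∈ K ↔ ρ Φ (ρ Φ x) = (v ^ 2) • x) :
    ∀ Λ' : Submodule ℤ_[2] Λ, Λ' ≤ K → (∀ g, ∀ x ∈ Λ', ρ g x ∈ Λ') → Λ' = ⊥ := by
  have hvu : IsUnit v := hv ▸ isUnit_detM RE Φ
  obtain ⟨v', hv'⟩ := hvu.exists_left_inv
  refine nostable_of hred hnil (g₁ * g₂ * g₁⁻¹ * g₂⁻¹) ?_ K ?_ ?_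
  · rw [map_mul, map_mul, map_mul, rb_inv hdet, rb_inv hdet, hg₁, hg₂]
    decide +kernel
  · intro x hx
    rw [hK] at hx ⊢
    rw [map_smul, map_smul, smul_comm (v ^ 2)] at hx
    have : (2 : ℤ_[2]) • (ρ Φ (ρ Φ x) - v ^ 2 • x) = 0 := by rw [smul_sub, hx, sub_self]
    exact sub_eq_zero.1 ((smul_eq_zero.1 this).resolve_left (by norm_num))
  · intro Λ' hle hsat hst x hx
    refine ⟨0, ?_⟩
    rw [smul_zero, sub_eq_zero]
    -- `Φ` is central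
    have hinv : ∀ (g : GQ) (x : Λ), ρ g⁻¹ (ρ g x) = x := by
      intro g x
      rw [← Module.End.mul_apply, ← map_mul, inv_mul_cancel, map_one]; rfl
    have hinv' : ∀ (g : GQ) (x : Λ), ρ g (ρ g⁻¹ x) = x := by
      intro g x
      rw [← Module.End.mul_apply, ← map_mul, mul_inv_cancel, map_one]; rfl
    have hmul : ∀ (g h : GQ) (x : Λ), ρ (g * h) x = ρ g (ρ h x) := by
      intro g h x
      rw [map_mul]; rfl
    have hcm : ∀ (g h : GQ) (x : Λ), ρ h (tOp ρ (detM RE) g x) = tOp ρ (detM RE) g (ρ h x) :=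
      fun g h x => LinearMap.congr_fun (hcomm g h) x
    have hΦi : ∀ x ∈ Λ', ρ Φ⁻¹ x = (v' ^ 2) • ρ Φ x := by
      intro x hx
      have h1 := (hK x).1 (hle hx)
      have h2 : ρ Φ⁻¹ (ρ Φ (ρ Φ x)) = ρ Φ⁻¹ ((v ^ 2) • x) := by rw [h1]
      rw [hinv, map_smul] at h2
      rw [h2, smul_smul, ← mul_pow, hv', one_pow, one_smul]
    have htΦ : ∀ x ∈ Λ', tOp ρ (detM RE) Φ x = (1 + v') • ρ Φ x := by
      intro x hx
      rw [tOp, LinearMap.add_apply, LinearMap.smul_apply, hΦi x hx, hv, smul_smul, add_smul, one_smul,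
        show v * v' ^ 2 = v' * (v' * v) by ring, hv', mul_one]
    have h1v : (1 + v' : ℤ_[2]) ≠ 0 := by
      intro h
      apply hv2
      have : v' = -1 := by linear_combination h
      rw [this] at hv'
      linear_combination -hv'
    have hΦc : ∀ (h : GQ), ∀ x ∈ Λ', ρ h (ρ Φ x) = ρ Φ (ρ h x) := by
      intro h x hx
      have h1 := hcm Φ h x
      rw [htΦ x hx, htΦ _ (hst h x hx), map_smul] at h1
      have h2 : (1 + v') • (ρ h (ρ Φ x) - ρ Φ (ρ h x)) = 0 := by rw [smul_sub, h1, sub_self]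
      exact sub_eq_zero.1 ((smul_eq_zero.1 h2).resolve_left h1v)
    -- everything commutes
    have hcc : ∀ (g h : GQ), ∀ x ∈ Λ', ρ h (ρ g⁻¹ x) = ρ g⁻¹ (ρ h x) := by
      intro g h x hx
      -- `t(Φ g) = Φ (g + v' χ(g) g⁻¹)`
      have key : ∀ y ∈ Λ', tOp ρ (detM RE) (Φ * g) y =
          ρ Φ (tOp ρ (detM RE) g y) + ((v' - 1) * detM RE g) • ρ Φ (ρ g⁻¹ y) := by
        intro y hy
        rw [tOp, tOp, LinearMap.add_apply, LinearMap.add_apply, LinearMap.smul_apply,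
          LinearMap.smul_apply, map_add, map_smul, map_mul (detM RE), hv, _root_.mul_inv_rev, hmul,
          hmul, hΦi y hy, map_smul, ← hΦc g⁻¹ y hy, smul_smul,
          show v * detM RE g * v' ^ 2 = (v' * v) * (v' * detM RE g) by ring, hv', one_mul]
        module
      have h1 := hcm (Φ * g) h x
      rw [key x hx, key _ (hst h x hx), map_add, map_smul] at h1
      have hT : tOp ρ (detM RE) g x ∈ Λ' := by
        rw [tOp, LinearMap.add_apply, LinearMap.smul_apply]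
        exact Λ'.add_mem (hst _ _ hx) (Λ'.smul_mem _ (hst _ _ hx))
      rw [hΦc h _ hT, hcm g h x, add_right_inj, hΦc h _ (hst g⁻¹ x hx)] at h1
      have hne : (v' - 1) * detM RE g ≠ 0 := by
        refine mul_ne_zero ?_ (isUnit_detM RE g).ne_zero
        intro h
        apply hv1
        have : v' = 1 := by linear_combination h
        rwa [this, one_mul] at hv'
      have h2 : ((v' - 1) * detM RE g) • (ρ Φ (ρ h (ρ g⁻¹ x)) - ρ Φ (ρ g⁻¹ (ρ h x))) = 0 := by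
        rw [smul_sub, h1, sub_self]
      have h3 := sub_eq_zero.1 ((smul_eq_zero.1 h2).resolve_left hne)
      have h4 := congrArg (ρ Φ⁻¹) h3
      rwa [hinv, hinv] at h4
    -- the commutator acts trivially
    rw [hmul, hmul, hmul]
    have h1 := hcc g₁ g₂ (ρ g₂⁻¹ x) (hst _ _ hx)
    rw [h1, hinv', hinv']

/-- `nostable` at the place `2`. -/
theorem nostable_two [Module.Finite ℤ_[2] Λ]
    (hred : ∀ g, (RE g).map PadicInt.toZMod = rb g)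
    (hnil : ∀ g, ∃ n : ℕ, ∀ x, ∃ y,
      ((tOp ρ (detM RE) g - (RE g).trace • (1 : Module.End ℤ_[2] Λ)) ^ n) x = (2 : ℤ_[2]) • y)
    (hdet : ∀ g, (rb g).det = 1)
    (g₁ g₂ : GQ) (hg₁ : rb g₁ = !![1, 1; 0, 1]) (hg₂ : rb g₂ = !![1, 0; 1, 1])
    (I : Subgroup GQ) (s₀ : GQ) (hs₀ : s₀ ∈ I) (hs₀1 : rb s₀ ≠ 1)
    (K : Submodule ℤ_[2] Λ) (hsat : ∀ x, (2 : ℤ_[2]) • x ∈ K → x ∈ K)
    (hK : ∀ s ∈ I, ∀ x ∈ K, ∃ y, ρ s x - x = (2 : ℤ_[2]) • y) :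
    ∀ Λ' : Submodule ℤ_[2] Λ, Λ' ≤ K → (∀ g, ∀ x ∈ Λ', ρ g x ∈ Λ') → Λ' = ⊥ := by
  have hinv : ∀ (g : GQ) (x : Λ), ρ g (ρ g⁻¹ x) = x := by
    intro g x
    rw [← Module.End.mul_apply, ← map_mul, mul_inv_cancel, map_one]; rfl
  have hmul : ∀ (g h : GQ) (x : Λ), ρ (g * h) x = ρ g (ρ h x) := by
    intro g h x
    rw [map_mul]; rfl
  have key : ∀ h : GQ, ∀ Λ' : Submodule ℤ_[2] Λ, Λ' ≤ K →
      (∀ g, ∀ x ∈ Λ', ρ g x ∈ Λ') → ∀ x ∈ Λ', ∃ y, ρ (s₀ * h * s₀⁻¹ * h⁻¹) x - x = (2 : ℤ_[2]) • y := by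
    intro h Λ' hle hst x hx
    obtain ⟨y₁, hy₁⟩ := hK s₀⁻¹ (I.inv_mem hs₀) (ρ h⁻¹ x) (hle (hst _ _ hx))
    have e1 : ρ s₀⁻¹ (ρ h⁻¹ x) = ρ h⁻¹ x + (2 : ℤ_[2]) • y₁ := by rw [← hy₁]; abel
    obtain ⟨y₂, hy₂⟩ := hK s₀ hs₀ x (hle hx)
    have e2 : ρ s₀ x = x + (2 : ℤ_[2]) • y₂ := by rw [← hy₂]; abel
    refine ⟨y₂ + ρ s₀ (ρ h y₁), ?_⟩
    rw [hmul, hmul, hmul, e1, map_add, map_add, hinv, map_smul, map_smul, e2]
    module
  rcases exists_comm_trace (rb s₀) (hdet s₀) hs₀1 with h | h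
  · refine nostable_of hred hnil (s₀ * g₁ * s₀⁻¹ * g₁⁻¹) ?_ K hsat
      (fun Λ' hle _ hst => key g₁ Λ' hle hst)
    rw [map_mul, map_mul, map_mul, rb_inv hdet, rb_inv hdet, hg₁,
      show (!![1, 1; 0, 1] : M2 (ZMod 2)).adjugate = !![1, 1; 0, 1] by decide +kernel]
    exact h
  · refine nostable_of hred hnil (s₀ * g₂ * s₀⁻¹ * g₂⁻¹) ?_ K hsat
      (fun Λ' hle _ hst => key g₂ Λ' hle hst)
    rw [map_mul, map_mul, map_mul, rb_inv hdet, rb_inv hdet, hg₂,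
      show (!![1, 0; 1, 1] : M2 (ZMod 2)).adjugate = !![1, 0; 1, 1] by decide +kernel]
    exact h

end Fermat.Agent.ZThm
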