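import Fermat.Agent.ZThm.JRel
import Fermat.Agent.ZThm.NoStable
import Fermat.Agent.ZAL.Out
import Fermat.Agent.BadRed.ZLoc
import Fermat.Agent.ZLoc2.Lam

/-!
# Theorem Z: the hypotheses of Step 4 for the lattice of Step 3
-/

set_option autoImplicit false
set_option linter.unusedSectionVars false

namespace Fermat.Agent.ZThm

open Matrix ModularCurve ModularCurve.Period CongruenceSubgroup AlgebraicCurve
open Fermat.Agent.HeckeHom Fermat.Agent.HGModule Fermat.Agent.TorsCmp Fermat.Agent.GalJ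
open Fermat.Agent.Tate Fermat.Agent.ZAL Fermat.Agent.Degen

local notation "Qb" => AlgebraicClosure ℚ
local notation "GQ" => AlgebraicClosure ℚ ≃ₐ[ℚ] AlgebraicClosure ℚ

attribute [local instance] algZ

/-- Local behaviour of the elliptic curve at the bad primes. -/
structure EBad (RE : GQ →* M2 ℤ_[2]) (rb : GQ →* M2 (ZMod 2)) (N : ℕ) : Prop where
  red : ∀ g, (RE g).map PadicInt.toZMod = rb g
  rdet : ∀ g, (rb g).det = 1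
  gens : ∃ g₁ g₂ : GQ, rb g₁ = !![1, 1; 0, 1] ∧ rb g₂ = !![1, 0; 1, 1]
  s0 : ∀ v : ℕ, v.Prime → v ∣ N → ∀ B : ValuationSubring Qb, B.LiesOverPrime v →
    ∃ s₀ ∈ B.inertiaSubgroupIn ℚ, rb s₀ ≠ 1
  ell : ∀ v : ℕ, v.Prime → v ∣ N → ∀ B : ValuationSubring Qb, B.LiesOverPrime v →
    ∀ Φ ∈ B.decompositionSubgroup ℚ, ∃ z : ℤ_[2], z * z = 1 ∧ ∀ k : ℕ,
      ∀ p ∈ pairs (B.inertiaSubgroupIn ℚ) Φ z, ∀ q ∈ pairs (B.inertiaSubgroupIn ℚ) Φ z,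
        ∃ Y : M2 ℤ_[2], (RE q.1 - q.2 • (1 : M2 ℤ_[2])).adjugate *
          (RE p.1 - p.2 • (1 : M2 ℤ_[2])) = (2 : ℤ_[2]) ^ k • Y

/-- Local behaviour at the auxiliary primes. -/
def EAux (RE : GQ →* M2 ℤ_[2]) (rb : GQ →* M2 (ZMod 2)) (k q : ℕ) : Prop :=
  ∀ B : ValuationSubring Qb, B.LiesOverPrime q → ∀ Φ : GQ, B.IsFrobeniusAt Φ q → rb Φ ≠ 1 ∧
    ∀ p ∈ pairs (B.inertiaSubgroupIn ℚ) Φ (1 : ℤ_[2]), ∀ p' ∈ pairs (B.inertiaSubgroupIn ℚ) Φ (1 : ℤ_[2]),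
      ∃ Y : M2 ℤ_[2], (RE p'.1 - p'.2 • (1 : M2 ℤ_[2])).adjugate *
        (RE p.1 - p.2 • (1 : M2 ℤ_[2])) = (2 : ℤ_[2]) ^ k • Y

section Lm

variable {M : ℕ} [NeZero M]

theorem lm_ext {x : Lm M} (h : ∀ K : ℕ, ∃ y : Lm M, x = (2 : ℤ_[2]) ^ K • y) : x = 0 := by
  apply ext_pjn
  intro n
  obtain ⟨y, rfl⟩ := h n
  rw [map_zero, pjn_smul, map_pow, map_ofNat]
  have : (2 : ZMod (2 ^ n)) ^ n = 0 := by
    have := ZMod.natCast_self (2 ^ n)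
    exact_mod_cast this
  rw [this, ZMod.val_zero, zero_nsmul]

theorem gal_cont (K : ℕ) : ∃ L : IntermediateField ℚ Qb, FiniteDimensional ℚ L ∧
    ∀ σ : GQ, (∀ z ∈ L, σ z = z) → ∀ φ : Lm M, ∃ ψ : Lm M, galLm M σ φ - φ = (2 : ℤ_[2]) ^ K • ψ :=
  (jI M).lam_continuous K

theorem gal_frob {ℓ : ℕ} (hℓ : ℓ.Prime) (hℓM : ¬ ℓ ∣ M) (hℓ2 : ℓ ≠ 2)
    {A : ValuationSubring Qb} (hA : A.LiesOverPrime ℓ) {Φ : GQ} (hΦ : A.IsFrobeniusAt Φ ℓ)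
    (x : Lm M) : parHecke ℤ_[2] ℤ_[2] hℓ hℓM x = galLm M Φ x + (ℓ : ℤ_[2]) • galLm M Φ⁻¹ x := by
  have h1 := (jI M).lam_frobenius ℓ hℓ hℓM (show ℓ ∉ {q | q ∣ M} from hℓM) hℓ2 A hA Φ hΦ
  have h2 := LinearMap.congr_fun h1 (galLm M Φ⁻¹ x)
  change galLm M Φ (galLm M Φ (galLm M Φ⁻¹ x)) -
    parHecke ℤ_[2] ℤ_[2] hℓ hℓM (galLm M Φ (galLm M Φ⁻¹ x)) + (ℓ : ℤ_[2]) • galLm M Φ⁻¹ x = 0 at h2
  have h3 : galLm M Φ (galLm M Φ⁻¹ x) = x := by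
    rw [← Module.End.mul_apply, ← map_mul, mul_inv_cancel, map_one]; rfl
  rw [h3] at h2
  rw [← sub_eq_zero, ← neg_eq_zero, ← h2]
  abel

theorem gal_unram {ℓ : ℕ} (hℓ : ℓ.Prime) (hℓM : ¬ ℓ ∣ M) (hℓ2 : ℓ ≠ 2)
    {A : ValuationSubring Qb} (hA : A.LiesOverPrime ℓ) {s : GQ} (hs : s ∈ A.inertiaSubgroupIn ℚ) :
    galLm M s = 1 :=
  (jI M).lam_unramified ℓ hℓ hℓM hℓ2 A hA s hs

variable {RE : GQ →* M2 ℤ_[2]} {a : ℕ → ℤ} {N : ℕ}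

/-- the Galois operator on the Tate module -/
noncomputable def tLm (RE : GQ →* M2 ℤ_[2]) (g : GQ) : Module.End ℤ_[2] (Lm M) :=
  tOp (galLm M) (detM RE) g

theorem tLm_apply (g : GQ) (x : Lm M) :
    tLm RE g x = galLm M g x + (RE g).det • galLm M g⁻¹ x := rfl

/-- approximation of Galois operators by Hecke operators -/
theorem exists_hecke_approx (hE : EDat RE a N) (hNM : N ∣ M) (K : ℕ) (g : GQ) :
    ∃ (ℓ : ℕ) (hℓ : ℓ.Prime) (hℓM : ¬ ℓ ∣ M),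
      (∀ x : Lm M, ∃ y : Lm M, tLm RE g x - parHecke ℤ_[2] ℤ_[2] hℓ hℓM x = (2 : ℤ_[2]) ^ K • y) ∧
      ∃ c : ℤ_[2], (RE g).trace = (a ℓ : ℤ_[2]) + (2 : ℤ_[2]) ^ K * c := by
  obtain ⟨L, hL, hcont⟩ := gal_cont (M := M) K
  obtain ⟨ℓ, hℓ, hℓM, A, hA, Φ, hΦ, -, hgΦ, Y, hY⟩ :=
    exists_frob_approx hE L hL K M (NeZero.ne M) g
  have hℓN : ¬ ℓ ∣ N := fun h' => hℓM (h'.trans hNM)
  have hℓ2 : ℓ ≠ 2 := fun h' => hℓN (h' ▸ hE.two)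
  refine ⟨ℓ, hℓ, hℓM, fun x => ?_, -Y.trace, ?_⟩
  · set σ := g⁻¹ * Φ with hσ
    have hΦe : Φ = g * σ := by rw [hσ, mul_inv_cancel_left]
    have hσi : ∀ x ∈ L, σ⁻¹ x = x := by
      intro x hx
      exact (AlgEquiv.symm_apply_eq σ).2 (hgΦ x hx).symm
    obtain ⟨y₁, hy₁⟩ := hcont σ hgΦ x
    obtain ⟨y₂, hy₂⟩ := hcont σ⁻¹ hσi (galLm M g⁻¹ x)
    have e1 : galLm M σ x = x + (2 : ℤ_[2]) ^ K • y₁ := by rw [← hy₁]; abel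
    have e2 : galLm M σ⁻¹ (galLm M g⁻¹ x) = galLm M g⁻¹ x + (2 : ℤ_[2]) ^ K • y₂ := by
      rw [← hy₂]; abel
    have e3 : galLm M Φ x = galLm M g (galLm M σ x) := by rw [hΦe, map_mul]; rfl
    have e4 : galLm M Φ⁻¹ x = galLm M σ⁻¹ (galLm M g⁻¹ x) := by
      rw [hΦe, _root_.mul_inv_rev, map_mul]; rfl
    obtain ⟨d, hd⟩ : ∃ d, (RE Φ).det = (RE g).det + (2 : ℤ_[2]) ^ K * d := by
      refine ⟨(RE g) 0 0 * Y 1 1 + Y 0 0 * (RE g) 1 1 - (RE g) 0 1 * Y 1 0 - Y 0 1 * (RE g) 1 0 +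
        (2 : ℤ_[2]) ^ K * (Y 0 0 * Y 1 1 - Y 0 1 * Y 1 0), ?_⟩
      rw [hY, Matrix.det_fin_two, Matrix.det_fin_two]
      simp only [Matrix.add_apply, Matrix.smul_apply, smul_eq_mul]
      ring
    refine ⟨-(galLm M g y₁ + (RE g).det • y₂ + d • (galLm M g⁻¹ x + (2 : ℤ_[2]) ^ K • y₂)), ?_⟩
    rw [tLm_apply, gal_frob hℓ hℓM hℓ2 hA hΦ, ← hE.det ℓ hℓ hℓ2 A hA Φ hΦ, hd, e3, e4, e1, e2,
      map_add, map_smul]
    module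
  · rw [← hE.tr ℓ hℓ hℓN A hA Φ hΦ, hY, Matrix.trace_add, Matrix.trace_smul, smul_eq_mul]
    ring

theorem tLm_comm (hE : EDat RE a N) (hNM : N ∣ M) (g h : GQ) (x : Lm M) :
    galLm M h (tLm RE g x) = tLm RE g (galLm M h x) := by
  rw [← sub_eq_zero]
  apply lm_ext
  intro K
  obtain ⟨ℓ, hℓ, hℓM, h1, -⟩ := exists_hecke_approx (M := M) hE hNM K g
  obtain ⟨y₁, hy₁⟩ := h1 x
  obtain ⟨y₂, hy₂⟩ := h1 (galLm M h x)
  have e1 : tLm RE g x = parHecke ℤ_[2] ℤ_[2] hℓ hℓM x + (2 : ℤ_[2]) ^ K • y₁ := by rw [← hy₁]; abel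
  have e2 : tLm RE g (galLm M h x) =
      parHecke ℤ_[2] ℤ_[2] hℓ hℓM (galLm M h x) + (2 : ℤ_[2]) ^ K • y₂ := by rw [← hy₂]; abel
  refine ⟨galLm M h y₁ - y₂, ?_⟩
  rw [e1, e2, map_add, map_smul, gal_parHecke]
  module

theorem pow_two_nd {v : ℕ} (hv : v.Prime) (hv2 : v ≠ 2) (n : ℕ) : ¬ v ∣ 2 ^ n := fun h =>
  hv2 ((Nat.prime_dvd_prime_iff_eq hv Nat.prime_two).1 (hv.dvd_of_dvd_pow h))

theorem pjn_natCast_smul (n m : ℕ) (x : Lm M) :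
    pjn M n ((m : ℤ_[2]) • x) = m • pjn M n x := by
  rw [Nat.cast_smul_eq_nsmul, map_nsmul]

theorem pjn_tors (n : ℕ) (x : Lm M) : 2 ^ n • pjn M n x = 0 := (jI M).prj_torsion n x

/-- the local relations at an odd place of multiplicative reduction -/
theorem loc_odd {m v : ℕ} [NeZero m] (hm : m * v = M) (hv : v.Prime) (hv2 : v ≠ 2)
    (h : ExDiv v M) {B : ValuationSubring Qb} (hB : B.LiesOverPrime v) {Φ : GQ}
    (hΦ : B.IsFrobeniusAt Φ v) {x : Lm M} (hx : NewAt v x) {s : GQ}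
    (hs : s ∈ B.inertiaSubgroupIn ℚ) :
    galLm M Φ (galLm M Φ (galLm M s x - x)) = ((v : ℤ_[2]) ^ 2) • (galLm M s x - x) ∧
    galLm M Φ (galLm M Φ (galLm M Φ x + wLm h x)) =
      ((v : ℤ_[2]) ^ 2) • (galLm M Φ x + wLm h x) := by
  subst hm
  have hv0 : NeZero v := ⟨hv.ne_zero⟩
  have hα : ∀ y, ((heckeAlphaBar Qb m v y : modularFunctionFieldBar (m * v)) : LaurentSeries Qb) = y :=
    fun y => coe_heckeAlphaBar m v y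
  have hβ : ∀ y, ((heckeBetaBar Qb m v y : modularFunctionFieldBar (m * v)) : LaurentSeries Qb) =
      (haveI : NeZero v := ⟨hv.ne_zero⟩; qExpand Qb v (y : LaurentSeries Qb)) :=
    fun y => coe_heckeBetaBar m v y
  have hvv : ((v : ℤ_[2]) ^ 2) = ((v * v : ℕ) : ℤ_[2]) := by push_cast; ring
  have key : ∀ n, _ := fun n =>
    BadRed.zloc hv rfl h B hB (pow_two_nd hv hv2 n) (heckeAlphaBar Qb m v) (heckeBetaBar Qb m v)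
      hα hβ hs hs hΦ (pjn_tors n x)
      (hx.alpha_beta hv rfl h (heckeAlphaBar Qb m v) (heckeBetaBar Qb m v) hα hβ n).1
      (hx.alpha_beta hv rfl h (heckeAlphaBar Qb m v) (heckeBetaBar Qb m v) hα hβ n).2
  constructor
  · apply ext_pjn
    intro n
    rw [hvv, pjn_natCast_smul, pjn_galLm, pjn_galLm, map_sub, pjn_galLm]
    exact (key n).2.2.1
  · apply ext_pjn
    intro n
    rw [hvv, pjn_natCast_smul, pjn_galLm, pjn_galLm, map_add, pjn_galLm, pjn_wLm]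
    exact (key n).2.2.2

end Lm

end Fermat.Agent.ZThm
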