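import Fermat.Agent.ZThm.LatJ
import Fermat.Agent.SEL.Inertia

/-!
# Theorem Z: the hypotheses of Step 4 for the lattice of Step 3 (continued)
-/

set_option autoImplicit false
set_option linter.unusedSectionVars false

namespace Fermat.Agent.ZThm

open Matrix ModularCurve ModularCurve.Period CongruenceSubgroup AlgebraicCurve
open Fermat.Agent.HeckeHom Fermat.Agent.HGModule Fermat.Agent.TorsCmp Fermat.Agent.GalJ
open Fermat.Agent.Tate Fermat.Agent.ZAL Fermat.Agent.Degen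

local notation "Qb" => AlgebraicClosure ℚ
local notation "GQ" => AlgebraicClosure ℚ ≃ₐ[ℚ] AlgebraicClosure ℚ

attribute [local instance] algZ

variable {M N : ℕ} [NeZero M] {t : ℕ → ZMod 2} {c : ℕ} {Λ : Submodule ℤ_[2] (Lm M)}
  {RE : GQ →* M2 ℤ_[2]} {a : ℕ → ℤ} {rb : GQ →* M2 (ZMod 2)}

/-- the lattice as a type -/
def LT (Λ : Submodule ℤ_[2] (Lm M)) : Type := Λ

noncomputable instance : AddCommGroup (LT Λ) := inferInstanceAs (AddCommGroup Λ)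

noncomputable instance : Module ℤ_[2] (LT Λ) := inferInstanceAs (Module ℤ_[2] Λ)

/-- the inclusion -/
noncomputable def toL (Λ : Submodule ℤ_[2] (Lm M)) : LT Λ →ₗ[ℤ_[2]] Lm M := Λ.subtype

/-- constructor -/
def mkL (x : Lm M) (hx : x ∈ Λ) : LT Λ := ⟨x, hx⟩

theorem toL_mkL (x : Lm M) (hx : x ∈ Λ) : toL Λ (mkL x hx) = x := rfl

theorem toL_mem (x : LT Λ) : toL Λ x ∈ Λ := Subtype.property (p := fun y => y ∈ Λ) x

theorem toL_inj {x y : LT Λ} (h : toL Λ x = toL Λ y) : x = y := Subtype.ext h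

/-- restriction of an operator to the lattice -/
noncomputable def resL (f : Module.End ℤ_[2] (Lm M)) (hf : ∀ x ∈ Λ, f x ∈ Λ) :
    Module.End ℤ_[2] (LT Λ) where
  toFun x := mkL (f (toL Λ x)) (hf _ (toL_mem x))
  map_add' x y := toL_inj (by rw [toL_mkL, map_add, map_add, map_add]; rfl)
  map_smul' r x := toL_inj (by rw [toL_mkL, map_smul, map_smul, RingHom.id_apply, map_smul]; rfl)

theorem toL_resL (f : Module.End ℤ_[2] (Lm M)) (hf : ∀ x ∈ Λ, f x ∈ Λ) (x : LT Λ) :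
    toL Λ (resL f hf x) = f (toL Λ x) := rfl

/-- the Galois action on the lattice -/
noncomputable def rhoL (hΛ : ZLat M N t c Λ) : GQ →* Module.End ℤ_[2] (LT Λ) where
  toFun g := resL (galLm M g) (hΛ.gal g)
  map_one' := LinearMap.ext fun x => toL_inj (by rw [toL_resL, map_one]; rfl)
  map_mul' g h := LinearMap.ext fun x => toL_inj (by
    rw [Module.End.mul_apply, toL_resL, toL_resL, toL_resL, map_mul]; rfl)

theorem coe_rhoL (hΛ : ZLat M N t c Λ) (g : GQ) (x : LT Λ) :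
    toL Λ (rhoL hΛ g x) = galLm M g (toL Λ x) := rfl

theorem coe_tOp (hΛ : ZLat M N t c Λ) (g : GQ) (x : LT Λ) :
    toL Λ (tOp (rhoL hΛ) (detM RE) g x) = tLm RE g (toL Λ x) := by
  rw [tOp, LinearMap.add_apply, LinearMap.smul_apply, map_add, map_smul, coe_rhoL, coe_rhoL]
  rfl

/-- the involution on the lattice -/
noncomputable def wΛ (hΛ : ZLat M N t c Λ) {v : ℕ} (hv : v.Prime) (h : ExDiv v M) :
    Module.End ℤ_[2] (LT Λ) := resL (wLm h) (hΛ.w v hv h)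

theorem coe_wΛ (hΛ : ZLat M N t c Λ) {v : ℕ} (hv : v.Prime) (h : ExDiv v M) (x : LT Λ) :
    toL Λ (wΛ hΛ hv h x) = wLm h (toL Λ x) := rfl

/-- the Hecke operators on the lattice -/
noncomputable def hΛT (hΛ : ZLat M N t c Λ) {l : ℕ} (hl : l.Prime) (hlM : ¬ l ∣ M) :
    Module.End ℤ_[2] (LT Λ) := resL (parHecke ℤ_[2] ℤ_[2] hl hlM) (hΛ.hecke l hl hlM)

theorem coe_hΛT (hΛ : ZLat M N t c Λ) {l : ℕ} (hl : l.Prime) (hlM : ¬ l ∣ M) (x : LT Λ) :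
    toL Λ (hΛT hΛ hl hlM x) = parHecke ℤ_[2] ℤ_[2] hl hlM (toL Λ x) := rfl

theorem sat_pow (hΛ : ZLat M N t c Λ) (K : ℕ) (x : Lm M) (hx : (2 : ℤ_[2]) ^ K • x ∈ Λ) : x ∈ Λ := by
  induction K with
  | zero => simpa using hx
  | succ K ih => exact ih (hΛ.sat _ (by rwa [smul_smul, ← pow_succ']))

theorem rhoL_comm (hE : EDat RE a N) (hNM : N ∣ M) (hΛ : ZLat M N t c Λ) (g h : GQ) :
    rhoL hΛ h * tOp (rhoL hΛ) (detM RE) g = tOp (rhoL hΛ) (detM RE) g * rhoL hΛ h :=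
  LinearMap.ext fun x => toL_inj (by
    rw [Module.End.mul_apply, Module.End.mul_apply, coe_rhoL, coe_tOp, coe_tOp, coe_rhoL]
    exact tLm_comm hE hNM g h (toL Λ x))

theorem pow_congr {P : Type} [AddCommGroup P] [Module ℤ_[2] P] (S T : Module.End ℤ_[2] P)
    (h : ∀ x, ∃ y, S x - T x = (2 : ℤ_[2]) • y) (n : ℕ) (x : P) :
    ∃ y, (S ^ n) x - (T ^ n) x = (2 : ℤ_[2]) • y := by
  induction n generalizing x with
  | zero => exact ⟨0, by simp⟩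
  | succ n ih =>
    obtain ⟨y₁, hy₁⟩ := h x
    obtain ⟨y₂, hy₂⟩ := ih (T x)
    refine ⟨(S ^ n) y₁ + y₂, ?_⟩
    have e1 : S x = T x + (2 : ℤ_[2]) • y₁ := by rw [← hy₁]; abel
    rw [pow_succ, pow_succ, Module.End.mul_apply, Module.End.mul_apply, e1, map_add, map_smul,
      smul_add, ← hy₂]
    abel

theorem coe_pow (S : Module.End ℤ_[2] (LT Λ)) (T : Module.End ℤ_[2] (Lm M))
    (h : ∀ x, toL Λ (S x) = T (toL Λ x)) (n : ℕ) (x : LT Λ) :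
    toL Λ ((S ^ n) x) = (T ^ n) (toL Λ x) := by
  induction n generalizing x with
  | zero => rfl
  | succ n ih => rw [pow_succ, pow_succ, Module.End.mul_apply, Module.End.mul_apply, ih, h]

theorem rhoL_nil (hE : EDat RE a N) (hNM : N ∣ M) (hΛ : ZLat M N t c Λ)
    (ht : ∀ l, l.Prime → ¬ l ∣ M → t l = (a l : ZMod 2)) (g : GQ) :
    ∃ n : ℕ, ∀ x, ∃ y, ((tOp (rhoL hΛ) (detM RE) g -
      (RE g).trace • (1 : Module.End ℤ_[2] (LT Λ))) ^ n) x = (2 : ℤ_[2]) • y := by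
  obtain ⟨ℓ, hℓ, hℓM, h1, d, hd⟩ := exists_hecke_approx (M := M) hE hNM 1 g
  have h2 : PadicInt.toZMod (p := 2) (RE g).trace = t ℓ := by
    rw [ht ℓ hℓ hℓM, hd, pow_one, map_add, toZMod_two_mul, add_zero, map_intCast]
  obtain ⟨n, hn⟩ := hΛ.nil ℓ hℓ hℓM _ h2
  refine ⟨n, fun x => ?_⟩
  obtain ⟨y, hy, hyn⟩ := hn (toL Λ x) (toL_mem x)
  obtain ⟨z, hz⟩ := pow_congr
    (tOp (rhoL hΛ) (detM RE) g - (RE g).trace • (1 : Module.End ℤ_[2] (LT Λ)))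
    (hΛT hΛ hℓ hℓM - (RE g).trace • (1 : Module.End ℤ_[2] (LT Λ))) (by
      intro x
      obtain ⟨y, hy⟩ := h1 (toL Λ x)
      rw [pow_one] at hy
      have hyΛ : y ∈ Λ := by
        apply hΛ.sat
        rw [← hy, ← coe_tOp hΛ, ← coe_hΛT hΛ hℓ hℓM]
        exact Λ.sub_mem (toL_mem _) (toL_mem _)
      refine ⟨mkL y hyΛ, toL_inj ?_⟩
      rw [LinearMap.sub_apply, LinearMap.sub_apply, sub_sub_sub_cancel_right, map_sub, coe_tOp,
        coe_hΛT, hy, map_smul, toL_mkL]) n x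
  refine ⟨mkL y hy + z, ?_⟩
  have h3 : ((hΛT hΛ hℓ hℓM - (RE g).trace • (1 : Module.End ℤ_[2] (LT Λ))) ^ n) x =
      (2 : ℤ_[2]) • mkL y hy := by
    apply toL_inj
    have h4 := coe_pow (hΛT hΛ hℓ hℓM - (RE g).trace • (1 : Module.End ℤ_[2] (LT Λ)))
      (parHecke ℤ_[2] ℤ_[2] hℓ hℓM - (RE g).trace • (1 : Module.End ℤ_[2] (Lm M))) (fun x => by
        rw [LinearMap.sub_apply, LinearMap.sub_apply, map_sub, coe_hΛT, LinearMap.smul_apply,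
          LinearMap.smul_apply, map_smul]; rfl) n x
    rw [h4, hyn, map_smul, toL_mkL]
  rw [smul_add, ← hz, ← h3]
  abel

theorem rhoL_smooth (hE : EDat RE a N) (hΛ : ZLat M N t c Λ) (K : ℕ) :
    ∃ L : IntermediateField ℚ Qb, FiniteDimensional ℚ L ∧
    ∀ σ : GQ, (∀ x ∈ L, σ x = x) → (∀ x, ∃ y, rhoL hΛ σ x - x = (2 : ℤ_[2]) ^ K • y) ∧
      ∃ Y : M2 ℤ_[2], RE σ - 1 = (2 : ℤ_[2]) ^ K • Y := by
  obtain ⟨L, hL, h1⟩ := gal_cont (M := M) K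
  obtain ⟨L', hL', h2⟩ := hE.smooth K
  refine ⟨L ⊔ L', IntermediateField.finiteDimensional_sup L L', fun σ hσ => ⟨fun x => ?_, ?_⟩⟩
  · obtain ⟨y, hy⟩ := h1 σ (fun z hz => hσ z (le_sup_left (a := L) (b := L') hz)) (toL Λ x)
    have hyΛ : y ∈ Λ := by
      apply sat_pow hΛ K
      rw [← hy]
      exact Λ.sub_mem (hΛ.gal σ _ (toL_mem x)) (toL_mem x)
    refine ⟨mkL y hyΛ, toL_inj ?_⟩
    rw [map_sub, coe_rhoL, hy, map_smul, toL_mkL]
  · exact h2 σ (fun z hz => hσ z (le_sup_right (a := L) (b := L') hz))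

/-- the kernel of `Φ² - v²` -/
noncomputable def Kodd (hΛ : ZLat M N t c Λ) (Φ : GQ) (v : ℕ) : Submodule ℤ_[2] (LT Λ) :=
  LinearMap.ker (rhoL hΛ Φ * rhoL hΛ Φ - ((v : ℤ_[2]) ^ 2) • (1 : Module.End ℤ_[2] (LT Λ)))

theorem mem_Kodd (hΛ : ZLat M N t c Λ) (Φ : GQ) (v : ℕ) (x : LT Λ) :
    x ∈ Kodd hΛ Φ v ↔ rhoL hΛ Φ (rhoL hΛ Φ x) = ((v : ℤ_[2]) ^ 2) • x := by
  rw [Kodd, LinearMap.mem_ker, LinearMap.sub_apply, sub_eq_zero]
  rfl

theorem natCast_ne_one {v : ℕ} (hv : v.Prime) : (v : ℤ_[2]) ≠ 1 := by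
  intro h
  have : (v : ℤ_[2]) = ((1 : ℕ) : ℤ_[2]) := by rw [h]; simp
  exact hv.one_lt.ne' (Nat.cast_injective this)

theorem natCast_ne_neg_one {v : ℕ} : (v : ℤ_[2]) ≠ -1 := by
  intro h
  have : ((v + 1 : ℕ) : ℤ_[2]) = ((0 : ℕ) : ℤ_[2]) := by push_cast; rw [h]; ring
  have := Nat.cast_injective this
  omega

instance finite_lat : Module.Finite ℤ_[2] (LT Λ) := by
  have hnoeth : IsNoetherian ℤ_[2] (Lm M) := isNoetherian_of_isNoetherianRing_of_finite ℤ_[2] (Lm M)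
  exact Module.Finite.of_injective (toL Λ) (fun _ _ h => toL_inj h)

instance free_lat : Module.Free ℤ_[2] (LT Λ) := by
  have h2 : Module.IsTorsionFree ℤ_[2] (LT Λ) := by
    rw [Module.isTorsionFree_iff_smul_eq_zero]
    intro r x hx
    by_contra hcon
    push Not at hcon
    obtain ⟨hr, hx0⟩ := hcon
    apply hx0
    apply toL_inj
    apply Subtype.ext
    refine AddMonoidHom.ext fun γ => ?_
    have h4 : r • toL Λ x = 0 := by rw [← map_smul, hx, map_zero]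
    have h3 : r * ((toL Λ x : Additive (Gamma0 M) →+ ℤ_[2]) γ) = 0 :=
      congrArg (fun y : Lm M => (y : Additive (Gamma0 M) →+ ℤ_[2]) γ) h4
    rw [map_zero]
    exact (mul_eq_zero.1 h3).resolve_left hr
  exact Module.free_of_finite_type_torsion_free'

/-- local data at the odd places -/
theorem lloc_odd (hE : EDat RE a N) (hB : EBad RE rb N) (hNM : N ∣ M)
    (hΛ : ZLat M N t c Λ) (ht : ∀ l, l.Prime → ¬ l ∣ M → t l = (a l : ZMod 2)) (k : ℕ) {v m : ℕ}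
    [NeZero m] (hm : m * v = M) (hv : v.Prime) (hv2 : v ≠ 2) (hex : ExDiv v M)
    {B : ValuationSubring Qb} (hBv : B.LiesOverPrime v) {Φ : GQ} (hΦ : B.IsFrobeniusAt Φ v)
    (w : Module.End ℤ_[2] (LT Λ)) (hw : w = -wΛ hΛ hv hex) (z : ℤ_[2]) (hz : z * z = 1)
    (hs0 : ∃ s₀ ∈ B.decompositionSubgroup ℚ, rb s₀ ≠ 1 ∧
      (s₀ ∈ B.inertiaSubgroupIn ℚ ∨ (s₀ = Φ ∧ w = 1 ∧ z = 1)))
    (hell : ∀ p ∈ pairs (B.inertiaSubgroupIn ℚ) Φ z, ∀ q ∈ pairs (B.inertiaSubgroupIn ℚ) Φ z,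
      ∃ Y : M2 ℤ_[2], (RE q.1 - q.2 • (1 : M2 ℤ_[2])).adjugate *
        (RE p.1 - p.2 • (1 : M2 ℤ_[2])) = (2 : ℤ_[2]) ^ k • Y) :
    LLoc (rhoL hΛ) RE rb k (B.decompositionSubgroup ℚ) (B.inertiaSubgroupIn ℚ) Φ w z
      (Kodd hΛ Φ v) := by
  obtain ⟨g₁, g₂, hg₁, hg₂⟩ := hB.gens
  have hvM : v ∣ M := ⟨m, by rw [← hm, mul_comm]⟩
  have hww : ∀ x : LT Λ, wΛ hΛ hv hex (wΛ hΛ hv hex x) = x := fun x => toL_inj (by
    rw [coe_wΛ, coe_wΛ]
    exact wLm_wLm hex (toL Λ x))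
  refine
    { memD := hΦ.mem_decompositionSubgroup
      ww := ?_
      wρ := ?_
      zz := hz
      s0 := hs0
      gen := fun τ hτ L hL => Fermat.Agent.ZEnd.exists_pow_mul_inertia hv hBv hΦ hτ L
      inert := ?_
      frob := ?_
      nostable := ?_
      ell := hell }
  · rw [hw, neg_mul_neg]
    exact LinearMap.ext fun x => hww x
  · intro g
    rw [hw, neg_mul, mul_neg]
    congr 1
    exact LinearMap.ext fun x => toL_inj (gal_wLm hex g (toL Λ x))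
  · intro s hs x
    rw [mem_Kodd]
    apply toL_inj
    rw [coe_rhoL, coe_rhoL, map_smul, map_sub, coe_rhoL]
    exact (loc_odd hm hv hv2 hex hBv hΦ (hΛ.new v hv hvM _ (toL_mem x)) hs).1
  · intro x
    rw [mem_Kodd]
    have h1 := (loc_odd hm hv hv2 hex hBv hΦ (hΛ.new v hv hvM _ (toL_mem x))
      (one_mem (B.inertiaSubgroupIn ℚ))).2
    have h2 : rhoL hΛ Φ x - w x = rhoL hΛ Φ x + wΛ hΛ hv hex x := by
      rw [hw, LinearMap.neg_apply, sub_neg_eq_add]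
    rw [h2]
    apply toL_inj
    rw [coe_rhoL, coe_rhoL, map_smul, map_add, coe_rhoL, coe_wΛ]
    exact h1
  · exact nostable_odd (rhoL_comm hE hNM hΛ) hB.red (rhoL_nil hE hNM hΛ ht) hB.rdet g₁ g₂ hg₁ hg₂
      Φ (v : ℤ_[2]) (hE.det v hv hv2 B hBv Φ hΦ) (natCast_ne_one hv) natCast_ne_neg_one
      (Kodd hΛ Φ v) (mem_Kodd hΛ Φ v)

/-- local data at the place `2` -/
theorem lloc_two (hE : EDat RE a N) (hB : EBad RE rb N) (hNM : N ∣ M)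
    (hΛ : ZLat M N t c Λ) (ht : ∀ l, l.Prime → ¬ l ∣ M → t l = (a l : ZMod 2)) (k : ℕ) {m : ℕ}
    [NeZero m] (hm : M = m * 2) (hex : ExDiv 2 M)
    {B : ValuationSubring Qb} (hB2 : B.LiesOverPrime 2) {Φ : GQ} (hΦ : B.IsFrobeniusAt Φ 2)
    (z : ℤ_[2]) (hz : z * z = 1)
    (hs0 : ∃ s₀ ∈ B.inertiaSubgroupIn ℚ, rb s₀ ≠ 1)
    (hell : ∀ p ∈ pairs (B.inertiaSubgroupIn ℚ) Φ z, ∀ q ∈ pairs (B.inertiaSubgroupIn ℚ) Φ z,
      ∃ Y : M2 ℤ_[2], (RE q.1 - q.2 • (1 : M2 ℤ_[2])).adjugate *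
        (RE p.1 - p.2 • (1 : M2 ℤ_[2])) = (2 : ℤ_[2]) ^ k • Y) :
    ∃ K, LLoc (rhoL hΛ) RE rb k (B.decompositionSubgroup ℚ) (B.inertiaSubgroupIn ℚ) Φ
      (-wΛ hΛ Nat.prime_two hex) z K := by
  obtain ⟨g₁, g₂, hg₁, hg₂⟩ := hB.gens
  have hvM : 2 ∣ M := ⟨m, by rw [hm, mul_comm]⟩
  have hww : ∀ x : LT Λ, wΛ hΛ Nat.prime_two hex (wΛ hΛ Nat.prime_two hex x) = x := fun x =>
    toL_inj (by
      rw [coe_wΛ, coe_wΛ]
      exact wLm_wLm hex (toL Λ x))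
  obtain ⟨K, hKΛ, hKsat, hKI, hKΦ, hKζ, -, -⟩ : ∃ K : Submodule ℤ_[2] (Lm M), K ≤ Λ ∧
      (∀ x ∈ Λ, (2 : ℤ_[2]) • x ∈ K → x ∈ K) ∧
      (∀ s ∈ B.inertiaSubgroupIn ℚ, ∀ x ∈ Λ, galLm M s x - x ∈ K) ∧
      (∀ Φ : GQ, B.IsFrobeniusAt Φ 2 → ∀ x ∈ Λ, galLm M Φ x + wLm hex x ∈ K) ∧
      (∀ ζ : Qb, IsPrimitiveRoot ζ 2 → ∀ l : ℕ, ∀ s ∈ B.inertiaSubgroupIn ℚ, s ζ = ζ ^ l →
        ∀ x ∈ K, ∃ y ∈ Λ, galLm M s x - (l : ℤ_[2]) • x = (2 : ℤ_[2]) • y) ∧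
      (∀ τ ∈ B.decompositionSubgroup ℚ, ∀ x ∈ K, galLm M τ x ∈ K) ∧
      (∀ x ∈ K, wLm hex x ∈ K) := by
    subst hm
    exact ZLoc2.exists_K (p := 2) rfl hex B hB2 (heckeAlphaBar Qb m 2) (heckeBetaBar Qb m 2)
      (fun y => coe_heckeAlphaBar m 2 y) (fun y => coe_heckeBetaBar m 2 y)
      (wLm hex).toAddMonoidHom (fun n φ => pjn_wLm hex n φ) Λ hΛ.sat hΛ.gal
      (fun x hx => hΛ.w 2 Nat.prime_two hex x hx)
      (fun x hx n => (hΛ.new 2 Nat.prime_two hvM x hx).alpha_beta Nat.prime_two rfl hex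
        (heckeAlphaBar Qb m 2) (heckeBetaBar Qb m 2)
        (fun y => coe_heckeAlphaBar m 2 y) (fun y => coe_heckeBetaBar m 2 y) n)
  refine ⟨K.comap (toL Λ),
    { memD := hΦ.mem_decompositionSubgroup
      ww := ?_
      wρ := ?_
      zz := hz
      s0 := ?_
      gen := fun τ hτ L hL => Fermat.Agent.ZEnd.exists_pow_mul_inertia Nat.prime_two hB2 hΦ hτ L
      inert := ?_
      frob := ?_
      nostable := ?_
      ell := hell }⟩
  · rw [neg_mul_neg]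
    exact LinearMap.ext fun x => hww x
  · intro g
    rw [neg_mul, mul_neg]
    congr 1
    exact LinearMap.ext fun x => toL_inj (gal_wLm hex g (toL Λ x))
  · obtain ⟨s₀, h1, h2⟩ := hs0
    exact ⟨s₀, SEL.mem_decomposition_of_mem_inertia h1, h2, Or.inl h1⟩
  · intro s hs x
    rw [Submodule.mem_comap, map_sub, coe_rhoL]
    exact hKI s hs _ (toL_mem x)
  · intro x
    rw [LinearMap.neg_apply, sub_neg_eq_add, Submodule.mem_comap, map_add, coe_rhoL, coe_wΛ]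
    exact hKΦ Φ hΦ _ (toL_mem x)
  · obtain ⟨s₀, h1, h2⟩ := hs0
    refine nostable_two hB.red (rhoL_nil hE hNM hΛ ht) hB.rdet g₁ g₂ hg₁ hg₂
      (B.inertiaSubgroupIn ℚ) s₀ h1 h2 (K.comap (toL Λ)) ?_ ?_
    · intro x hx
      rw [Submodule.mem_comap, map_smul] at hx
      exact hKsat _ (toL_mem x) hx
    · intro s hs x hx
      obtain ⟨y, hy, h3⟩ := hKζ (-1) (IsPrimitiveRoot.neg_one 0 (by norm_num)) 1 s hs
        (by rw [map_neg, map_one, pow_one]) (toL Λ x) hx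
      refine ⟨mkL y hy, toL_inj ?_⟩
      rw [Nat.cast_one, one_smul] at h3
      rw [map_sub, coe_rhoL, h3, map_smul, toL_mkL]

end Fermat.Agent.ZThm
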