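import Fermat.Agent.ZThm.Lattice

/-!
# Theorem Z, Step 4: the local trace identities from the geometric input
-/

set_option autoImplicit false

namespace Fermat.Agent.ZThm

open Matrix

local notation "Qb" => AlgebraicClosure ℚ
local notation "GQ" => AlgebraicClosure ℚ ≃ₐ[ℚ] AlgebraicClosure ℚ

section Unit

variable {R : Type} [CommRing R] [Algebra ℤ_[2] R]

theorem nil_or (t : GQ → R)
    (hnil : ∀ g, ∃ (c : ℤ_[2]) (n : ℕ), (2 : R) ∣ (t g - algebraMap ℤ_[2] R c) ^ n)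
    (hgen : Algebra.adjoin ℤ_[2] (Set.range t) = ⊤) (a : R) :
    IsNilpotent (Ideal.Quotient.mk (Ideal.span {(2 : R)}) a : Q2 R) ∨
    IsNilpotent ((Ideal.Quotient.mk (Ideal.span {(2 : R)}) a : Q2 R) - 1) := by
  let m : R →+* Q2 R := Ideal.Quotient.mk (Ideal.span {(2 : R)})
  have hm : ∀ a, m a = Ideal.Quotient.mk _ a := fun _ => rfl
  change IsNilpotent (m a) ∨ IsNilpotent (m a - 1)
  have hm2 : ∀ a, (2 : R) ∣ a → m a = 0 := by
    rintro _ ⟨b, rfl⟩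
    rw [map_mul, hm 2, mk_two, zero_mul]
  have ha : a ∈ Algebra.adjoin ℤ_[2] (Set.range t) := by rw [hgen]; exact Algebra.mem_top
  induction ha using Algebra.adjoin_induction with
  | mem x hx =>
    obtain ⟨g, rfl⟩ := hx
    obtain ⟨c, n, hn⟩ := hnil g
    have h2 : (m (t g) - m (algebraMap ℤ_[2] R c)) ^ n = 0 := by
      rw [← map_sub, ← map_pow]
      exact hm2 _ hn
    rcases mk_algebraMap (R := R) c with h | h
    · left
      rw [hm (algebraMap _ _ _), h, sub_zero] at h2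
      exact ⟨n, h2⟩
    · right
      rw [hm (algebraMap _ _ _), h] at h2
      exact ⟨n, h2⟩
  | algebraMap r =>
    rcases mk_algebraMap (R := R) r with h | h
    · left; rw [hm, h]; exact IsNilpotent.zero
    · right; rw [hm, h, sub_self]; exact IsNilpotent.zero
  | add x y _ _ hx hy =>
    have h2 : (2 : Q2 R) = 0 := two_q2
    rcases hx with hx | hx <;> rcases hy with hy | hy
    · left; rw [map_add]; exact (Commute.all _ _).isNilpotent_add hx hy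
    · right; rw [map_add, add_sub_assoc]; exact (Commute.all _ _).isNilpotent_add hx hy
    · right; rw [map_add, show m x + m y - 1 = (m x - 1) + m y by ring]
      exact (Commute.all _ _).isNilpotent_add hx hy
    · left; rw [map_add, show m x + m y = (m x - 1) + (m y - 1) by linear_combination h2]
      exact (Commute.all _ _).isNilpotent_add hx hy
  | mul x y _ _ hx hy =>
    rcases hx with hx | hx
    · left; rw [map_mul]; exact (Commute.all _ _).isNilpotent_mul_right hx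
    · rcases hy with hy | hy
      · left; rw [map_mul]; exact (Commute.all _ _).isNilpotent_mul_left hy
      · right
        rw [map_mul, show m x * m y - 1 = (m x - 1) * m y + (m y - 1) by ring]
        exact (Commute.all _ _).isNilpotent_add ((Commute.all _ _).isNilpotent_mul_right hx) hy

theorem isUnit_of_pi [Module.Finite ℤ_[2] R] (π₀ : R →+* ZMod 2) (t : GQ → R)
    (hnil : ∀ g, ∃ (c : ℤ_[2]) (n : ℕ), (2 : R) ∣ (t g - algebraMap ℤ_[2] R c) ^ n)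
    (hgen : Algebra.adjoin ℤ_[2] (Set.range t) = ⊤) {a : R} (ha : π₀ a = 1) : IsUnit a := by
  have hker : ∀ a ∈ Ideal.span {(2 : R)}, π₀ a = 0 := by
    intro a ha
    obtain ⟨b, rfl⟩ := Ideal.mem_span_singleton.1 ha
    rw [map_mul, map_ofNat, show ((2 : ZMod 2)) = 0 by decide, zero_mul]
  -- unit modulo `2`
  have h1 : IsUnit (Ideal.Quotient.mk (Ideal.span {(2 : R)}) a : Q2 R) := by
    rcases nil_or t hnil hgen a with h | h
    · exfalso
      obtain ⟨n, hn⟩ := h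
      rw [← map_pow, Ideal.Quotient.eq_zero_iff_mem] at hn
      have := hker _ hn
      rw [map_pow, ha, one_pow] at this
      revert this; decide
    · have := h.isUnit_one_add
      rwa [add_sub_cancel] at this
  obtain ⟨b, hb⟩ := h1.exists_right_inv
  obtain ⟨b, rfl⟩ := Ideal.Quotient.mk_surjective b
  rw [← map_mul, ← (Ideal.Quotient.mk (Ideal.span {(2 : R)})).map_one, Ideal.Quotient.eq,
    Ideal.mem_span_singleton] at hb
  obtain ⟨d, hd⟩ := hb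
  have h2 : (⊤ : Submodule ℤ_[2] R) ≤ LinearMap.range (LinearMap.mulLeft ℤ_[2] a) := by
    refine Submodule.le_of_le_smul_of_le_jacobson_bot (I := Ideal.span {(2 : ℤ_[2])})
      (Module.finite_def.1 inferInstance) ?_ ?_
    · rw [IsLocalRing.jacobson_eq_maximalIdeal ⊥ bot_ne_top, PadicInt.maximalIdeal_eq_span_p]
      simp
    · intro x _
      have hx : x = a * (b * x) + (2 : ℤ_[2]) • (- (d * x)) := by
        rw [Algebra.smul_def, map_ofNat]
        linear_combination (-x) * hd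
      rw [hx]
      refine Submodule.add_mem_sup ⟨b * x, rfl⟩ ?_
      exact Submodule.smul_mem_smul (Ideal.mem_span_singleton_self _) trivial
  obtain ⟨c, hc⟩ := h2 (Submodule.mem_top (x := (1 : R)))
  exact IsUnit.of_mul_eq_one c hc

end Unit

section Quad

variable {Λ : Type} [AddCommGroup Λ] [Module ℤ_[2] Λ]

/-- the quadratic operator -/
noncomputable def tOp (ρ : GQ →* Module.End ℤ_[2] Λ) (χ : GQ →* ℤ_[2]) (g : GQ) : Module.End ℤ_[2] Λ :=
  ρ g + χ g • ρ g⁻¹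

theorem local_identity (ρ : GQ →* Module.End ℤ_[2] Λ) (χ : GQ →* ℤ_[2])
    (hcomm : ∀ g h, ρ h * tOp ρ χ g = tOp ρ χ g * ρ h)
    (K : Submodule ℤ_[2] Λ)
    (hK : ∀ Λ' : Submodule ℤ_[2] Λ, Λ' ≤ K → (∀ g, ∀ x ∈ Λ', ρ g x ∈ Λ') → Λ' = ⊥)
    (σ τ : GQ) (zσ zτ : Module.End ℤ_[2] Λ) (hzσ : ∀ g, zσ * ρ g = ρ g * zσ)
    (hzτ : ∀ g, zτ * ρ g = ρ g * zτ) (hzz : zσ * zτ = zτ * zσ)
    (hσ : ∀ x, ρ σ x - zσ x ∈ K) (hτ : ∀ x, ρ τ x - zτ x ∈ K) (g : GQ) :
    χ τ • tOp ρ χ (σ * g * τ⁻¹) - zτ * tOp ρ χ (σ * g) - χ τ • (zσ * tOp ρ χ (g * τ⁻¹)) +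
      zσ * zτ * tOp ρ χ g = 0 := by
  set O := χ τ • tOp ρ χ (σ * g * τ⁻¹) - zτ * tOp ρ χ (σ * g) - χ τ • (zσ * tOp ρ χ (g * τ⁻¹)) +
      zσ * zτ * tOp ρ χ g with hO
  have hχ : ∀ g, χ g * χ g⁻¹ = 1 := fun g => by rw [← map_mul, mul_inv_cancel, map_one]
  have key : O = (ρ σ - zσ) * (ρ g * (χ τ • ρ τ⁻¹ - zτ)) +
      (ρ τ - zτ) * ((χ g • ρ g⁻¹) * (χ σ • ρ σ⁻¹ - zσ)) := by
    have e1 : χ τ • tOp ρ χ (σ * g * τ⁻¹) =
        χ τ • (ρ σ * (ρ g * ρ τ⁻¹)) + (χ g * χ σ) • (ρ τ * (ρ g⁻¹ * ρ σ⁻¹)) := by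
      rw [tOp, smul_add, smul_smul]
      congr 1
      · rw [map_mul, map_mul, mul_assoc]
      · rw [_root_.mul_inv_rev, _root_.mul_inv_rev, inv_inv, map_mul ρ, map_mul ρ, map_mul χ, map_mul χ]
        congr 1
        linear_combination (χ σ * χ g) * hχ τ
    have e2 : zτ * tOp ρ χ (σ * g) =
        zτ * (ρ σ * ρ g) + (χ g * χ σ) • (zτ * (ρ g⁻¹ * ρ σ⁻¹)) := by
      rw [tOp, mul_add, mul_smul_comm, map_mul ρ, _root_.mul_inv_rev, map_mul ρ, map_mul χ,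
        mul_comm (χ σ)]
    have e3 : χ τ • (zσ * tOp ρ χ (g * τ⁻¹)) =
        χ τ • (zσ * (ρ g * ρ τ⁻¹)) + χ g • (zσ * (ρ τ * ρ g⁻¹)) := by
      rw [tOp, mul_add, mul_smul_comm, map_mul ρ, _root_.mul_inv_rev, inv_inv, map_mul ρ, map_mul χ,
        smul_add, smul_smul]
      congr 2
      linear_combination (χ g) * hχ τ
    have e4 : zσ * zτ * tOp ρ χ g = zσ * (zτ * ρ g) + χ g • (zσ * (zτ * ρ g⁻¹)) := by
      rw [tOp, mul_add, mul_smul_comm, mul_assoc, mul_assoc]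
    rw [hO, e1, e2, e3, e4]
    have f1 : (ρ σ - zσ) * (ρ g * (χ τ • ρ τ⁻¹ - zτ)) =
        χ τ • (ρ σ * (ρ g * ρ τ⁻¹)) - zτ * (ρ σ * ρ g) - χ τ • (zσ * (ρ g * ρ τ⁻¹)) +
          zσ * (zτ * ρ g) := by
      have h1 : ρ σ * (ρ g * zτ) = zτ * (ρ σ * ρ g) := by
        rw [← hzτ, ← mul_assoc, ← hzτ, mul_assoc]
      rw [sub_mul, mul_sub, mul_sub, mul_sub, h1, mul_smul_comm, mul_smul_comm, mul_smul_comm, ← hzτ]
      abel
    have f2 : (ρ τ - zτ) * ((χ g • ρ g⁻¹) * (χ σ • ρ σ⁻¹ - zσ)) =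
        (χ g * χ σ) • (ρ τ * (ρ g⁻¹ * ρ σ⁻¹)) - (χ g * χ σ) • (zτ * (ρ g⁻¹ * ρ σ⁻¹)) -
          χ g • (zσ * (ρ τ * ρ g⁻¹)) + χ g • (zσ * (zτ * ρ g⁻¹)) := by
      have h1 : ρ τ * (ρ g⁻¹ * zσ) = zσ * (ρ τ * ρ g⁻¹) := by
        rw [← hzσ, ← mul_assoc, ← hzσ, mul_assoc]
      have h2 : zτ * (ρ g⁻¹ * zσ) = zσ * (zτ * ρ g⁻¹) := by
        rw [← hzσ, ← mul_assoc, ← hzz, mul_assoc]
      have h3 : (χ g • ρ g⁻¹) * (χ σ • ρ σ⁻¹ - zσ) =
          (χ g * χ σ) • (ρ g⁻¹ * ρ σ⁻¹) - χ g • (ρ g⁻¹ * zσ) := by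
        rw [mul_sub, smul_mul_smul_comm, smul_mul_assoc]
      rw [h3, sub_mul, mul_sub, mul_sub, mul_smul_comm, mul_smul_comm, mul_smul_comm, mul_smul_comm,
        h1, h2]
      abel
    rw [f1, f2]
    abel
  have hstab : ∀ h, ρ h * O = O * ρ h := by
    intro h
    rw [hO]
    have h1 : ∀ z : Module.End ℤ_[2] Λ, (∀ g, z * ρ g = ρ g * z) → ∀ a,
        ρ h * (z * tOp ρ χ a) = z * tOp ρ χ a * ρ h := by
      intro z hz a
      rw [← mul_assoc, ← hz, mul_assoc, hcomm, mul_assoc]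
    have h2 : ∀ g, zσ * zτ * ρ g = ρ g * (zσ * zτ) := by
      intro g
      rw [mul_assoc, hzτ, ← mul_assoc, hzσ, mul_assoc]
    rw [mul_add, mul_sub, mul_sub, add_mul, sub_mul, sub_mul, mul_smul_comm, mul_smul_comm,
      smul_mul_assoc, smul_mul_assoc, hcomm, h1 zτ hzτ, h1 zσ hzσ, h1 _ h2]
  have hbot := hK (LinearMap.range O) (by
    rintro _ ⟨x, rfl⟩
    rw [key, LinearMap.add_apply]
    exact K.add_mem (hσ _) (hτ _)) (by
    rintro h _ ⟨x, rfl⟩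
    refine ⟨ρ h x, ?_⟩
    exact (LinearMap.congr_fun (hstab h) x).symm)
  exact LinearMap.range_eq_bot.1 hbot

end Quad

end Fermat.Agent.ZThm
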