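import Fermat.Agent.ZThm.Mod2
import Fermat.Agent.ZThm.DetTrick
import Mathlib.RingTheory.Filtration

/-!
# Theorem Z, Step 4: comparison of a lattice and an elliptic curve
-/

set_option autoImplicit false

namespace Fermat.Agent.ZThm

open Matrix

theorem artin_rees {R M : Type*} [CommRing R] [IsNoetherianRing R] [AddCommGroup M] [Module R M]
    [Module.Finite R M] (a : R) (N : Submodule R M) : ∃ K : ℕ, ∀ y : M, a ^ K • y ∈ N → ∃ z ∈ N,
      a ^ K • y = a • z := by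
  obtain ⟨k, hk⟩ := Ideal.exists_pow_inf_eq_pow_smul (Ideal.span {a}) N
  refine ⟨k + 1, fun y hy => ?_⟩
  have h1 : a ^ (k + 1) • y ∈ (Ideal.span {a}) ^ (k + 1) • (⊤ : Submodule R M) ⊓ N := by
    refine ⟨?_, hy⟩
    rw [Ideal.span_singleton_pow]
    exact Submodule.smul_mem_smul (Ideal.mem_span_singleton_self _) trivial
  rw [hk (k + 1) (by omega), show k + 1 - k = 1 by omega, pow_one,
    Submodule.ideal_span_singleton_smul, Submodule.mem_smul_pointwise_iff_exists] at h1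
  obtain ⟨z, hz, hz'⟩ := h1
  exact ⟨z, hz.2, hz'.symm⟩

local notation "Qb" => AlgebraicClosure ℚ
local notation "GQ" => AlgebraicClosure ℚ ≃ₐ[ℚ] AlgebraicClosure ℚ

theorem ringHom_z2 (f g : ℤ_[2] →+* ZMod 2) (c : ℤ_[2]) : f c = g c := by
  have h2 : (2 : ZMod 2) = 0 := by decide
  obtain ⟨c', rfl | rfl⟩ := exists_two_mul c
  · rw [map_mul, map_mul, map_ofNat, map_ofNat, h2, zero_mul, zero_mul]
  · rw [map_add, map_mul, map_add, map_mul, map_ofNat, map_ofNat, map_one, map_one, h2, zero_mul,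
      zero_mul]

/-- `ℤ/2^k` as an algebra over the `2`-adic integers -/
@[reducible] noncomputable def algZ (k : ℕ) : Algebra ℤ_[2] (ZMod (2 ^ k)) :=
  (PadicInt.toZModPow (p := 2) k).toAlgebra

attribute [local instance] algZ

theorem algZ_apply (k : ℕ) (c : ℤ_[2]) :
    algebraMap ℤ_[2] (ZMod (2 ^ k)) c = PadicInt.toZModPow k c := rfl

theorem finite_algZ (k : ℕ) : Module.Finite ℤ_[2] (ZMod (2 ^ k)) :=
  Module.Finite.of_surjective (Algebra.linearMap ℤ_[2] (ZMod (2 ^ k)))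
    (ZMod.ringHom_surjective (PadicInt.toZModPow (p := 2) k))

section AR

variable {T Λ : Type} [CommRing T] [Algebra ℤ_[2] T] [AddCommGroup Λ] [Module T Λ]
  [Module ℤ_[2] Λ] [IsScalarTower ℤ_[2] T Λ] [Module.Finite ℤ_[2] Λ] [Module.Free ℤ_[2] Λ]

theorem exists_root (f : Module.End ℤ_[2] Λ) (c : ℤ_[2]) (h : ∀ x, ∃ y, f x = c • y) :
    ∃ φ : Module.End ℤ_[2] Λ, c • φ = f := by
  classical
  let β := Module.Free.chooseBasis ℤ_[2] Λ
  choose y hy using fun i => h (β i)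
  refine ⟨β.constr ℤ_[2] y, β.ext fun i => ?_⟩
  rw [LinearMap.smul_apply, Module.Basis.constr_basis, hy]

theorem exists_AR [FaithfulSMul T Λ] (k : ℕ) (S : Subalgebra ℤ_[2] (T × ZMod (2 ^ k))) :
    ∃ K : ℕ, ∀ a : S, (∀ x : Λ, ∃ y, a.1.1 • x = (2 : ℤ_[2]) ^ K • y) → a.1.2 = 0 →
      (2 : S) ∣ a := by
  have hfin := finite_algZ k
  let j : S →ₗ[ℤ_[2]] (Module.End ℤ_[2] Λ × ZMod (2 ^ k)) :=
    (((Algebra.lsmul ℤ_[2] ℤ_[2] Λ).toLinearMap ∘ₗ LinearMap.fst ℤ_[2] T (ZMod (2 ^ k))).prod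
      (LinearMap.snd ℤ_[2] T (ZMod (2 ^ k)))) ∘ₗ S.val.toLinearMap
  have hj1 : ∀ a x, (j a).1 x = a.1.1 • x := fun a x => rfl
  have hj2 : ∀ a, (j a).2 = a.1.2 := fun a => rfl
  have hinj : Function.Injective j := by
    intro a b hab
    apply Subtype.ext
    refine Prod.ext ?_ ?_
    · apply FaithfulSMul.eq_of_smul_eq_smul (α := Λ)
      intro x
      rw [← hj1, ← hj1, hab]
    · rw [← hj2, ← hj2, hab]
  obtain ⟨K, hK⟩ := artin_rees (2 : ℤ_[2]) (LinearMap.range j)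
  refine ⟨K, fun a h1 h2 => ?_⟩
  obtain ⟨φ, hφ⟩ := exists_root (j a).1 ((2 : ℤ_[2]) ^ K) (fun x => by rw [hj1]; exact h1 x)
  have h3 : (2 : ℤ_[2]) ^ K • ((φ, 0) : Module.End ℤ_[2] Λ × ZMod (2 ^ k)) = j a := by
    refine Prod.ext ?_ ?_
    · exact hφ
    · rw [hj2, h2, Prod.smul_snd, smul_zero]
  obtain ⟨z, ⟨a', rfl⟩, hz⟩ := hK (φ, 0) (by rw [h3]; exact ⟨a, rfl⟩)
  rw [h3, ← map_smul] at hz
  have h4 := hinj hz
  refine ⟨a', ?_⟩
  rw [h4, Algebra.smul_def, map_ofNat]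

end AR

end Fermat.Agent.ZThm
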