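import Fermat.Agent.ZThm.Pseudo
import Fermat.Agent.ZThm.Count

/-!
# Theorem Z, Step 4: pseudo-characters in characteristic `2` satisfying the local conditions
-/

set_option autoImplicit false

namespace Fermat.Agent.ZThm

open Matrix

local notation "Qb" => AlgebraicClosure ℚ
local notation "GQ" => AlgebraicClosure ℚ ≃ₐ[ℚ] AlgebraicClosure ℚ

section MatrixLemma

variable {A : Type*} [CommRing A] {π : A →+* ZMod 2}

theorem isUnit_of_map (hnil : ∀ a, π a = 0 → IsNilpotent a) {x : A} (hx : π x ≠ 0) : IsUnit x := by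
  have h0 : π x = 1 := by
    revert hx; generalize π x = y; revert y; decide
  have h1 : IsNilpotent (x - 1) := hnil _ (by rw [map_sub, h0, map_one, sub_self])
  have := h1.isUnit_one_add
  rwa [add_sub_cancel] at this

/-- A matrix annihilated on both sides by a nonzero square zero matrix is a multiple of it. -/
theorem exists_smul_of_ann (hnil : ∀ a, π a = 0 → IsNilpotent a) {N X : M2 A} (hN : N * N = 0)
    (hN0 : N.map π ≠ 0) (h1 : N * X = 0) (h2 : X * N = 0) : ∃ f : A, X = f • N := by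
  have e : ∀ i j, (N * N) i j = 0 := fun i j => by rw [hN]; rfl
  have e1 : ∀ i j, (N * X) i j = 0 := fun i j => by rw [h1]; rfl
  have e2 : ∀ i j, (X * N) i j = 0 := fun i j => by rw [h2]; rfl
  simp only [Matrix.mul_apply, Fin.sum_univ_two] at e e1 e2
  have hb : π (N 0 1) ≠ 0 ∨ π (N 1 0) ≠ 0 := by
    by_contra hcon
    push Not at hcon
    obtain ⟨hb, hc⟩ := hcon
    have ha : π (N 0 0) = 0 := by
      have := congrArg π (e 0 0)
      rw [map_add, map_mul, map_mul, hb, zero_mul, add_zero, map_zero] at this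
      exact mul_self_eq_zero.1 this
    have hd : π (N 1 1) = 0 := by
      have := congrArg π (e 1 1)
      rw [map_add, map_mul, map_mul, hb, mul_zero, zero_add, map_zero] at this
      exact mul_self_eq_zero.1 this
    apply hN0
    ext i j
    fin_cases i <;> fin_cases j <;> simpa
  rcases hb with hb | hc
  · obtain ⟨b', hb'⟩ := (isUnit_of_map hnil hb).exists_left_inv
    have htr : N 1 1 = - N 0 0 := by
      have h3 := e 0 1
      linear_combination (b') * h3 - (N 0 0 + N 1 1) * hb'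
    refine ⟨X 0 1 * b', ?_⟩
    have e10 := e1 0 0
    have e11 := e1 0 1
    have e20 := e2 0 1
    have e00 := e 0 0
    ext i j
    fin_cases i <;> fin_cases j <;> simp only [Fin.zero_eta, Fin.mk_one, Matrix.smul_apply, smul_eq_mul]
    · rw [htr] at e20
      linear_combination b' * e20 - X 0 0 * hb'
    · linear_combination (- X 0 1) * hb'
    · rw [htr] at e20
      linear_combination (b') * e10 - (X 1 0 : A) * hb' - (N 0 0 * b' * b') * e20 +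
        (N 0 0 * b' * X 0 0) * hb' - (X 0 1 * b' * b') * e00 + (X 0 1 * b' * N 1 0) * hb'
    · rw [htr]
      linear_combination b' * e11 - X 1 1 * hb'
  · obtain ⟨c', hc'⟩ := (isUnit_of_map hnil hc).exists_left_inv
    have htr : N 0 0 = - N 1 1 := by
      have h3 := e 1 0
      linear_combination (c') * h3 - (N 0 0 + N 1 1) * hc'
    refine ⟨X 1 0 * c', ?_⟩
    have e10 := e1 1 0
    have e11 := e1 1 1
    have e20 := e2 1 0
    have e00 := e 1 1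
    ext i j
    fin_cases i <;> fin_cases j <;> simp only [Fin.zero_eta, Fin.mk_one, Matrix.smul_apply, smul_eq_mul]
    · rw [htr]
      linear_combination c' * e10 - X 0 0 * hc'
    · rw [htr] at e20
      linear_combination (c') * e11 - (X 0 1 : A) * hc' - (N 1 1 * c' * c') * e20 +
        (N 1 1 * c' * X 1 1) * hc' - (X 1 0 * c' * c') * e00 + (X 1 0 * c' * N 0 1) * hc'
    · linear_combination (- X 1 0) * hc'
    · rw [htr] at e20
      linear_combination c' * e20 - X 1 1 * hc'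

end MatrixLemma

/-- the pairs `(s, 1)` for `s` in inertia, and `(Φ, ζ)`. -/
def pairs {A : Type*} [One A] (I : Subgroup GQ) (Φ : GQ) (ζ : A) : Set (GQ × A) :=
  {p | (p.1 ∈ I ∧ p.2 = 1) ∨ p = (Φ, ζ)}

/-- The local condition in terms of traces. -/
def PLoc {A : Type*} [CommRing A] (rb : GQ →* M2 (ZMod 2)) (t : GQ → A) (D I : Subgroup GQ) : Prop :=
  ∃ Φ ∈ D, ∃ ζ : A, ζ * ζ = 1 ∧
    (∃ s₀ ∈ D, rb s₀ ≠ 1 ∧ (s₀ ∈ I ∨ (s₀ = Φ ∧ ζ = 1))) ∧
    (∀ τ ∈ D, ∀ L : IntermediateField ℚ Qb, FiniteDimensional ℚ L →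
      ∃ n : ℕ, ∃ s ∈ I, ∀ x ∈ L, τ x = (Φ ^ n * s) x) ∧
    ∀ p ∈ pairs I Φ ζ, ∀ q ∈ pairs I Φ ζ, ∀ g,
      t (p.1 * g * q.1⁻¹) - q.2 * t (p.1 * g) - p.2 * t (g * q.1⁻¹) + p.2 * q.2 * t g = 0

section

variable {A : Type*} [CommRing A] [Algebra (ZMod 2) A] {π : A →+* ZMod 2}
  {rb : GQ →* M2 (ZMod 2)}

theorem locForm_of_ploc {ρ : GQ →* M2 A} (hnil : ∀ a, π a = 0 → IsNilpotent a)
    (hmap : ∀ g, (ρ g).map π = rb g) (hdet : ∀ g, (ρ g).det = 1)
    (hnd : ∀ X : M2 A, (∀ g, (X * ρ g).trace = 0) → X = 0)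
    (hsm : ∃ L : IntermediateField ℚ Qb, FiniteDimensional ℚ L ∧
      ∀ σ : GQ, (∀ x ∈ L, σ x = x) → ρ σ = 1) {D I : Subgroup GQ}
    (h : PLoc rb (fun g => (ρ g).trace) D I) : LocForm π ρ D I := by
  classical
  obtain ⟨Φ, hΦ, ζ, hζ, ⟨s₀, hs₀, hs₀1, hs₀I⟩, hD, hpairs⟩ := h
  have hinv : ∀ g, ρ g * ρ g⁻¹ = 1 := fun g => by rw [← map_mul, mul_inv_cancel, map_one]
  have hsq : ∀ p ∈ pairs I Φ ζ, p.2 * p.2 = 1 := by
    rintro p (⟨-, hp⟩ | rfl)
    · rw [hp, one_mul]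
    · exact hζ
  have hch : ∀ g, ρ g + ρ g⁻¹ = Matrix.scalar (Fin 2) (ρ g).trace := by
    intro g
    have hadj : ρ g⁻¹ = (ρ g).adjugate := by
      have h1 : ρ g * (ρ g).adjugate = 1 := by rw [Matrix.mul_adjugate, hdet, one_smul]
      calc ρ g⁻¹ = ρ g⁻¹ * (ρ g * (ρ g).adjugate) := by rw [h1, mul_one]
        _ = (ρ g).adjugate := by rw [← mul_assoc, ← map_mul, inv_mul_cancel, map_one, one_mul]
    rw [hadj]
    ext i j
    fin_cases i <;> fin_cases j <;>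
      simp [Matrix.adjugate_fin_two, Matrix.trace_fin_two, add_comm]
  have hsc : ∀ a : A, Matrix.scalar (Fin 2) a = a • (1 : M2 A) := fun a => by
    rw [Matrix.scalar_apply, Matrix.smul_one_eq_diagonal]
  have key : ∀ p ∈ pairs I Φ ζ, ∀ q ∈ pairs I Φ ζ,
      (ρ q.1 - q.2 • (1 : M2 A)) * (ρ p.1 - p.2 • (1 : M2 A)) = 0 := by
    intro p hp q hq
    have h1 : (ρ q.1⁻¹ - q.2 • (1 : M2 A)) * (ρ p.1 - p.2 • (1 : M2 A)) = 0 := by
      apply hnd
      intro g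
      have h2 := hpairs p hp q hq g
      simp only at h2
      have h3 : (ρ q.1⁻¹ - q.2 • (1 : M2 A)) * (ρ p.1 - p.2 • (1 : M2 A)) * ρ g =
          ρ q.1⁻¹ * (ρ p.1 * ρ g) - q.2 • (ρ p.1 * ρ g) - p.2 • (ρ q.1⁻¹ * ρ g) +
            (p.2 * q.2) • ρ g := by
        simp only [sub_mul, mul_sub, smul_mul_assoc, mul_smul_comm, one_mul, mul_one, smul_sub,
          smul_smul, mul_assoc]
        abel
      rw [h3, Matrix.trace_add, Matrix.trace_sub, Matrix.trace_sub, Matrix.trace_smul,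
        Matrix.trace_smul, Matrix.trace_smul, Matrix.trace_mul_comm (ρ q.1⁻¹),
        Matrix.trace_mul_comm (ρ q.1⁻¹), ← map_mul, ← map_mul, ← map_mul]
      exact h2
    have h4 : ρ q.1 - q.2 • (1 : M2 A) =
        (-q.2) • (ρ q.1 * (ρ q.1⁻¹ - q.2 • (1 : M2 A))) := by
      rw [mul_sub, hinv, mul_smul_comm, mul_one, smul_sub, smul_smul, neg_mul, hsq q hq]
      simp only [neg_smul, one_smul]
      abel
    rw [h4, smul_mul_assoc, mul_assoc, h1, mul_zero, smul_zero]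
  obtain ⟨ζ₀, hζ₀, hζ₀1⟩ : ∃ ζ₀ : A, (s₀, ζ₀) ∈ pairs I Φ ζ ∧ ζ₀ = 1 := by
    rcases hs₀I with h | ⟨h, h'⟩
    · exact ⟨1, Or.inl ⟨h, rfl⟩, rfl⟩
    · exact ⟨ζ, Or.inr (by rw [h]), h'⟩
  rw [hζ₀1] at hζ₀
  set N : M2 A := ρ s₀ - 1 with hN
  have hNN : N * N = 0 := by
    have := key _ hζ₀ _ hζ₀
    simpa [hN] using this
  have hN0 : N.map π ≠ 0 := by
    intro h
    apply hs₀1
    rw [← hmap, show ρ s₀ = N + 1 by rw [hN]; abel, Matrix.map_add π (map_add π), h, zero_add]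
    exact Matrix.map_one π (map_zero π) (map_one π)
  have hX : ∀ p ∈ pairs I Φ ζ, ∃ f : A, ρ p.1 = p.2 • (1 : M2 A) + f • N := by
    intro p hp
    have h1 := key _ hζ₀ p hp
    have h2 := key p hp _ hζ₀
    simp only [one_smul] at h1 h2
    obtain ⟨f, hf⟩ := exists_smul_of_ann hnil hNN hN0 h2 h1
    exact ⟨f, by rw [← hf]; abel⟩
  obtain ⟨fΦ, hfΦ⟩ := hX (Φ, ζ) (Or.inr rfl)
  simp only at hfΦ
  have hpow : ∀ n : ℕ, ∃ f : A, ρ Φ ^ n = (ζ ^ n) • (1 : M2 A) + f • N := by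
    intro n
    induction n with
    | zero => exact ⟨0, by simp⟩
    | succ n ih =>
      obtain ⟨f, hf⟩ := ih
      refine ⟨ζ ^ n * fΦ + f * ζ, ?_⟩
      rw [pow_succ, hf, hfΦ]
      simp only [add_mul, mul_add, smul_mul_assoc, mul_smul_comm, one_mul, mul_one, hNN, smul_zero,
        add_zero, smul_smul, add_smul, smul_add, pow_succ]
      rw [mul_comm ζ f, mul_comm fΦ, mul_comm ζ (ζ ^ n)]
      abel
  obtain ⟨L, hL, hL1⟩ := hsm
  have hform : ∀ τ : GQ, ∃ zf : A × A, τ ∈ D →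
      (zf.1 * zf.1 = 1 ∧ ρ τ = Matrix.scalar (Fin 2) zf.1 + zf.2 • N) ∧ (τ ∈ I → zf.1 = 1) := by
    intro τ
    by_cases hτI : τ ∈ I
    · obtain ⟨f, hf⟩ := hX (τ, 1) (Or.inl ⟨hτI, rfl⟩)
      exact ⟨(1, f), fun _ => ⟨⟨one_mul 1, by rw [hsc]; exact hf⟩, fun _ => rfl⟩⟩
    by_cases hτ : τ ∈ D
    · obtain ⟨n, s, hs, hns⟩ := hD τ hτ L hL
      obtain ⟨f, hf⟩ := hpow n
      obtain ⟨f', hf'⟩ := hX (s, 1) (Or.inl ⟨hs, rfl⟩)
      simp only [one_smul] at hf'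
      have h1 : ρ τ = ρ (Φ ^ n * s) := by
        have h2 : ρ ((Φ ^ n * s)⁻¹ * τ) = 1 := by
          apply hL1
          intro x hx
          have h3 : ((Φ ^ n * s)⁻¹ * τ) x = (Φ ^ n * s)⁻¹ (τ x) := rfl
          rw [h3, hns x hx]
          exact (Φ ^ n * s).symm_apply_apply x
        calc ρ τ = ρ (Φ ^ n * s) * ρ ((Φ ^ n * s)⁻¹ * τ) := by
              rw [← map_mul, mul_inv_cancel_left]
          _ = _ := by rw [h2, mul_one]
      refine ⟨(ζ ^ n, ζ ^ n * f' + f), fun _ => ⟨⟨?_, ?_⟩, fun h => absurd h hτI⟩⟩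
      · simp only
        rw [← mul_pow, hζ, one_pow]
      · simp only
        rw [h1, map_mul, map_pow, hf, hf', hsc]
        simp only [add_mul, mul_add, smul_mul_assoc, mul_smul_comm, one_mul, mul_one, hNN, smul_zero,
          add_zero, smul_smul, add_smul]
        rw [mul_comm f' (ζ ^ n)]
        abel
    · exact ⟨(1, 0), fun h => absurd h hτ⟩
  choose zf hzf using hform
  exact ⟨N, fun τ => (zf τ).1, fun τ => (zf τ).2, hNN, hN0, fun s hs => (hzf s hs).1,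
    fun s hs hsI => (hzf s hs).2 hsI⟩

end

theorem finiteIndex_of_fixing (L : IntermediateField ℚ Qb) [FiniteDimensional ℚ L] :
    ∃ K : Subgroup GQ, K.FiniteIndex ∧ ∀ σ ∈ K, ∀ x ∈ L, σ x = x := by
  have h1 : Algebra.IsAlgebraic ℚ (AlgebraicClosure ℚ) := AlgebraicClosure.isAlgebraic ℚ
  have h2 : IsAlgClosure ℚ (AlgebraicClosure ℚ) := ⟨inferInstance, inferInstance⟩
  have h3 : Normal ℚ (AlgebraicClosure ℚ) := IsAlgClosure.normal ℚ (AlgebraicClosure ℚ)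
  have h4 : IsGalois ℚ (AlgebraicClosure ℚ) := ⟨⟩
  refine ⟨L.fixingSubgroup, ⟨?_⟩, ?_⟩
  · rw [← IntermediateField.finrank_eq_fixingSubgroup_index]
    exact Module.finrank_pos.ne'
  · intro σ hσ x hx
    exact (IntermediateField.mem_fixingSubgroup_iff L σ).1 hσ x hx

universe u

/-- **Step 2 of Theorem Z for pseudo-characters.** -/
theorem pseudo_step2 {A : Type u} [CommRing A] [Algebra (ZMod 2) A] [Finite A]
    {π : A →+* ZMod 2} {rb : GQ →* M2 (ZMod 2)} {N : ℕ} {Q : Finset ℕ}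
    (hsel : SelZero rb N Q) (t : GQ → A) (hnil : ∀ a, π a = 0 → IsNilpotent a)
    (htr : ∀ g, π (t g) = (rb g).trace) (h1 : ∀ g h, t (g * h) + t (g⁻¹ * h) = t g * t h)
    (hcomm : ∀ g h, t (g * h) = t (h * g))
    (hsm : ∃ L : IntermediateField ℚ Qb, FiniteDimensional ℚ L ∧
      ∀ σ : GQ, (∀ x ∈ L, σ x = x) → ∀ g, t (g * σ) = t g)
    (hgen : Subring.closure (Set.range t) = ⊤)
    (g₁ g₂ : GQ) (hg₁ : rb g₁ = !![1, 1; 0, 1]) (hg₂ : rb g₂ = !![1, 0; 1, 1])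
    (hunram : ∀ ℓ : ℕ, ℓ.Prime → ¬ ℓ ∣ N → ℓ ∉ Q → ∀ B : ValuationSubring Qb, B.LiesOverPrime ℓ →
      ∀ s ∈ B.inertiaSubgroupIn ℚ, ∀ g, t (g * s) = t g)
    (hloc : ∀ v : ℕ, v.Prime → (v ∣ N ∨ v ∈ Q) → ∀ B : ValuationSubring Qb, B.LiesOverPrime v →
      PLoc rb t (B.decompositionSubgroup ℚ) (B.inertiaSubgroupIn ℚ)) :
    ∃ (hdet : ∀ g, (rb g).det = 1) (V : Subgroup GQ), V ≤ evenSub rb hdet ∧
      (∃ L : IntermediateField ℚ Qb, FiniteDimensional ℚ L ∧ ∀ σ : GQ, (∀ x ∈ L, σ x = x) → σ ∈ V) ∧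
      (∀ a ∈ evenSub rb hdet, ∀ b ∈ V, a * b * a⁻¹ ∈ V) ∧
      (∀ a ∈ evenSub rb hdet, ∀ b ∈ evenSub rb hdet, a * b * a⁻¹ * b⁻¹ ∈ V) ∧
      (∃ k : ℕ, ∀ a ∈ evenSub rb hdet, a ^ (2 ^ k) ∈ V) ∧
      (∀ ℓ : ℕ, ℓ.Prime → ∀ B : ValuationSubring Qb, B.LiesOverPrime ℓ →
        ∀ g ∈ B.inertiaSubgroupIn ℚ, g ∈ evenSub rb hdet → g ∈ V) ∧
      Nat.card A ≤ 2 ^ V.relIndex (evenSub rb hdet) := by
  obtain ⟨L, hL, hLt⟩ := hsm
  obtain ⟨K, hKfin, hK⟩ := finiteIndex_of_fixing L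
  obtain ⟨ρ, hmap, htrace, hdet, hone, hnd⟩ := exists_rep (1 : GQ →* A) t π hnil rb htr g₁ g₂ hg₁ hg₂
    (fun g h => by rw [MonoidHom.one_apply, one_mul]; exact h1 g h) hcomm K
    (fun g k hk => hLt k (hK k hk) g)
  have hdet' : ∀ g, (ρ g).det = 1 := fun g => by rw [hdet, MonoidHom.one_apply]
  have ht : (fun g => (ρ g).trace) = t := funext htrace
  have hsm' : ∃ L : IntermediateField ℚ Qb, FiniteDimensional ℚ L ∧
      ∀ σ : GQ, (∀ x ∈ L, σ x = x) → ρ σ = 1 :=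
    ⟨L, hL, fun σ hσ => hone σ fun g => hLt σ hσ g⟩
  have hyp : Hyp π rb N Q ρ :=
    { nil := hnil
      map := hmap
      det := hdet'
      smooth := hsm'
      unram := fun ℓ hℓ hℓN hℓQ B hB s hs => hone s fun g => hunram ℓ hℓ hℓN hℓQ B hB s hs g
      loc := fun v hv hvN B hB => by
        apply locForm_of_ploc hnil hmap hdet' hnd hsm'
        rw [ht]
        exact hloc v hv hvN B hB }
  have hS : ∃ c, rb c = S0 := ⟨g₁ * g₂, by
    rw [map_mul, hg₁, hg₂]; decide +kernel⟩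
  obtain ⟨V, hV⟩ := step2 hsel hyp hS (by rw [ht]; exact hgen)
  exact ⟨det_rb hyp, V, hV⟩

end Fermat.Agent.ZThm
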