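import Mathlib.Algebra.Module.ZMod
import Fermat.Agent.ZThm.CH

/-!
# Theorem Z, Step 5: algebra
-/

set_option autoImplicit false

namespace Fermat.Agent.ZThm

open Matrix

variable {G : Type*} [Group G] {P : Type*} [AddCommGroup P] [DistribMulAction G P] [Finite P]

theorem eq_zero_of_trace_span {A : Type*} [CommRing A] {G : Type*} (r : G → Matrix (Fin 2) (Fin 2) A)
    (hr : ∀ X : Matrix (Fin 2) (Fin 2) A, X ∈ Submodule.span A (Set.range r))
    (Y : Matrix (Fin 2) (Fin 2) A) (hY : ∀ g, (r g * Y).trace = 0) : Y = 0 := by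
  have h1 : ∀ X : Matrix (Fin 2) (Fin 2) A, (X * Y).trace = 0 := by
    intro X
    induction hr X using Submodule.span_induction with
    | mem x hx => obtain ⟨g, rfl⟩ := hx; exact hY g
    | zero => simp
    | add x y _ _ hx hy => rw [add_mul, Matrix.trace_add, hx, hy, add_zero]
    | smul a x _ hx => rw [smul_mul_assoc, Matrix.trace_smul, hx, smul_zero]
  ext i j
  have h2 := h1 (Matrix.single j i 1)
  rw [Matrix.trace_single_mul, one_smul] at h2
  simpa using h2

theorem step5_core (b : ℕ) (hb : 2 ≤ b) (hP : ∀ x : P, 2 ^ b • x = 0) (x₀ : P)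
    (hx₀ : 2 ^ (b - 1) • x₀ ≠ 0) (χ : G →* ZMod (2 ^ b)) (t : G → ZMod (2 ^ b))
    (ht : ∀ (g : G) (x : P), g • x + (χ g).val • g⁻¹ • x = (t g).val • x)
    (rb : G →* Matrix (Fin 2) (Fin 2) (ZMod 2))
    (htr : ∀ g, ZMod.castHom (dvd_pow_self 2 (show b ≠ 0 by omega)) (ZMod 2) (t g) = (rb g).trace)
    (g₁ g₂ : G) (hg₁ : rb g₁ = !![1, 1; 0, 1]) (hg₂ : rb g₂ = !![1, 0; 1, 1]) :
    (∀ s : G, (∀ g, t (g * s) = t g) → ∀ x : P, s • x = x) ∧
    ∀ Φ : G, t Φ = 2 → χ Φ = 1 → rb Φ ≠ 1 → ∃ y : P, 2 ^ (b - 2) • (Φ • Φ • y - y) ≠ 0 := by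
  have hb0 : b ≠ 0 := by omega
  have hne : NeZero (2 ^ b) := ⟨by positivity⟩
  obtain ⟨hmod⟩ : Nonempty (Module (ZMod (2 ^ b)) P) := ⟨AddCommGroup.zmodModule hP⟩
  have hval : ∀ (a : ZMod (2 ^ b)) (x : P), a • x = a.val • x := by
    intro a x
    conv_lhs => rw [← ZMod.natCast_zmod_val a]
    rw [Nat.cast_smul_eq_nsmul]
  let r0 : G → Module.End (ZMod (2 ^ b)) P := fun g =>
    { toFun := fun x => g • x
      map_add' := smul_add g
      map_smul' := fun a x => by
        have h1 : g • (a.val • x) = a.val • (g • x) :=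
          map_nsmul (DistribSMul.toAddMonoidHom P g) _ _
        rw [RingHom.id_apply, hval, hval, h1] }
  have hr0 : ∀ (g : G) (x : P), r0 g x = g • x := fun _ _ => rfl
  clear_value r0
  let ρ : G →* Module.End (ZMod (2 ^ b)) P :=
    { toFun := r0
      map_one' := LinearMap.ext fun x => by rw [hr0, one_smul, Module.End.one_apply]
      map_mul' := fun g h => LinearMap.ext fun x => by
        rw [Module.End.mul_apply, hr0, hr0, hr0, mul_smul] }
  have hρ : ∀ (g : G) (x : P), ρ g x = g • x := hr0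
  clear_value ρ
  have hfin : Finite (Module.End (ZMod (2 ^ b)) P) :=
    Finite.of_injective (fun f : Module.End (ZMod (2 ^ b)) P => (f : P → P)) DFunLike.coe_injective
  have hfaith : ∀ a : ZMod (2 ^ b), a • x₀ = 0 → a = 0 := by
    intro a ha
    by_contra hcon
    rw [hval] at ha
    -- `a = 2 ^ m * u` with `m < b`
    have hav : a.val ≠ 0 := by
      rwa [Ne, ZMod.val_eq_zero]
    obtain ⟨m, u, hu, hm⟩ := Nat.exists_eq_two_pow_mul_odd hav
    have hmb : m ≤ b - 1 := by
      have h1 : 2 ^ m < 2 ^ b := by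
        calc 2 ^ m ≤ 2 ^ m * u := Nat.le_mul_of_pos_right _ hu.pos
          _ = a.val := hm.symm
          _ < 2 ^ b := ZMod.val_lt a
      have := (Nat.pow_lt_pow_iff_right (show 1 < 2 by norm_num)).1 h1
      omega
    have hcop : Nat.Coprime u (2 ^ b) := (Nat.coprime_two_right.2 hu).pow_right b
    apply hx₀
    have h2 : u • (2 ^ (b - 1) • x₀) = 0 := by
      rw [smul_smul, show u * 2 ^ (b - 1) = 2 ^ (b - 1 - m) * a.val by
        rw [hm, ← mul_assoc, ← pow_add, show b - 1 - m + m = b - 1 by omega, mul_comm], mul_smul, ha,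
        smul_zero]
    have h3 : (2 ^ b) • (2 ^ (b - 1) • x₀) = 0 := hP _
    have h4 : addOrderOf (2 ^ (b - 1) • x₀) ∣ 1 := by
      have h5 := Nat.dvd_gcd (addOrderOf_dvd_of_nsmul_eq_zero h2) (addOrderOf_dvd_of_nsmul_eq_zero h3)
      rwa [hcop.gcd_eq_one] at h5
    rw [Nat.dvd_one, AddMonoid.addOrderOf_eq_one_iff] at h4
    exact h4
  have hinj : Function.Injective (algebraMap (ZMod (2 ^ b)) (Module.End (ZMod (2 ^ b)) P)) := by
    rw [injective_iff_map_eq_zero]
    intro a ha
    apply hfaith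
    have := LinearMap.congr_fun ha x₀
    simpa using this
  obtain ⟨ρA, e, f, a, c, hMU, h1, h2, h3, h4, h5⟩ := ch_structure hinj ρ χ t (fun g => by
      refine LinearMap.ext fun x => ?_
      rw [LinearMap.add_apply, LinearMap.smul_apply, hρ, hρ, hval, ht, Module.algebraMap_end_apply, hval])
    (ZMod.castHom (dvd_pow_self 2 hb0) (ZMod 2)) (by
      intro a ha
      rw [ZMod.castHom_apply, ← ZMod.natCast_zmod_val a, ZMod.cast_natCast (dvd_pow_self 2 hb0),
        ZMod.natCast_eq_zero_iff] at ha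
      obtain ⟨d, hd⟩ := ha
      refine ⟨b, ?_⟩
      rw [← ZMod.natCast_zmod_val a, hd, Nat.cast_mul, mul_pow]
      have : ((2 : ℕ) : ZMod (2 ^ b)) ^ b = 0 := by
        have := ZMod.natCast_self (2 ^ b)
        exact_mod_cast this
      rw [this, zero_mul]) rb htr g₁ g₂ hg₁ hg₂
  constructor
  · intro s hs x
    have h6 : ρA s - 1 = 0 := by
      apply eq_zero_of_trace_span ρA h5
      intro g
      rw [mul_sub, mul_one, ← map_mul, Matrix.trace_sub, h3, h3, hs, sub_self]
    rw [← hρ, ← h1, sub_eq_zero.1 h6, mu_one hMU]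
    rfl
  · intro Φ hΦt hΦχ hΦr
    set F := ρA Φ with hF
    have hFt : F.trace = 2 := by rw [hF, h3, hΦt]
    have hFd : F.det = 1 := by rw [hF, h4, hΦχ]
    have hCH : (F - 1) * (F - 1) = 0 := by
      have e1 : F 0 0 + F 1 1 = 2 := by rw [← hFt, Matrix.trace_fin_two]
      have e2 : F 0 0 * F 1 1 - F 0 1 * F 1 0 = 1 := by rw [← hFd, Matrix.det_fin_two]
      ext i j
      fin_cases i <;> fin_cases j <;>
        simp only [Matrix.mul_apply, Fin.sum_univ_two, Matrix.sub_apply, Matrix.one_apply,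
          Fin.zero_eta, Fin.mk_one, Fin.isValue, Matrix.zero_apply, if_true,
          show ((0 : Fin 2) = 1) = False by simp, show ((1 : Fin 2) = 0) = False by simp, if_false]
      · linear_combination (F 0 0) * e1 - e2
      · linear_combination (F 0 1) * e1
      · linear_combination (F 1 0) * e1
      · linear_combination (F 1 1) * e1 - e2
    -- `2 ^ (b - 1) (F - 1) ≠ 0`
    have hne2 : (2 : ZMod (2 ^ b)) ^ (b - 1) • (F - 1) ≠ 0 := by
      intro h0
      apply hΦr
      have h7 : ∀ i j, (ZMod.castHom (dvd_pow_self 2 hb0) (ZMod 2)) ((F - 1) i j) = 0 := by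
        intro i j
        have h8 : (2 : ZMod (2 ^ b)) ^ (b - 1) * (F - 1) i j = 0 := by
          have := congrFun (congrFun h0 i) j
          simpa [Matrix.smul_apply] using this
        set y := (F - 1) i j
        rw [← ZMod.natCast_zmod_val y] at h8 ⊢
        have h9 : ((2 ^ (b - 1) * y.val : ℕ) : ZMod (2 ^ b)) = 0 := by push_cast; exact h8
        rw [ZMod.natCast_eq_zero_iff] at h9
        have h10 : 2 ∣ y.val := by
          have : 2 ^ b = 2 ^ (b - 1) * 2 := by rw [← pow_succ]; congr 1; omega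
          have h9' : 2 ^ (b - 1) * 2 ∣ 2 ^ (b - 1) * y.val := by rw [← this]; exact h9
          exact (Nat.mul_dvd_mul_iff_left (by positivity)).1 h9'
        rw [map_natCast, ZMod.natCast_eq_zero_iff]
        exact h10
      rw [← h2]
      ext i j
      have h8 := h7 i j
      rw [Matrix.sub_apply, map_sub, sub_eq_zero] at h8
      rw [Matrix.map_apply, ← hF, h8, Matrix.one_apply, Matrix.one_apply]
      split_ifs
      · exact map_one _
      · exact map_zero _
    by_contra hcon
    push Not at hcon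
    apply hne2
    apply mu_injective hMU hinj
    have hmu0 : mu e f a c (0 : Matrix (Fin 2) (Fin 2) (ZMod (2 ^ b))) = 0 := by
      have := mu_add (e := e) (f := f) (a := a) (b := c) (0 : Matrix (Fin 2) (Fin 2) (ZMod (2 ^ b))) 0
      rw [add_zero] at this
      exact (left_eq_add.1 this)
    have hmusmul : ∀ (r : ZMod (2 ^ b)) (X : Matrix (Fin 2) (Fin 2) (ZMod (2 ^ b))),
        mu e f a c (r • X) = r • mu e f a c X := by
      intro r X
      simp only [mu, Matrix.smul_apply, smul_eq_mul, mul_smul, smul_add]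
    have hmusub : mu e f a c (F - 1) = ρ Φ - 1 := by
      have := mu_add (e := e) (f := f) (a := a) (b := c) (F - 1) 1
      rw [sub_add_cancel, mu_one hMU, hF, h1] at this
      rw [this, add_sub_cancel_right]
    rw [hmu0, hmusmul, hmusub]
    refine LinearMap.ext fun y => ?_
    have h11 : ρ Φ (ρ Φ y) - y = (2 : ZMod (2 ^ b)) • (ρ Φ y - y) := by
      have h12 : (ρ Φ - 1) * (ρ Φ - 1) = 0 := by
        rw [← hmusub, ← mu_mul hMU, hCH, hmu0]
      have h13 := LinearMap.congr_fun h12 y
      simp only [Module.End.mul_apply, LinearMap.sub_apply, Module.End.one_apply, map_sub,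
        LinearMap.zero_apply] at h13
      have h14 : ρ Φ (ρ Φ y) = ρ Φ y - (y - ρ Φ y) := by
        rw [← sub_eq_zero, ← h13]; abel
      rw [h14]
      module
    have h15 := hcon y
    rw [← hρ, ← hρ, h11] at h15
    have h16 : (2 : ZMod (2 ^ b)) ^ (b - 1) • (ρ Φ y - y) = 0 := by
      rw [show b - 1 = (b - 2) + 1 by omega, pow_succ, mul_smul]
      have : ((2 ^ (b - 2) : ℕ) : ZMod (2 ^ b)) • ((2 : ZMod (2 ^ b)) • (ρ Φ y - y)) = 0 := by
        rw [Nat.cast_smul_eq_nsmul]; exact h15
      push_cast at this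
      exact this
    rw [LinearMap.smul_apply, LinearMap.sub_apply, Module.End.one_apply, h16]
    rfl

end Fermat.Agent.ZThm
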