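import Fermat.Agent.ZThm.JRel
import Fermat.Agent.ZThm.Step5
import Fermat.Agent.MW.WeakJ

/-!
# Theorem Z: removing the auxiliary primes
-/

set_option autoImplicit false
set_option linter.unusedSectionVars false

namespace Fermat.Agent.ZThm

open Matrix ModularCurve

local notation "Qb" => AlgebraicClosure ℚ
local notation "GQ" => AlgebraicClosure ℚ ≃ₐ[ℚ] AlgebraicClosure ℚ

section Orbit

variable {J : Type*} [AddCommGroup J] {G : Type*} [Group G] [DistribMulAction G J]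

/-- the subgroup generated by an orbit -/
def orb (G : Type*) [Group G] [DistribMulAction G J] (x : J) : AddSubgroup J :=
  AddSubgroup.closure (Set.range fun g : G => g • x)

theorem mem_orb (x : J) : x ∈ orb G x :=
  AddSubgroup.subset_closure ⟨1, one_smul G x⟩

theorem smul_mem_orb {x : J} (g : G) {y : J} (hy : y ∈ orb G x) : g • y ∈ orb G x := by
  induction hy using AddSubgroup.closure_induction with
  | mem y hy =>
    obtain ⟨h, rfl⟩ := hy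
    exact AddSubgroup.subset_closure ⟨g * h, mul_smul g h x⟩
  | zero => rw [smul_zero]; exact zero_mem _
  | add y z _ _ hy hz => rw [smul_add]; exact add_mem hy hz
  | neg y _ hy => rw [smul_neg]; exact neg_mem hy

theorem orb_induction {x : J} {p : J → Prop} (h : ∀ g : G, p (g • x)) (h0 : p 0)
    (hadd : ∀ y z, p y → p z → p (y + z)) (hneg : ∀ y, p y → p (-y)) {y : J}
    (hy : y ∈ orb G x) : p y := by
  induction hy using AddSubgroup.closure_induction with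
  | mem y hy => obtain ⟨g, rfl⟩ := hy; exact h g
  | zero => exact h0
  | add y z _ _ hy hz => exact hadd y z hy hz
  | neg y _ hy => exact hneg y hy

/-- the action on the subgroup -/
@[reducible] def orbAction (x : J) : DistribMulAction G (orb G x) where
  smul g y := ⟨g • (y : J), smul_mem_orb g y.2⟩
  one_smul y := Subtype.ext (one_smul G (y : J))
  mul_smul g h y := Subtype.ext (mul_smul g h (y : J))
  smul_zero g := Subtype.ext (smul_zero g)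
  smul_add g y z := Subtype.ext (smul_add g (y : J) (z : J))

end Orbit

variable {RE : GQ →* Matrix (Fin 2) (Fin 2) ℤ_[2]} {a : ℕ → ℤ} {N : ℕ}

theorem exists_odd (hE : EDat RE a N) {rb : GQ →* Matrix (Fin 2) (Fin 2) (ZMod 2)}
    (hred : ∀ g, (RE g).map PadicInt.toZMod = rb g) {g₁ g₂ : GQ} (hg₁ : rb g₁ = !![1, 1; 0, 1])
    (hg₂ : rb g₂ = !![1, 0; 1, 1]) {D : ℕ} (hD : D ≠ 0) (hND : N ∣ D) :
    ∃ ℓ : ℕ, ℓ.Prime ∧ ¬ ℓ ∣ D ∧ Odd (a ℓ) := by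
  obtain ⟨ℓ, hℓ, hℓD, A, hA, Φ, hΦ, -, -, Y, hY⟩ :=
    exists_frob_approx hE ⊥ inferInstance 1 D hD (g₁ * g₂)
  have hℓN : ¬ ℓ ∣ N := fun h' => hℓD (h'.trans hND)
  refine ⟨ℓ, hℓ, hℓD, ?_⟩
  have h1 := hE.tr ℓ hℓ hℓN A hA Φ hΦ
  have h2 : PadicInt.toZMod (p := 2) (RE (g₁ * g₂)).trace = 1 := by
    have h3 : PadicInt.toZMod (p := 2) (RE (g₁ * g₂)).trace =
        ((RE (g₁ * g₂)).map PadicInt.toZMod).trace := by
      rw [Matrix.trace_fin_two, Matrix.trace_fin_two, map_add]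
      rfl
    rw [h3, hred, map_mul, hg₁, hg₂, Matrix.trace_fin_two]
    decide
  have h4 : PadicInt.toZMod (p := 2) (RE Φ).trace = 1 := by
    rw [hY, Matrix.trace_add, Matrix.trace_smul, map_add, h2, smul_eq_mul, map_mul, map_pow,
      map_ofNat]
    have h5 : (2 : ZMod 2) = 0 := by decide
    rw [h5]
    simp
  rw [h1, map_intCast] at h4
  rw [← Int.not_even_iff_odd]
  intro heven
  have h6 : ((a ℓ : ℤ) : ZMod 2) = 0 := (ZMod.intCast_zmod_eq_zero_iff_dvd _ 2).2 heven.two_dvd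
  rw [h6] at h4
  exact absurd h4 (by decide)

/-- **One step**: removing the prime `q`. -/
theorem lower_step (hMZ : MZLower) (hE : EDat RE a N)
    {rb : GQ →* Matrix (Fin 2) (Fin 2) (ZMod 2)}
    (hred : ∀ g, (RE g).map PadicInt.toZMod = rb g) {g₁ g₂ : GQ} (hg₁ : rb g₁ = !![1, 1; 0, 1])
    (hg₂ : rb g₂ = !![1, 0; 1, 1]) {M₀ q : ℕ} [NeZero M₀] [NeZero (M₀ * q)]
    (hsq : Squarefree M₀) (hNM : N ∣ M₀) (hq : q.Prime) (hqM : ¬ q ∣ M₀) {k : ℕ}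
    (hk1 : (2 : ℤ) ^ k ∣ q - 1) (hk2 : (2 : ℤ) ^ k ∣ a q - 2)
    (hfr : ∀ A : ValuationSubring Qb, A.LiesOverPrime q → ∀ Φ : GQ, A.IsFrobeniusAt Φ q →
      rb Φ ≠ 1) {b : ℕ} (hb : 2 ≤ b) (hbk : b ≤ k) {D : ℕ} (hD : D ≠ 0) (hMD : M₀ * q ∣ D)
    {x : JZero (M₀ * q)} (hx : 2 ^ b • x = 0) (hx' : 2 ^ (b - 1) • x ≠ 0)
    (hT : ∀ (ℓ : ℕ) (hℓ : ℓ.Prime), ¬ ℓ ∣ D → heckeOperatorBar (M₀ * q) ⟨ℓ, hℓ⟩ x = a ℓ • x) :
    ∃ z : JZero M₀, 2 ^ (b - 1) • z = 0 ∧ 2 ^ (b - 1 - 1) • z ≠ 0 ∧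
      ∀ (ℓ : ℕ) (hℓ : ℓ.Prime), ¬ ℓ ∣ D → heckeOperatorBar M₀ ⟨ℓ, hℓ⟩ z = a ℓ • z := by
  have hND : N ∣ D := (hNM.trans (Dvd.intro _ rfl)).trans hMD
  have h2M : 2 ∣ M₀ := hE.two.trans hNM
  have hqN : ¬ q ∣ N := fun h => hqM (h.trans hNM)
  have hq2 : q ≠ 2 := fun h => hqM (h ▸ h2M)
  -- the orbit
  have htor : ∀ y ∈ orb GQ x, 2 ^ b • y = 0 := fun y hy => orb_induction (G := GQ) (x := x)
    (p := fun y => 2 ^ b • y = 0) (fun g => by rw [← smul_nsmul', hx, smul_zero'])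
    (smul_zero _) (fun y z hy hz => by rw [nsmul_add, hy, hz, add_zero])
    (fun y hy => by rw [neg_nsmul, hy, neg_zero]) hy
  have hTy : ∀ (ℓ : ℕ) (hℓ : ℓ.Prime), ¬ ℓ ∣ D → ∀ y ∈ orb GQ x,
      heckeOperatorBar (M₀ * q) ⟨ℓ, hℓ⟩ y = a ℓ • y := fun ℓ hℓ hℓD y hy =>
    orb_induction (G := GQ) (x := x)
    (p := fun y => heckeOperatorBar (M₀ * q) ⟨ℓ, hℓ⟩ y = a ℓ • y)
    (fun g => by
      have h1 := GalJ.heckeOperatorBar_smul (M₀ * q) ⟨ℓ, hℓ⟩ g x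
      rw [hT ℓ hℓ hℓD] at h1
      exact h1.trans (map_zsmul (DistribSMul.toAddMonoidHom (JZero (M₀ * q)) g) _ _))
    (by rw [map_zero, zsmul_zero]) (fun y z hy hz => by rw [map_add, hy, hz, zsmul_add])
    (fun y hy => by rw [map_neg, hy, zsmul_neg]) hy
  have hrel : ∀ y ∈ orb GQ x, QRel RE b y := fun y hy =>
    rel_of_hecke hE hD hMD hND (htor y hy) fun ℓ hℓ hℓD => hTy ℓ hℓ hℓD y hy
  let _ : DistribMulAction GQ (orb GQ x) := orbAction x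
  have hfin : Finite (orb GQ x) := by
    have h1 : {y : JZero (M₀ * q) | 2 ^ b • y = 0}.Finite :=
      Fermat.Agent.MW.finite_torsion (by positivity)
    have := h1.to_subtype
    exact Finite.of_injective (β := {y : JZero (M₀ * q) | 2 ^ b • y = 0})
      (fun y : orb GQ x => ⟨(y : JZero (M₀ * q)), htor _ y.2⟩) fun y z h =>
        Subtype.ext (congrArg (fun w : {y : JZero (M₀ * q) | 2 ^ b • y = 0} => (w : JZero (M₀ * q))) h)
  let χ : GQ →* ZMod (2 ^ b) :=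
    (PadicInt.toZModPow (p := 2) b).toMonoidHom.comp ((Matrix.detMonoidHom).comp RE)
  have hχ : ∀ g, χ g = PadicInt.toZModPow b (RE g).det := fun g => rfl
  obtain ⟨hin, hfrob⟩ := step5_core (G := GQ) (P := orb GQ x) b hb
    (fun y => Subtype.ext (htor _ y.2)) ⟨x, mem_orb x⟩
    (fun h => hx' (congrArg Subtype.val h)) χ (fun g => PadicInt.toZModPow b (RE g).trace)
    (fun g y => Subtype.ext (hrel _ y.2 g)) rb (fun g => by
      have h1 := ringHom_z2 ((ZMod.castHom (dvd_pow_self 2 (show b ≠ 0 by omega)) (ZMod 2)).comp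
        (PadicInt.toZModPow b)) PadicInt.toZMod (RE g).trace
      rw [RingHom.comp_apply] at h1
      rw [h1, ← hred, Matrix.trace_fin_two, Matrix.trace_fin_two, map_add]
      rfl) g₁ g₂ hg₁ hg₂
  obtain ⟨A, hA⟩ := Frob.exists_liesOverPrime Qb hq
  obtain ⟨Φ, hΦ⟩ := Frob.exists_isFrobeniusAt hq hA
  have hcast : ∀ n : ℤ, (2 : ℤ) ^ k ∣ n → ((n : ℤ) : ZMod (2 ^ b)) = 0 := by
    intro n hn
    rw [ZMod.intCast_zmod_eq_zero_iff_dvd]
    push_cast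
    exact (pow_dvd_pow 2 hbk).trans hn
  have hq1 : ((q : ℤ) : ZMod (2 ^ b)) = 1 := by
    have := hcast _ hk1
    push_cast at this
    push_cast
    exact sub_eq_zero.1 this
  have haq : ((a q : ℤ) : ZMod (2 ^ b)) = 2 := by
    have := hcast _ hk2
    push_cast at this
    exact sub_eq_zero.1 this
  obtain ⟨y, hy⟩ := hfrob Φ (by
      show PadicInt.toZModPow b (RE Φ).trace = 2
      rw [hE.tr q hq hqN A hA Φ hΦ, map_intCast, haq]) (by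
      rw [hχ, hE.det q hq hq2 A hA Φ hΦ, map_natCast]
      exact_mod_cast hq1) (hfr A hA Φ hΦ)
  have hqy : q ^ 2 • (y : JZero (M₀ * q)) = y := by
    have h1 : ((2 : ℤ) ^ b) ∣ (q : ℤ) - 1 := (pow_dvd_pow 2 hbk).trans hk1
    have h2 : ((2 : ℤ) ^ b) ∣ ((q : ℤ) ^ 2 - 1) := by
      have : ((q : ℤ) ^ 2 - 1) = ((q : ℤ) - 1) * (q + 1) := by ring
      rw [this]
      exact h1.mul_right _
    obtain ⟨c, hc⟩ := h2
    have h3 : ((q : ℤ) ^ 2) • (y : JZero (M₀ * q)) = y := by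
      have h4 : ((q : ℤ) ^ 2) = c * ((2 ^ b : ℕ) : ℤ) + 1 := by
        push_cast
        linarith
      rw [h4, add_zsmul, mul_zsmul, natCast_zsmul, htor _ y.2, zsmul_zero, zero_add, one_zsmul]
    have h5 : ((q ^ 2 : ℕ) : ℤ) • (y : JZero (M₀ * q)) = y := by
      push_cast
      exact h3
    rwa [natCast_zsmul] at h5
  have hq4 : q % 4 = 1 := by
    have h1 : (4 : ℤ) ∣ (q : ℤ) - 1 :=
      (show (4 : ℤ) ∣ 2 ^ k from (pow_dvd_pow (2 : ℤ) (show 2 ≤ k by omega))).trans hk1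
    omega
  refine hMZ M₀ q hsq h2M hq hq4 hqM D hD hMD a b (orb GQ x) htor
    (fun g y hy => smul_mem_orb g hy) hTy
    (exists_odd hE hred hg₁ hg₂ hD hND) A hA ?_ Φ hΦ y y.2 (b - 1) (by omega) ?_
  · intro s hs y hy
    have h1 := hin s (fun g => by
      show PadicInt.toZModPow b (RE (g * s)).trace = PadicInt.toZModPow b (RE g).trace
      rw [map_mul, hE.unram q hq hqN A hA s hs, mul_one]) ⟨y, hy⟩
    exact congrArg Subtype.val h1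
  · rw [hqy]
    intro h
    apply hy
    apply Subtype.ext
    have h1 : b - 1 - 1 = b - 2 := by omega
    rw [h1] at h
    exact h

/-- **Removing all auxiliary primes.** -/
theorem lower_all_aux (hMZ : MZLower) (hE : EDat RE a N)
    {rb : GQ →* Matrix (Fin 2) (Fin 2) (ZMod 2)}
    (hred : ∀ g, (RE g).map PadicInt.toZMod = rb g) {g₁ g₂ : GQ} (hg₁ : rb g₁ = !![1, 1; 0, 1])
    (hg₂ : rb g₂ = !![1, 0; 1, 1]) [NeZero N] (hN : Squarefree N) {k : ℕ} {D : ℕ} (hD : D ≠ 0)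
    (Q : Finset ℕ) :
    (∀ q ∈ Q, q.Prime ∧ ¬ q ∣ N ∧ (2 : ℤ) ^ k ∣ q - 1 ∧ (2 : ℤ) ^ k ∣ a q - 2 ∧
      ∀ A : ValuationSubring Qb, A.LiesOverPrime q → ∀ Φ : GQ, A.IsFrobeniusAt Φ q → rb Φ ≠ 1) →
    ∀ b : ℕ, b ≤ k → Q.card + 1 ≤ b → ∀ (M : ℕ) [NeZero M], M = N * ∏ q ∈ Q, q → M ∣ D →
    ∀ x : JZero M, 2 ^ b • x = 0 → 2 ^ (b - 1) • x ≠ 0 →
    (∀ (ℓ : ℕ) (hℓ : ℓ.Prime), ¬ ℓ ∣ D → heckeOperatorBar M ⟨ℓ, hℓ⟩ x = a ℓ • x) →
    ∃ z : JZero N, 2 ^ (b - Q.card) • z = 0 ∧ 2 ^ (b - Q.card - 1) • z ≠ 0 ∧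
      ∀ (ℓ : ℕ) (hℓ : ℓ.Prime), ¬ ℓ ∣ D → heckeOperatorBar N ⟨ℓ, hℓ⟩ z = a ℓ • z := by
  classical
  induction Q using Finset.induction_on with
  | empty =>
    intro _ b _ _ M _ hM _ x hx hx' hT
    rw [Finset.prod_empty, mul_one] at hM
    subst hM
    exact ⟨x, by simpa using hx, by simpa using hx', hT⟩
  | insert q Q hqQ ih =>
    intro hQ b hbk hb M _ hM hMD x hx hx' hT
    rw [Finset.card_insert_of_notMem hqQ] at hb ⊢
    have hQ' : ∀ q' ∈ Q, q'.Prime ∧ ¬ q' ∣ N ∧ (2 : ℤ) ^ k ∣ q' - 1 ∧ (2 : ℤ) ^ k ∣ a q' - 2 ∧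
        ∀ A : ValuationSubring Qb, A.LiesOverPrime q' → ∀ Φ : GQ, A.IsFrobeniusAt Φ q' →
          rb Φ ≠ 1 := fun q' h => hQ q' (Finset.mem_insert_of_mem h)
    obtain ⟨hq, hqN, hk1, hk2, hfr⟩ := hQ q (Finset.mem_insert_self q Q)
    have hprod0 : ∏ q' ∈ Q, q' ≠ 0 := Finset.prod_ne_zero_iff.2 fun q' h => (hQ' q' h).1.ne_zero
    set M₀ := N * ∏ q' ∈ Q, q' with hM₀
    have hM₀0 : NeZero M₀ := ⟨mul_ne_zero (NeZero.ne N) hprod0⟩
    have hMeq : M = M₀ * q := by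
      rw [hM, Finset.prod_insert hqQ, hM₀]
      ring
    subst hMeq
    have hqprod : ¬ q ∣ ∏ q' ∈ Q, q' := by
      intro h
      obtain ⟨q', hq', hd⟩ := (Prime.dvd_finsetProd_iff hq.prime _).1 h
      have := (Nat.prime_dvd_prime_iff_eq hq (hQ' q' hq').1).1 hd
      exact hqQ (this ▸ hq')
    have hqM : ¬ q ∣ M₀ := fun h => (hq.dvd_mul.1 h).elim hqN hqprod
    have hsqP : Squarefree (∏ q' ∈ Q, q') := by
      refine Finset.squarefree_prod_of_pairwise_isCoprime ?_ ?_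
      · intro q₁ h₁ q₂ h₂ hne
        exact Nat.coprime_iff_isRelPrime.1 ((Nat.coprime_primes (hQ' q₁ h₁).1 (hQ' q₂ h₂).1).2 hne)
      · intro q' hq'
        exact (hQ' q' hq').1.prime.squarefree
    have hsq : Squarefree M₀ := by
      rw [hM₀, Nat.squarefree_mul]
      · exact ⟨hN, hsqP⟩
      · refine Nat.Coprime.prod_right fun q' hq' => ?_
        exact ((Nat.Prime.coprime_iff_not_dvd (hQ' q' hq').1).2 (hQ' q' hq').2.1).symm
    obtain ⟨z, hz, hz', hTz⟩ := lower_step hMZ hE hred hg₁ hg₂ hsq (Dvd.intro _ rfl) hq hqM hk1 hk2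
      hfr (b := b) (by omega) hbk hD hMD hx hx' hT
    obtain ⟨w, hw, hw', hTw⟩ := ih hQ' (b - 1) (by omega) (by omega) M₀ hM₀
      ((Dvd.intro _ rfl).trans hMD) z hz hz' hTz
    refine ⟨w, ?_, ?_, hTw⟩
    · rwa [show b - (Q.card + 1) = b - 1 - Q.card by omega]
    · rwa [show b - (Q.card + 1) - 1 = b - 1 - Q.card - 1 by omega]

/-- **Removing all auxiliary primes.** -/
theorem lower_all (hMZ : MZLower) (hE : EDat RE a N)
    {rb : GQ →* Matrix (Fin 2) (Fin 2) (ZMod 2)}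
    (hred : ∀ g, (RE g).map PadicInt.toZMod = rb g) {g₁ g₂ : GQ} (hg₁ : rb g₁ = !![1, 1; 0, 1])
    (hg₂ : rb g₂ = !![1, 0; 1, 1]) [NeZero N] (hN : Squarefree N) {k : ℕ} {Q : Finset ℕ}
    (hQ : ∀ q ∈ Q, q.Prime ∧ ¬ q ∣ N ∧ (2 : ℤ) ^ k ∣ q - 1 ∧ (2 : ℤ) ^ k ∣ a q - 2 ∧
      ∀ A : ValuationSubring Qb, A.LiesOverPrime q → ∀ Φ : GQ, A.IsFrobeniusAt Φ q → rb Φ ≠ 1)
    {b : ℕ} (hbk : b ≤ k) (hQb : Q.card + 1 ≤ b) {D : ℕ} (hD : D ≠ 0)
    [NeZero (N * ∏ q ∈ Q, q)] (hMD : N * ∏ q ∈ Q, q ∣ D)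
    {x : JZero (N * ∏ q ∈ Q, q)} (hx : 2 ^ b • x = 0) (hx' : 2 ^ (b - 1) • x ≠ 0)
    (hT : ∀ (ℓ : ℕ) (hℓ : ℓ.Prime), ¬ ℓ ∣ D →
      heckeOperatorBar (N * ∏ q ∈ Q, q) ⟨ℓ, hℓ⟩ x = a ℓ • x) :
    ∃ z : JZero N, 2 ^ (b - Q.card) • z = 0 ∧ 2 ^ (b - Q.card - 1) • z ≠ 0 ∧
      ∀ (ℓ : ℕ) (hℓ : ℓ.Prime), ¬ ℓ ∣ D → heckeOperatorBar N ⟨ℓ, hℓ⟩ z = a ℓ • z :=
  lower_all_aux hMZ hE hred hg₁ hg₂ hN hD Q hQ b hbk hQb _ rfl hMD x hx hx' hT

end Fermat.Agent.ZThm
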