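import Fermat.Agent.ZThm.EWire
import Fermat.Agent.ZThm.JRel
import Fermat.Agent.ZThm.Step4c
import Fermat.Agent.ZSel.EC
import Fermat.Agent.ZPsi.Main
import Fermat.Agent.ZEnd.End
import Fermat.Agent.ZAL.Main
import Fermat.Agent.ZCm.Gen
import Fermat.Agent.ZThm.LatJ
import Fermat.Agent.ZThm.Lower
import Fermat.Agent.ZMZ.Main

/-!
# Theorem Z: assembly
-/

set_option autoImplicit false

namespace Fermat.Agent.ZThm

open WeierstrassCurve Fermat.Agent.ERep Fermat.Agent.QuadRep Fermat.Agent.ZEC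
open ModularCurve ModularCurve.Period CongruenceSubgroup AlgebraicCurve NumberField
open scoped nonZeroDivisors

local notation "Qb" => AlgebraicClosure ℚ
local notation "GQ" => AlgebraicClosure ℚ ≃ₐ[ℚ] AlgebraicClosure ℚ

/-- temporary -/
def ExistsPoint : Prop := ∀ {M N : ℕ} [NeZero M] {RE : GQ →* M2 ℤ_[2]} {a : ℕ → ℤ}
    {rb : GQ →* M2 (ZMod 2)} (_hE : EDat RE a N) (hB : EBad RE rb N) (_hsq : Squarefree M)
    (_hNM : N ∣ M) (Q : Finset ℕ) (_hMQ : ∀ ℓ : ℕ, ℓ.Prime → ℓ ∣ M → ℓ ∣ N ∨ ℓ ∈ Q)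
    (_hQM : ∀ q ∈ Q, q.Prime ∧ q ∣ M ∧ ¬ q ∣ N) {k : ℕ} (_hQ : ∀ q ∈ Q, EAux RE rb k q)
    (_hsel : SelZero rb N Q) {c : ℕ} (_hV : CFBound rb hB.rdet c) {t : ℕ → ZMod 2}
    (_ht : ∀ l : ℕ, l.Prime → ¬ l ∣ M → t l = (a l : ZMod 2))
    {Λ : Submodule ℤ_[2] (parabolicHoms ℤ_[2] (Gamma0 M) ℤ_[2])} (_hΛ : ZAL.ZLat M N t c Λ) (b : ℕ)
    (_hb : b * (2 * c) < k),
    ∃ x : JZero M, 2 ^ (b + 1) • x = 0 ∧ 2 ^ b • x ≠ 0 ∧
      ∀ (ℓ : ℕ) (hℓ : ℓ.Prime), ¬ ℓ ∣ M → heckeOperatorBar M ⟨ℓ, hℓ⟩ x = a ℓ • x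

section arith

theorem squarefree_mul_prod {N : ℕ} (hN : Squarefree N) {Q : Finset ℕ}
    (hQ : ∀ q ∈ Q, q.Prime ∧ ¬ q ∣ N) : Squarefree (N * ∏ q ∈ Q, q) := by
  classical
  have hcop : N.Coprime (∏ q ∈ Q, q) := Nat.Coprime.prod_right fun q hq =>
    ((Nat.Prime.coprime_iff_not_dvd (hQ q hq).1).2 (hQ q hq).2).symm
  rw [Nat.squarefree_mul hcop]
  refine ⟨hN, ?_⟩
  induction Q using Finset.induction_on with
  | empty => simp
  | insert q Q hqQ ih =>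
    rw [Finset.prod_insert hqQ, Nat.squarefree_mul]
    · refine ⟨(hQ q (Finset.mem_insert_self q Q)).1.prime.squarefree,
        ih (fun q hq => hQ q (Finset.mem_insert_of_mem hq)) ?_⟩
      exact Nat.Coprime.coprime_dvd_right (Finset.prod_dvd_prod_of_subset _ _ _
        (Finset.subset_insert q Q)) hcop
    · refine Nat.Coprime.prod_right fun p hp => ?_
      rw [Nat.coprime_primes (hQ q (Finset.mem_insert_self q Q)).1
        (hQ p (Finset.mem_insert_of_mem hp)).1]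
      rintro rfl
      exact hqQ hp

theorem prime_dvd_mul_prod {N : ℕ} {Q : Finset ℕ} (hQ : ∀ q ∈ Q, q.Prime) {l : ℕ} (hl : l.Prime)
    (h : l ∣ N * ∏ q ∈ Q, q) : l ∣ N ∨ l ∈ Q := by
  rcases (Nat.Prime.dvd_mul hl).1 h with h | h
  · exact Or.inl h
  · obtain ⟨p, hp, hlp⟩ := (hl.prime.dvd_finsetProd_iff _).1 h
    rw [(Nat.prime_dvd_prime_iff_eq hl (hQ p hp)).1 hlp]
    exact Or.inr hp

/-- divisors between `N` and `N * ∏ Q` -/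
theorem exists_subset_of_dvd {N : ℕ} (hN0 : N ≠ 0) {Q : Finset ℕ} (hQ : ∀ q ∈ Q, q.Prime) {d : ℕ}
    (h1 : N ∣ d) (h2 : d ∣ N * ∏ q ∈ Q, q) (hd : d ≠ N) :
    ∃ Q' : Finset ℕ, Q' ⊆ Q ∧ Q'.Nonempty ∧ d = N * ∏ q ∈ Q', q := by
  classical
  obtain ⟨e, rfl⟩ := h1
  have he : e ∣ ∏ q ∈ Q, q := Nat.dvd_of_mul_dvd_mul_left (Nat.pos_of_ne_zero hN0) h2
  have he1 : e ≠ 1 := by
    rintro rfl
    exact hd (mul_one N)
  have hsqQ : Squarefree (∏ q ∈ Q, q) := by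
    have := squarefree_mul_prod (N := 1) squarefree_one (Q := Q) fun q hq =>
      ⟨hQ q hq, fun h => (hQ q hq).one_lt.ne' (Nat.dvd_one.1 h)⟩
    rwa [one_mul] at this
  have hesq : Squarefree e := hsqQ.squarefree_of_dvd he
  have hmem : ∀ p ∈ e.primeFactors, p ∈ Q := by
    intro p hp
    have hpp := Nat.prime_of_mem_primeFactors hp
    rcases prime_dvd_mul_prod (N := 1) hQ hpp (by
      rw [one_mul]; exact (Nat.dvd_of_mem_primeFactors hp).trans he) with h | h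
    · exact absurd (Nat.dvd_one.1 h) hpp.one_lt.ne'
    · exact h
  refine ⟨e.primeFactors, hmem, ?_, ?_⟩
  · rw [Nat.nonempty_primeFactors]
    have := hesq.ne_zero
    omega
  · rw [Nat.prod_primeFactors_of_squarefree hesq]

end arith

section main

variable (E : WeierstrassCurve ℚ) [E.IsElliptic] {W : WeierstrassCurve ℤ}
  (hWE : W.IsIntegralModelOf E)
  (hodd : ∀ l : ℕ, l.Prime → (l : ℤ) ∣ W.Δ → Odd (padicValInt l W.Δ)) (h2 : (2 : ℤ) ∣ W.Δ)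
  {N : ℕ} (hN : ∀ l : ℕ, l.Prime → (l ∣ N ↔ (l : ℤ) ∣ W.Δ))

include hWE hodd h2 hN

/-- the residual traces -/
theorem rbE_trace_frob {l : ℕ} (hl : l.Prime) (hlN : ¬ l ∣ N) {A : ValuationSubring Qb}
    (hA : A.LiesOverPrime l) {Φ : GQ} (hΦ : A.IsFrobeniusAt Φ l) :
    (rbE E Φ).trace = ((W.apOfModel l : ℤ) : ZMod 2) := by
  have h1 := (eDat E hWE hodd h2 hN).tr l hl hlN A hA Φ hΦ
  have h3 : (rbE E Φ).trace = PadicInt.toZMod (REm E Φ).trace := by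
    rw [← REm_red, Matrix.trace_fin_two, Matrix.trace_fin_two, Matrix.map_apply, Matrix.map_apply,
      map_add]
  rw [h3, h1, map_intCast]

/-- the facts at the bad primes -/
theorem eBad (hss : ∀ l : ℕ, l.Prime → (l : ℤ) ∣ W.Δ → ¬ (l : ℤ) ∣ W.c₄) (hΔ : W.Δ < 0)
    (hnr : ∀ x : ℚ, 4 * x ^ 3 + (W.b₂ : ℚ) * x ^ 2 + 2 * (W.b₄ : ℚ) * x + (W.b₆ : ℚ) ≠ 0) :
    EBad (REm E) (rbE E) N where
  red := REm_red E
  rdet := fun g => rbE_det E g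
  gens := exists_gens E hWE hΔ hnr
  s0 := fun v hv hvN B hB => exists_inertia_ne_one E hWE hv hB (hodd v hv ((hN v hv).1 hvN))
  ell := fun v hv hvN B hB Φ hΦ => by
    obtain ⟨z, -, hz, h⟩ := ell_bad' E hWE (nonScalar_two E hWE hodd h2) hv hB ((hN v hv).1 hvN)
      (hss v hv ((hN v hv).1 hvN)) hΦ
    exact ⟨z, hz, h⟩

/-- auxiliary primes -/
theorem eAux {k q : ℕ} (hq : q.Prime) (hqN : ¬ q ∣ N) (h1 : (2 : ℤ) ^ k ∣ (q : ℤ) - 1)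
    (h2' : (2 : ℤ) ^ k ∣ W.apOfModel q - 2) (h3 : ∀ A : ValuationSubring Qb, A.LiesOverPrime q →
      ∀ Φ, A.IsFrobeniusAt Φ q → rbE E Φ ≠ 1) : EAux (REm E) (rbE E) k q := by
  intro B hB Φ hΦ
  refine ⟨h3 B hB Φ hΦ, ?_⟩
  have hq2 : q ≠ 2 := by
    rintro rfl
    exact hqN ((hN 2 Nat.prime_two).2 (by exact_mod_cast h2))
  exact ell_aux E hWE (nonScalar_two E hWE hodd h2) hq hq2 (fun h => hqN ((hN q hq).2 h)) hB hΦ h1 h2'

end main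

/-- **Theorem Z** for the auxiliary curves. -/
theorem mainZ_of (hpt : ExistsPoint) : MainZ := by
  intro E _ W hWE hss hΔ h2 hodd hnr hl₀ hodd' N hNsq hN
  classical
  have hN0 : N ≠ 0 := hNsq.ne_zero
  have : NeZero N := ⟨hN0⟩
  have h2N : 2 ∣ N := (hN 2 Nat.prime_two).2 (by exact_mod_cast h2)
  have hE := eDat E hWE hodd h2 hN
  have hB := eBad E hWE hodd h2 hN hss hΔ hnr
  obtain ⟨l₀, hl₀, hl₀2, hl₀Δ⟩ := hl₀
  have hN4 : 4 < N := by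
    have h3 : l₀ ∣ N := (hN l₀ hl₀).2 hl₀Δ
    have h4 : 2 * l₀ ∣ N := Nat.Coprime.mul_dvd_of_dvd_of_dvd
      ((Nat.coprime_primes Nat.prime_two hl₀).2 (Ne.symm hl₀2)) h2N h3
    have h5 := Nat.le_of_dvd (Nat.pos_of_ne_zero hN0) h4
    have h6 := hl₀.two_le
    omega
  have hN42 : N % 4 = 2 := by
    have h4 : ¬ 2 * 2 ∣ N := fun h => by
      have := hNsq 2 h
      exact absurd (Nat.isUnit_iff.1 this) (by norm_num)
    omega
  obtain ⟨r, hr⟩ := ZSel.selmer_EC E hWE hΔ hodd h2 hnr hN0 hN ⟨l₀, hl₀, hl₀2, hl₀Δ, hss l₀ hl₀ hl₀Δ⟩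
  set c := Nat.card {x : ClassGroup (𝓞 (ZPsi.KN N)) // ∃ k : ℕ, x ^ (2 ^ k) = 1} with hc
  obtain ⟨ψ, hψ, hψt⟩ := ZPsi.exists_psi E hWE hΔ hodd h2 hNsq hN hss hnr
  refine ZEnd.isModularModelOfLevel_of_torsion (p := 2) (N := N) W fun b₀ => ?_
  -- the auxiliary primes
  set k := (b₀ + r + 1) * (2 * c) + (b₀ + r + 2) with hk
  obtain ⟨Q, hQr, hsel, hQ⟩ := hr k
  have hQ' : ∀ q ∈ Q, q.Prime ∧ ¬ q ∣ N := fun q hq => ⟨(hQ q hq).1, (hQ q hq).2.1⟩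
  set M := N * ∏ q ∈ Q, q with hM
  have hMsq : Squarefree M := squarefree_mul_prod hNsq hQ'
  have hM0 : M ≠ 0 := hMsq.ne_zero
  have : NeZero M := ⟨hM0⟩
  have hNM : N ∣ M := dvd_mul_right _ _
  have hndM : ∀ l, ¬ l ∣ M → ¬ l ∣ N := fun l h h' => h (h'.trans hNM)
  -- the lattice
  have htr : ∀ l : ℕ, l.Prime → ¬ l ∣ N → ∀ A : ValuationSubring Qb, A.LiesOverPrime l →
      ∀ Φ, A.IsFrobeniusAt Φ l → (rbE E Φ).trace = ((W.apOfModel l : ℤ) : ZMod 2) :=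
    fun l hl hlN A hA Φ hΦ => rbE_trace_frob E hWE hodd h2 hN hl hlN hA hΦ
  have hfr : ∀ l : ℕ, l.Prime → ∃ A : ValuationSubring Qb, A.LiesOverPrime l ∧
      ∃ Φ : GQ, A.IsFrobeniusAt Φ l := by
    intro l hl
    obtain ⟨A, hA⟩ := Frob.exists_liesOverPrime Qb hl
    obtain ⟨Φ, hΦ⟩ := Frob.exists_isFrobeniusAt (L := Qb) hl hA
    exact ⟨A, hA, Φ, hΦ⟩
  obtain ⟨Λ, hΛ⟩ := ZAL.exists_zlat (M := M) (N := N) (K := ZPsi.KN N) hMsq (h2N.trans hNM) hNM hN4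
    (ZPsi.lamN N) (ZPsi.lamN_sq N)
    (ZCm.hgen_of_finrank (ZPsi.finrank_KN hN0) hN42 hNsq (ZPsi.lamN N) (ZPsi.lamN_sq N))
    ψ hψ (fun l => ((W.apOfModel l : ℤ) : ZMod 2))
    (by
      intro l hl hlM I hI
      obtain ⟨A, hA, Φ, hΦ⟩ := hfr l hl
      rw [← htr l hl (hndM l hlM) A hA Φ hΦ]
      exact hψt l hl (hndM l hlM) A hA Φ hΦ I hI)
    (by
      intro l hl hlM hsq
      obtain ⟨A, hA, Φ, hΦ⟩ := hfr l hl
      show ((W.apOfModel l : ℤ) : ZMod 2) = 0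
      rw [← htr l hl (hndM l hlM) A hA Φ hΦ]
      exact ZPsi.trace_eq_zero E hWE hΔ hodd h2 hNsq hN hl (hndM l hlM) hsq hA hΦ)
    (by
      obtain ⟨l, hl, hlS, hlN, -, A, hA, Φ, hΦ, ht⟩ :=
        ZPsi.exists_prime_trace_one E hWE hΔ h2 hNsq hN hnr M.primeFactors
      refine ⟨l, hl, fun h => hlS (Nat.mem_primeFactors.2 ⟨hl, h, hM0⟩), ?_⟩
      show ((W.apOfModel l : ℤ) : ZMod 2) = 1
      rw [← htr l hl hlN A hA Φ hΦ, ht])
    (by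
      intro d hNd hdM hdN
      obtain ⟨Q', hQ'Q, hQ'ne, rfl⟩ := exists_subset_of_dvd hN0 (fun q hq => (hQ' q hq).1) hNd hdM hdN
      obtain ⟨l, hl, hlS, hlN, -, -, hsq, A, hA, Φ, hΦ, ht⟩ :=
        ZPsi.exists_prime_not_isSquare E hWE hΔ h2 hNsq hN hnr hQ'ne
          (fun q hq => hQ' q (hQ'Q hq)) M.primeFactors
      refine ⟨l, hl, fun h => hlS (Nat.mem_primeFactors.2 ⟨hl, h, hM0⟩), ?_, hsq⟩
      show ((W.apOfModel l : ℤ) : ZMod 2) = 1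
      rw [← htr l hl hlN A hA Φ hΦ, ht])
    (by
      intro q hq hNq
      have hqQ : q ∣ ∏ q ∈ Q, q := Nat.dvd_of_mul_dvd_mul_left (Nat.pos_of_ne_zero hN0) hNq
      have hqm : q ∈ Q := by
        obtain ⟨p, hp, hqp⟩ := (hq.prime.dvd_finsetProd_iff _).1 hqQ
        rwa [(Nat.prime_dvd_prime_iff_eq hq (hQ' p hp).1).1 hqp]
      obtain ⟨A, hA, Φ, hΦ⟩ := hfr q hq
      have h3 := hQ q hqm
      refine ZPsi.not_isSquare E hWE hΔ hodd h2 hNsq hN hq h3.2.1 hA hΦ (h3.2.2.2.2 A hA Φ hΦ) ?_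
      rw [htr q hq h3.2.1 A hA Φ hΦ]
      have h4 : (2 : ℤ) ∣ W.apOfModel q := by
        have h5 : (2 : ℤ) ∣ (2 : ℤ) ^ k := dvd_pow_self _ (by omega)
        have h6 := dvd_add (h5.trans h3.2.2.2.1) (dvd_refl (2 : ℤ))
        rwa [sub_add_cancel] at h6
      exact (ZMod.intCast_zmod_eq_zero_iff_dvd _ 2).2 (by exact_mod_cast h4))
  -- the point at level `M`
  obtain ⟨x, hx1, hx2, hx3⟩ := hpt hE hB hMsq hNM Q
    (fun l hl hlM => prime_dvd_mul_prod (fun q hq => (hQ' q hq).1) hl hlM)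
    (fun q hq => ⟨(hQ' q hq).1, (Finset.dvd_prod_of_mem (fun q => q) hq).trans (dvd_mul_left _ _),
      (hQ' q hq).2⟩) (k := k)
    (fun q hq => eAux E hWE hodd h2 hN (hQ q hq).1 (hQ q hq).2.1 (hQ q hq).2.2.1 (hQ q hq).2.2.2.1
      (hQ q hq).2.2.2.2) hsel
    (cfBound E hWE hΔ hodd hNsq hN hB.rdet) (fun l hl hlM => rfl) hΛ (b₀ + Q.card) (by
      have h3 : (b₀ + Q.card) * (2 * c) ≤ (b₀ + r + 1) * (2 * c) :=
        Nat.mul_le_mul_right _ (by omega)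
      rw [← hc]
      omega)
  -- the point at level `N`
  obtain ⟨g₁, g₂, hg₁, hg₂⟩ := hB.gens
  obtain ⟨z, hz1, hz2, hz3⟩ := lower_all ZMZ.mzLower hE hB.red hg₁ hg₂ hNsq (k := k) hQ
    (b := b₀ + Q.card + 1) (by omega) (by omega) (D := M) hM0 (dvd_refl _) hx1
    (by rwa [Nat.add_sub_cancel]) hx3
  have e1 : b₀ + Q.card + 1 - Q.card = b₀ + 1 := by omega
  rw [e1] at hz1 hz2
  rw [Nat.add_sub_cancel] at hz2
  refine ⟨z, hz1, hz2, fun ℓ hℓ hℓN _ => ?_⟩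
  exact hecke_of_rel hE (dvd_refl N) hz1 (rel_of_hecke hE hM0 hNM hNM hz1 hz3) hℓ hℓN

end Fermat.Agent.ZThm
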