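import Fermat.Agent.ZThm.LocConv

/-!
# Theorem Z, Step 4: reduction modulo `2` of a quadratic pseudo-character over a finite `ℤ₂`-algebra
-/

set_option autoImplicit false

namespace Fermat.Agent.ZThm

open Matrix

local notation "Qb" => AlgebraicClosure ℚ
local notation "GQ" => AlgebraicClosure ℚ ≃ₐ[ℚ] AlgebraicClosure ℚ

/-- every `2`-adic integer is `0` or `1` modulo `2` -/
theorem exists_two_mul (c : ℤ_[2]) : ∃ c' : ℤ_[2], c = 2 * c' ∨ c = 1 + 2 * c' := by
  have h := PadicInt.toZMod_spec (p := 2)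
  have h1 : c - (ZMod.cast (PadicInt.toZMod c) : ℤ_[2]) ∈ IsLocalRing.maximalIdeal ℤ_[2] := h c
  rw [PadicInt.maximalIdeal_eq_span_p, Ideal.mem_span_singleton] at h1
  obtain ⟨c', hc'⟩ := h1
  generalize PadicInt.toZMod c = y at hc'
  refine ⟨c', ?_⟩
  have h2 : ∀ y : ZMod 2, y = 0 ∨ y = 1 := by decide
  rcases h2 y with rfl | rfl
  · left
    rw [ZMod.cast_zero, sub_zero] at hc'
    rw [hc']; norm_num
  · right
    rw [ZMod.cast_eq_val, ZMod.val_one, Nat.cast_one, sub_eq_iff_eq_add] at hc'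
    rw [hc', add_comm]; norm_num

theorem unit_eq_one_add {c : ℤ_[2]} (hc : IsUnit c) : ∃ c' : ℤ_[2], c = 1 + 2 * c' := by
  obtain ⟨c', h | h⟩ := exists_two_mul c
  · exfalso
    rw [h] at hc
    have h2 : IsUnit (2 : ℤ_[2]) := isUnit_of_mul_isUnit_left hc
    exact (PadicInt.prime_p (p := 2)).not_isUnit (by exact_mod_cast h2)
  · exact ⟨c', h⟩

theorem toZMod_two_mul (c : ℤ_[2]) : PadicInt.toZMod (2 * c) = 0 := by
  rw [map_mul, map_ofNat, show ((2 : ZMod 2)) = 0 by decide, zero_mul]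

section

variable {R : Type} [CommRing R] [Algebra ℤ_[2] R]

/-- the quotient modulo `2` -/
abbrev Q2 (R : Type) [CommRing R] : Type := R ⧸ Ideal.span {(2 : R)}

omit [Algebra ℤ_[2] R] in
theorem mk_two : (Ideal.Quotient.mk (Ideal.span {(2 : R)}) 2 : Q2 R) = 0 :=
  Ideal.Quotient.eq_zero_iff_mem.2 (Ideal.mem_span_singleton_self _)

omit [Algebra ℤ_[2] R] in
theorem two_q2 : (2 : Q2 R) = 0 := by
  have := mk_two (R := R)
  rwa [map_ofNat] at this

theorem mk_algebraMap (c : ℤ_[2]) :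
    (Ideal.Quotient.mk (Ideal.span {(2 : R)}) (algebraMap ℤ_[2] R c) : Q2 R) = 0 ∨
    (Ideal.Quotient.mk (Ideal.span {(2 : R)}) (algebraMap ℤ_[2] R c) : Q2 R) = 1 := by
  obtain ⟨c', rfl | rfl⟩ := exists_two_mul c
  · left
    rw [map_mul, map_ofNat, map_mul, mk_two, zero_mul]
  · right
    rw [map_add, map_mul, map_ofNat, map_add, map_mul, mk_two, zero_mul, map_one, map_one, add_zero]

theorem mk_unit_smul {c : ℤ_[2]} (hc : IsUnit c) (a : R) :
    (Ideal.Quotient.mk (Ideal.span {(2 : R)}) (c • a) : Q2 R) = Ideal.Quotient.mk _ a := by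
  obtain ⟨c', rfl⟩ := unit_eq_one_add hc
  rw [Algebra.smul_def, map_mul, map_add, map_mul, map_ofNat, map_add, map_mul, mk_two, zero_mul,
    map_one, map_one, add_zero, one_mul]

theorem finite_q2 [Module.Finite ℤ_[2] R] : Finite (Q2 R) := by
  classical
  obtain ⟨s, hs⟩ := (Module.finite_def.1 (inferInstance : Module.Finite ℤ_[2] R))
  let f : (s → ZMod 2) → Q2 R := fun v => Ideal.Quotient.mk _ (∑ x : s, ((v x).val : R) * (x : R))
  refine Finite.of_surjective f ?_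
  intro y
  obtain ⟨a, rfl⟩ := Ideal.Quotient.mk_surjective y
  have ha : a ∈ Submodule.span ℤ_[2] (s : Set R) := by rw [hs]; exact Submodule.mem_top
  rw [Submodule.mem_span_finset'] at ha
  obtain ⟨c, hc⟩ := ha
  refine ⟨fun x => PadicInt.toZMod (c x), ?_⟩
  simp only [f]
  rw [← hc, map_sum, map_sum]
  refine Finset.sum_congr rfl fun x _ => ?_
  rw [Algebra.smul_def, map_mul, map_mul]
  congr 1
  obtain ⟨c', h | h⟩ := exists_two_mul (c x)
  · rw [h, toZMod_two_mul, ZMod.val_zero, Nat.cast_zero, map_zero, map_mul, map_mul, map_ofNat, mk_two,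
      zero_mul]
  · rw [h, map_add, toZMod_two_mul, map_one, add_zero, ZMod.val_one, Nat.cast_one, map_one]
    simp only [map_add, map_mul, map_ofNat, map_one, two_q2, zero_mul, add_zero]

end

/-- The local condition modulo `2`. -/
def MLoc {R : Type} [CommRing R] (rb : GQ →* M2 (ZMod 2)) (t : GQ → R) (D I : Subgroup GQ) : Prop :=
  ∃ Φ ∈ D, ∃ ζ : R, (2 : R) ∣ ζ * ζ - 1 ∧
    (∃ s₀ ∈ D, rb s₀ ≠ 1 ∧ (s₀ ∈ I ∨ (s₀ = Φ ∧ ζ = 1))) ∧
    (∀ τ ∈ D, ∀ L : IntermediateField ℚ Qb, FiniteDimensional ℚ L →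
      ∃ n : ℕ, ∃ s ∈ I, ∀ x ∈ L, τ x = (Φ ^ n * s) x) ∧
    ∀ p ∈ pairs I Φ ζ, ∀ q ∈ pairs I Φ ζ, ∀ g,
      (2 : R) ∣ t (p.1 * g * q.1⁻¹) - q.2 * t (p.1 * g) - p.2 * t (g * q.1⁻¹) + p.2 * q.2 * t g

section

variable {R : Type} [CommRing R] [Algebra ℤ_[2] R] [Module.Finite ℤ_[2] R]

/-- **Step 2 of Theorem Z for pseudo-characters over finite `ℤ₂`-algebras.** -/
theorem mod2_count {π₀ : R →+* ZMod 2} {rb : GQ →* M2 (ZMod 2)} {N : ℕ} {Q : Finset ℕ}
    (hsel : SelZero rb N Q) (χ : GQ →* ℤ_[2]) (t : GQ → R)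
    (htr : ∀ g, π₀ (t g) = (rb g).trace)
    (hnil : ∀ g, ∃ (c : ℤ_[2]) (n : ℕ), (2 : R) ∣ (t g - algebraMap ℤ_[2] R c) ^ n)
    (h1 : ∀ g h, t (g * h) + χ g • t (g⁻¹ * h) = t g * t h)
    (hcomm : ∀ g h, t (g * h) = t (h * g))
    (hsm : ∃ L : IntermediateField ℚ Qb, FiniteDimensional ℚ L ∧
      ∀ σ : GQ, (∀ x ∈ L, σ x = x) → ∀ g, (2 : R) ∣ t (g * σ) - t g)
    (hgen : Algebra.adjoin ℤ_[2] (Set.range t) = ⊤)
    (g₁ g₂ : GQ) (hg₁ : rb g₁ = !![1, 1; 0, 1]) (hg₂ : rb g₂ = !![1, 0; 1, 1])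
    (hunram : ∀ ℓ : ℕ, ℓ.Prime → ¬ ℓ ∣ N → ℓ ∉ Q → ∀ B : ValuationSubring Qb, B.LiesOverPrime ℓ →
      ∀ s ∈ B.inertiaSubgroupIn ℚ, ∀ g, t (g * s) = t g)
    (hloc : ∀ v : ℕ, v.Prime → (v ∣ N ∨ v ∈ Q) → ∀ B : ValuationSubring Qb, B.LiesOverPrime v →
      MLoc rb t (B.decompositionSubgroup ℚ) (B.inertiaSubgroupIn ℚ)) :
    ∃ (hdet : ∀ g, (rb g).det = 1) (V : Subgroup GQ), V ≤ evenSub rb hdet ∧
      (∃ L : IntermediateField ℚ Qb, FiniteDimensional ℚ L ∧ ∀ σ : GQ, (∀ x ∈ L, σ x = x) → σ ∈ V) ∧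
      (∀ a ∈ evenSub rb hdet, ∀ b ∈ V, a * b * a⁻¹ ∈ V) ∧
      (∀ a ∈ evenSub rb hdet, ∀ b ∈ evenSub rb hdet, a * b * a⁻¹ * b⁻¹ ∈ V) ∧
      (∃ k : ℕ, ∀ a ∈ evenSub rb hdet, a ^ (2 ^ k) ∈ V) ∧
      (∀ ℓ : ℕ, ℓ.Prime → ∀ B : ValuationSubring Qb, B.LiesOverPrime ℓ →
        ∀ g ∈ B.inertiaSubgroupIn ℚ, g ∈ evenSub rb hdet → g ∈ V) ∧
      Nat.card (Q2 R) ≤ 2 ^ V.relIndex (evenSub rb hdet) := by
  classical
  have hfin : Finite (Q2 R) := finite_q2
  let m : R →+* Q2 R := Ideal.Quotient.mk (Ideal.span {(2 : R)})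
  have hm : ∀ a, m a = Ideal.Quotient.mk _ a := fun _ => rfl
  have hm2 : ∀ a, (2 : R) ∣ a → m a = 0 := by
    rintro _ ⟨b, rfl⟩
    rw [map_mul, hm 2, mk_two, zero_mul]
  have hker : ∀ a ∈ Ideal.span {(2 : R)}, π₀ a = 0 := by
    intro a ha
    obtain ⟨b, rfl⟩ := Ideal.mem_span_singleton.1 ha
    rw [map_mul, map_ofNat, show ((2 : ZMod 2)) = 0 by decide, zero_mul]
  let π : Q2 R →+* ZMod 2 := Ideal.Quotient.lift _ π₀ hker
  have hπ : ∀ a, π (m a) = π₀ a := fun a => rfl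
  have hnt : Nontrivial (Q2 R) := ⟨0, 1, fun h => zero_ne_one (α := ZMod 2) (by
    rw [← map_zero π, ← map_one π, h])⟩
  have hchar : CharP (Q2 R) 2 := CharTwo.of_one_ne_zero_of_two_eq_zero one_ne_zero two_q2
  let : Algebra (ZMod 2) (Q2 R) := ZMod.algebra (Q2 R) 2
  have hχ : ∀ g, IsUnit (χ g) := fun g => by
    have : χ g * χ g⁻¹ = 1 := by rw [← map_mul, mul_inv_cancel, map_one]
    exact IsUnit.of_mul_eq_one _ this
  -- nilpotence
  have hnil1 : ∀ a : R, IsNilpotent (m a) ∨ IsNilpotent (m a - 1) := by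
    intro a
    have ha : a ∈ Algebra.adjoin ℤ_[2] (Set.range t) := by rw [hgen]; exact Algebra.mem_top
    induction ha using Algebra.adjoin_induction with
    | mem x hx =>
      obtain ⟨g, rfl⟩ := hx
      obtain ⟨c, n, hn⟩ := hnil g
      have h2 : (m (t g) - m (algebraMap ℤ_[2] R c)) ^ n = 0 := by
        rw [← map_sub, ← map_pow]
        exact hm2 _ hn
      rcases mk_algebraMap (R := R) c with h | h
      · left
        rw [hm (algebraMap _ _ _), h, sub_zero] at h2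
        exact ⟨n, h2⟩
      · right
        rw [hm (algebraMap _ _ _), h] at h2
        exact ⟨n, h2⟩
    | algebraMap r =>
      rcases mk_algebraMap (R := R) r with h | h
      · left; rw [hm, h]; exact IsNilpotent.zero
      · right; rw [hm, h, sub_self]; exact IsNilpotent.zero
    | add x y _ _ hx hy =>
      have h2 : (2 : Q2 R) = 0 := two_q2
      rcases hx with hx | hx <;> rcases hy with hy | hy
      · left; rw [map_add]; exact (Commute.all _ _).isNilpotent_add hx hy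
      · right; rw [map_add, add_sub_assoc]; exact (Commute.all _ _).isNilpotent_add hx hy
      · right; rw [map_add, show m x + m y - 1 = (m x - 1) + m y by ring]
        exact (Commute.all _ _).isNilpotent_add hx hy
      · left; rw [map_add, show m x + m y = (m x - 1) + (m y - 1) by linear_combination h2]
        exact (Commute.all _ _).isNilpotent_add hx hy
    | mul x y _ _ hx hy =>
      rcases hx with hx | hx
      · left; rw [map_mul]; exact (Commute.all _ _).isNilpotent_mul_right hx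
      · rcases hy with hy | hy
        · left; rw [map_mul]; exact (Commute.all _ _).isNilpotent_mul_left hy
        · right
          rw [map_mul, show m x * m y - 1 = (m x - 1) * m y + (m y - 1) by ring]
          exact (Commute.all _ _).isNilpotent_add ((Commute.all _ _).isNilpotent_mul_right hx) hy
  have hnilπ : ∀ a : Q2 R, π a = 0 → IsNilpotent a := by
    intro a ha
    obtain ⟨a, rfl⟩ := Ideal.Quotient.mk_surjective a
    rcases hnil1 a with h | h
    · exact h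
    · exfalso
      obtain ⟨n, hn⟩ := h
      have := congrArg π hn
      rw [map_pow, map_sub, map_one, hm, ha, map_zero, zero_sub] at this
      have h2 := eq_zero_of_pow_eq_zero this
      revert h2; decide
  have hgen' : Subring.closure (Set.range fun g => m (t g)) = ⊤ := by
    rw [eq_top_iff]
    intro a _
    obtain ⟨a, rfl⟩ := Ideal.Quotient.mk_surjective a
    change m a ∈ _
    have ha : a ∈ Algebra.adjoin ℤ_[2] (Set.range t) := by rw [hgen]; exact Algebra.mem_top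
    induction ha using Algebra.adjoin_induction with
    | mem x hx =>
      obtain ⟨g, rfl⟩ := hx
      exact Subring.subset_closure ⟨g, rfl⟩
    | algebraMap r =>
      rcases mk_algebraMap (R := R) r with h | h
      · rw [hm, h]; exact Subring.zero_mem _
      · rw [hm, h]; exact Subring.one_mem _
    | add x y _ _ hx hy => rw [map_add]; exact Subring.add_mem _ (hx trivial) (hy trivial)
    | mul x y _ _ hx hy => rw [map_mul]; exact Subring.mul_mem _ (hx trivial) (hy trivial)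
  refine pseudo_step2 (A := Q2 R) (π := π) hsel (fun g => m (t g)) hnilπ (fun g => by rw [hπ, htr])
    ?_ (fun g h => by rw [hcomm]) ?_ hgen' g₁ g₂ hg₁ hg₂ ?_ ?_
  · intro g h
    rw [← map_mul, ← h1, map_add, hm (χ g • _), mk_unit_smul (hχ g)]
  · obtain ⟨L, hL, hL1⟩ := hsm
    refine ⟨L, hL, fun σ hσ g => ?_⟩
    have := hm2 _ (hL1 σ hσ g)
    rwa [map_sub, sub_eq_zero] at this
  · intro ℓ hℓ hℓN hℓQ B hB s hs g
    rw [hunram ℓ hℓ hℓN hℓQ B hB s hs g]
  · intro v hv hvN B hB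
    obtain ⟨Φ, hΦ, ζ, hζ, ⟨s₀, hs₀, hs₀1, hs₀I⟩, hD, hpairs⟩ := hloc v hv hvN B hB
    refine ⟨Φ, hΦ, m ζ, ?_, ⟨s₀, hs₀, hs₀1, ?_⟩, hD, ?_⟩
    · have := hm2 _ hζ
      rwa [map_sub, map_mul, map_one, sub_eq_zero] at this
    · rcases hs₀I with h | ⟨h, h'⟩
      · exact Or.inl h
      · exact Or.inr ⟨h, by rw [h', map_one]⟩
    · have hlift : ∀ p ∈ pairs (B.inertiaSubgroupIn ℚ) Φ (m ζ),
          ∃ p' ∈ pairs (B.inertiaSubgroupIn ℚ) Φ ζ, p = (p'.1, m p'.2) := by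
        rintro p (⟨h, h'⟩ | rfl)
        · exact ⟨(p.1, 1), Or.inl ⟨h, rfl⟩, by rw [map_one, ← h']⟩
        · exact ⟨(Φ, ζ), Or.inr rfl, rfl⟩
      intro p hp q hq g
      obtain ⟨p', hp', rfl⟩ := hlift p hp
      obtain ⟨q', hq', rfl⟩ := hlift q hq
      have := hm2 _ (hpairs p' hp' q' hq' g)
      simpa only [map_add, map_sub, map_mul] using this

end

end Fermat.Agent.ZThm
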