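import Fermat.Agent.ZThm.CH

/-!
# Theorem Z, Step 4: from quadratic pseudo-characters to representations
-/

set_option autoImplicit false

namespace Fermat.Agent.ZThm

open Matrix

theorem eq_zero_of_trace {A G : Type*} [CommRing A] [Group G] {ρ : G →* Matrix (Fin 2) (Fin 2) A}
    (hspan : ∀ X : Matrix (Fin 2) (Fin 2) A, X ∈ Submodule.span A (Set.range ρ))
    {X : Matrix (Fin 2) (Fin 2) A} (h : ∀ g, (X * ρ g).trace = 0) : X = 0 := by
  have h1 : ∀ Y, (X * Y).trace = 0 := by
    intro Y
    have hY := hspan Y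
    induction hY using Submodule.span_induction with
    | mem y hy => obtain ⟨g, rfl⟩ := hy; exact h g
    | zero => simp
    | add x y _ _ hx hy => rw [mul_add, Matrix.trace_add, hx, hy, add_zero]
    | smul a x _ hx => rw [mul_smul_comm, Matrix.trace_smul, hx, smul_zero]
  ext i j
  have := h1 (Matrix.single j i 1)
  rw [Matrix.trace_mul_single] at this
  simpa using this

variable {A G : Type*} [CommRing A] [Finite A] [Group G]

theorem exists_rep (χ : G →* A) (t : G → A) (π : A →+* ZMod 2)
    (hπ : ∀ a, π a = 0 → IsNilpotent a)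
    (rb : G →* Matrix (Fin 2) (Fin 2) (ZMod 2)) (htr : ∀ g, π (t g) = (rb g).trace)
    (g₁ g₂ : G) (hg₁ : rb g₁ = !![1, 1; 0, 1]) (hg₂ : rb g₂ = !![1, 0; 1, 1])
    (h1 : ∀ g h, t (g * h) + χ g * t (g⁻¹ * h) = t g * t h)
    (hcomm : ∀ g h, t (g * h) = t (h * g))
    (K : Subgroup G) [K.FiniteIndex] (hK : ∀ g, ∀ k ∈ K, t (g * k) = t g) :
    ∃ ρ : G →* Matrix (Fin 2) (Fin 2) A, (∀ g, (ρ g).map π = rb g) ∧ (∀ g, (ρ g).trace = t g) ∧
      (∀ g, (ρ g).det = χ g) ∧ (∀ k, (∀ g, t (g * k) = t g) → ρ k = 1) ∧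
      (∀ X : Matrix (Fin 2) (Fin 2) A, (∀ g, (X * ρ g).trace = 0) → X = 0) := by
  classical
  let T : G → G → A := fun k h => t (h * k)
  let S : Submodule A (G → A) := Submodule.span A (Set.range T)
  have hT : ∀ k, T k ∈ S := fun k => Submodule.subset_span ⟨k, rfl⟩
  -- finiteness
  have hinv : ∀ f ∈ S, ∀ k ∈ K, ∀ h, f (k * h) = f h := by
    intro f hf
    induction hf using Submodule.span_induction with
    | mem y hy =>
      obtain ⟨g, rfl⟩ := hy
      intro k hk h
      change t (k * h * g) = t (h * g)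
      rw [mul_assoc, hcomm, hK _ _ hk]
    | zero => intro k _ h; rfl
    | add x y _ _ hx hy =>
      intro k hk h
      rw [Pi.add_apply, Pi.add_apply, hx k hk, hy k hk]
    | smul a x _ hx =>
      intro k hk h
      rw [Pi.smul_apply, Pi.smul_apply, hx k hk]
  have hfin : Finite S := by
    refine Finite.of_injective (fun f : S => fun q : G ⧸ K => (f : G → A) (q.out)⁻¹) ?_
    intro f f' hff'
    apply Subtype.ext
    funext h
    obtain ⟨k, hk⟩ := QuotientGroup.mk_out_eq_mul K h⁻¹
    have h2 : h = (k : G) * ((QuotientGroup.mk h⁻¹ : G ⧸ K).out)⁻¹ := by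
      rw [hk]; group
    have h3 := congrFun hff' (QuotientGroup.mk h⁻¹ : G ⧸ K)
    simp only at h3
    rw [h2, hinv _ f.2 _ k.2, hinv _ f'.2 _ k.2]
    exact h3
  let B := Module.End A S
  have hB : Finite B := Finite.of_injective (fun f : B => (f : S → S)) DFunLike.coe_injective
  -- the action
  let tr : G → (G → A) →ₗ[A] (G → A) := fun g => LinearMap.funLeft A A (fun h => h * g)
  have htrS : ∀ g, ∀ f ∈ S, tr g f ∈ S := by
    intro g f hf
    induction hf using Submodule.span_induction with
    | mem y hy =>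
      obtain ⟨k, rfl⟩ := hy
      have : tr g (T k) = T (g * k) := by
        funext h
        change t (h * g * k) = t (h * (g * k))
        rw [mul_assoc]
      rw [this]; exact hT _
    | zero => rw [map_zero]; exact S.zero_mem
    | add x y _ _ hx hy => rw [map_add]; exact S.add_mem hx hy
    | smul a x _ hx => rw [map_smul]; exact S.smul_mem _ hx
  let ρ0 : G →* B :=
    { toFun := fun g => (tr g).restrict (htrS g)
      map_one' := by
        ext f h
        simp [tr, LinearMap.funLeft_apply]
      map_mul' := by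
        intro g g'
        ext f h
        change (f : G → A) (h * (g * g')) = (f : G → A) (h * g * g')
        rw [mul_assoc] }
  have hρ0 : ∀ g (f : S) h, ((ρ0 g f : S) : G → A) h = (f : G → A) (h * g) := by
    intro g f h
    rfl
  have hinj : Function.Injective (algebraMap A B) := by
    rw [injective_iff_map_eq_zero]
    intro a ha
    have h2 : π (t (g₁ * g₂)) = 1 := by
      rw [htr, map_mul, hg₁, hg₂]; decide +kernel
    have hu : IsUnit (t (g₁ * g₂)) := by
      have h3 : IsNilpotent (t (g₁ * g₂) - 1) := hπ _ (by rw [map_sub, h2, map_one, sub_self])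
      have := h3.isUnit_one_add
      rwa [add_sub_cancel] at this
    have h4 : ((algebraMap A B a ⟨T g₂, hT g₂⟩ : S) : G → A) g₁ = 0 := by
      rw [ha]; rfl
    have h5 : a * t (g₁ * g₂) = 0 := h4
    exact hu.mul_left_eq_zero.1 h5
  have ht : ∀ g, ρ0 g + χ g • ρ0 g⁻¹ = algebraMap A B (t g) := by
    intro g
    ext ⟨f, hf⟩ h
    change f (h * g) + χ g * f (h * g⁻¹) = t g * f h
    induction hf using Submodule.span_induction generalizing h with
    | mem y hy =>
      obtain ⟨k, rfl⟩ := hy
      change t (h * g * k) + χ g * t (h * g⁻¹ * k) = t g * t (h * k)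
      rw [mul_assoc, hcomm h, mul_assoc h, hcomm h, hcomm h k, ← h1, mul_assoc, mul_assoc]
    | zero => simp
    | add x y _ _ hx hy =>
      simp only [Pi.add_apply]
      linear_combination hx h + hy h
    | smul a x _ hx =>
      simp only [Pi.smul_apply, smul_eq_mul]
      linear_combination a * hx h
  obtain ⟨ρA, e, f, a, b, hMU, hmu, hmap, htrace, hdet, hspan⟩ :=
    ch_structure (B := Module.End A S) hinj ρ0 χ t ht π hπ rb htr g₁ g₂ hg₁ hg₂
  refine ⟨ρA, hmap, htrace, hdet, ?_, fun X => eq_zero_of_trace hspan⟩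
  intro k hk
  have : ρA k - 1 = 0 := by
    apply eq_zero_of_trace hspan
    intro g
    rw [sub_mul, one_mul, Matrix.trace_sub, ← map_mul, htrace, htrace, hcomm, hk, sub_self]
  exact sub_eq_zero.1 this

end Fermat.Agent.ZThm
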