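import Fermat.Agent.ZThm.Step4

/-!
# Theorem Z, Step 4: conclusion
-/

set_option autoImplicit false

namespace Fermat.Agent.ZThm

open Matrix

local notation "Qb" => AlgebraicClosure ℚ
local notation "GQ" => AlgebraicClosure ℚ ≃ₐ[ℚ] AlgebraicClosure ℚ

attribute [local instance] algZ

variable {T Λ : Type} [CommRing T] [Algebra ℤ_[2] T] [Module.Finite ℤ_[2] T]
  [AddCommGroup Λ] [Module T Λ] [Module ℤ_[2] Λ] [IsScalarTower ℤ_[2] T Λ]
  [Module.Finite ℤ_[2] Λ] [Module.Free ℤ_[2] Λ] [FaithfulSMul T Λ]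
  {ρ : GQ →* Module.End ℤ_[2] Λ} {RE : GQ →* M2 ℤ_[2]} {rb : GQ →* M2 (ZMod 2)} {N : ℕ}
  {Q : Finset ℕ} {k : ℕ} {t : GQ → T}

theorem isUnit_detM (RE : GQ →* M2 ℤ_[2]) (g : GQ) : IsUnit (detM RE g) := by
  have : detM RE g * detM RE g⁻¹ = 1 := by rw [← map_mul, mul_inv_cancel, map_one]
  exact IsUnit.of_mul_eq_one _ this

/-- the product of the three kinds of multipliers -/
theorem lift_pairs {X Y : Type*} [One X] [One Y] {I : Subgroup GQ} {Φ : GQ} {ζ : X} (y : Y)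
    {p : GQ × X} (hp : p ∈ pairs I Φ ζ) :
    ∃ y' : Y, (p.1, (p.2, y')) ∈ pairs I Φ ((ζ, y) : X × Y) := by
  rcases hp with ⟨h, h'⟩ | rfl
  · exact ⟨1, Or.inl ⟨h, by rw [h']; rfl⟩⟩
  · exact ⟨y, Or.inr rfl⟩

omit [Module.Finite ℤ_[2] T] [Module.Finite ℤ_[2] Λ] [Module.Free ℤ_[2] Λ] in
/-- the exact local identities -/
theorem tS_local (ht : ∀ g x, tOp ρ (detM RE) g x = t g • x)
    (hcomm : ∀ g h, ρ h * tOp ρ (detM RE) g = tOp ρ (detM RE) g * ρ h)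
    {D I : Subgroup GQ} {Φ : GQ} {w : Module.End ℤ_[2] Λ} {z : ℤ_[2]} {K : Submodule ℤ_[2] Λ}
    (h : LLoc ρ RE rb k D I Φ w z K) (p q : GQ × (SA t RE k × Module.End ℤ_[2] Λ × ℤ_[2]))
    (hp1 : ∀ x : Λ, p.2.1.1.1 • x = p.2.2.1 x) (hp2 : p.2.1.1.2 = PadicInt.toZModPow k p.2.2.2)
    (hq1 : ∀ x : Λ, q.2.1.1.1 • x = q.2.2.1 x) (hq2 : q.2.1.1.2 = PadicInt.toZModPow k q.2.2.2)
    (hp : (p.1, p.2.2) ∈ pairs I Φ ((w, z) : Module.End ℤ_[2] Λ × ℤ_[2]))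
    (hq : (q.1, q.2.2) ∈ pairs I Φ ((w, z) : Module.End ℤ_[2] Λ × ℤ_[2])) (g : GQ) :
    detM RE q.1 • tS t RE k (p.1 * g * q.1⁻¹) - q.2.1 * tS t RE k (p.1 * g) -
      detM RE q.1 • (p.2.1 * tS t RE k (g * q.1⁻¹)) + p.2.1 * q.2.1 * tS t RE k g = 0 := by
  obtain ⟨σ, ζσ, zσ, cσ⟩ := p
  obtain ⟨τ, ζτ, zτ, cτ⟩ := q
  simp only at hp1 hp2 hq1 hq2 hp hq ⊢
  have hw1 : ∀ (σ : GQ) (z' : Module.End ℤ_[2] Λ) (c : ℤ_[2]),
      (σ, (z', c)) ∈ pairs I Φ ((w, z) : Module.End ℤ_[2] Λ × ℤ_[2]) →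
      (∀ g, z' * ρ g = ρ g * z') ∧ (∀ x, ρ σ x - z' x ∈ K) ∧ (z' = 1 ∨ z' = w) ∧
        (σ, c) ∈ pairs I Φ z := by
    rintro σ z' c (⟨h1, h2⟩ | h1)
    · simp only [Prod.mk_eq_one] at h2
      obtain ⟨rfl, rfl⟩ := h2
      exact ⟨fun g => by rw [one_mul, mul_one], fun x => h.inert _ h1 x, Or.inl rfl, Or.inl ⟨h1, rfl⟩⟩
    · simp only [Prod.mk.injEq] at h1
      obtain ⟨rfl, rfl, rfl⟩ := h1
      exact ⟨h.wρ, h.frob, Or.inr rfl, Or.inr rfl⟩
  obtain ⟨a1, a2, a3, a4⟩ := hw1 _ _ _ hp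
  obtain ⟨b1, b2, b3, b4⟩ := hw1 _ _ _ hq
  have hzz : zσ * zτ = zτ * zσ := by
    rcases a3 with rfl | rfl <;> rcases b3 with rfl | rfl <;> simp
  have key1 := local_identity ρ (detM RE) hcomm K h.nostable σ τ zσ zτ a1 b1 hzz a2 b2 g
  have key2 := ell_identity RE (σ, cσ) (τ, cτ) k (h.ell _ a4 _ b4) g
  apply tS_ext (Λ := Λ)
  · intro x
    change (detM RE τ • t (σ * g * τ⁻¹) - ζτ.1.1 * t (σ * g) - detM RE τ • (ζσ.1.1 * t (g * τ⁻¹)) +
      ζσ.1.1 * ζτ.1.1 * t g) • x = (0 : T) • x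
    have h1 := LinearMap.congr_fun key1 x
    simp only [LinearMap.add_apply, LinearMap.sub_apply, LinearMap.smul_apply,
      Module.End.mul_apply, ht, LinearMap.zero_apply] at h1
    rw [zero_smul, add_smul, sub_smul, sub_smul, smul_assoc, smul_assoc, mul_smul, mul_smul, mul_smul,
      mul_smul, hq1, hp1, hp1, hq1]
    exact h1
  · obtain ⟨d, hd⟩ := key2
    have h1 := congrArg (PadicInt.toZModPow (p := 2) k) hd
    have h0 : (2 : ZMod (2 ^ k)) ^ k = 0 := by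
      have := ZMod.natCast_self (2 ^ k)
      exact_mod_cast this
    have hz0 : PadicInt.toZModPow (p := 2) k ((2 : ℤ_[2]) ^ k * d) = 0 := by
      rw [map_mul, map_pow, map_ofNat, h0, zero_mul]
    rw [hz0] at h1
    simp only [map_add, map_sub, map_mul] at h1
    change PadicInt.toZModPow k (detM RE τ) * PadicInt.toZModPow k (RE (σ * g * τ⁻¹)).trace -
      ζτ.1.2 * PadicInt.toZModPow k (RE (σ * g)).trace -
      PadicInt.toZModPow k (detM RE τ) * (ζσ.1.2 * PadicInt.toZModPow k (RE (g * τ⁻¹)).trace) +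
      ζσ.1.2 * ζτ.1.2 * PadicInt.toZModPow k (RE g).trace = 0
    rw [hp2, hq2]
    simpa only [map_mul] using h1

/-- the multiplier as an element of the trace algebra -/
theorem exists_zeta (ht : ∀ g x, tOp ρ (detM RE) g x = t g • x)
    (hcomm : ∀ g h, ρ h * tOp ρ (detM RE) g = tOp ρ (detM RE) g * ρ h) (hk : k ≠ 0)
    (hred : ∀ g, (RE g).map PadicInt.toZMod = rb g)
    (hnil : ∀ g, ∃ n : ℕ, ∀ x, ∃ y,
      ((tOp ρ (detM RE) g - (RE g).trace • (1 : Module.End ℤ_[2] Λ)) ^ n) x = (2 : ℤ_[2]) • y)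
    (hdet : ∀ g, (rb g).det = 1)
    (g₁ g₂ : GQ) (hg₁ : rb g₁ = !![1, 1; 0, 1]) (hg₂ : rb g₂ = !![1, 0; 1, 1])
    {D I : Subgroup GQ} {Φ : GQ} {w : Module.End ℤ_[2] Λ} {z : ℤ_[2]} {K : Submodule ℤ_[2] Λ}
    (h : LLoc ρ RE rb k D I Φ w z K) :
    ∃ ζ : SA t RE k, (∀ x : Λ, ζ.1.1 • x = w x) ∧ ζ.1.2 = PadicInt.toZModPow k z ∧
      ∃ s₀ ∈ D, rb s₀ ≠ 1 ∧ (s₀ ∈ I ∨ (s₀ = Φ ∧ ζ = 1)) := by
  have hfin : Module.Finite ℤ_[2] (SA t RE k) := finite_SA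
  obtain ⟨s₀, hs₀, hs₀1, hs₀I⟩ := h.s0
  rcases hs₀I with hs₀I | ⟨rfl, hw, hz⟩
  swap
  · refine ⟨1, fun x => ?_, ?_, s₀, hs₀, hs₀1, Or.inr ⟨rfl, rfl⟩⟩
    · rw [hw]; exact one_smul _ _
    · rw [hz, map_one]; rfl
  -- choose `g`
  obtain ⟨a, b, c, d, habcd⟩ := exists_trace_ne (rb s₀) (hdet s₀) hs₀1
  set g : GQ := g₁ ^ (a : ℕ) * g₂ ^ (b : ℕ) * g₁ ^ (c : ℕ) * g₂ ^ (d : ℕ) with hg
  have hinv : rb s₀⁻¹ = (rb s₀).adjugate := by
    have h1 : rb s₀ * (rb s₀).adjugate = 1 := by rw [Matrix.mul_adjugate, hdet, one_smul]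
    calc rb s₀⁻¹ = rb s₀⁻¹ * (rb s₀ * (rb s₀).adjugate) := by rw [h1, mul_one]
      _ = (rb s₀).adjugate := by rw [← mul_assoc, ← map_mul, inv_mul_cancel, map_one, one_mul]
  set u : SA t RE k := detM RE s₀ • tS t RE k (g * s₀⁻¹) - tS t RE k g with hu
  set v : SA t RE k := detM RE s₀ • tS t RE k (Φ * g * s₀⁻¹) - tS t RE k (Φ * g) with hv
  have hπu : piS t RE k hk u = 1 := by
    rw [hu, map_sub, piS_smul hk _ (isUnit_detM RE _), piS_tS hk hred, piS_tS hk hred, map_mul rb,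
      hinv, hg, map_mul, map_mul, map_mul, map_pow, map_pow, map_pow, map_pow, hg₁, hg₂]
    exact habcd
  have hunit : IsUnit u := isUnit_of_pi (piS t RE k hk) (tS t RE k)
    (tS_nil ht hnil) tS_gen hπu
  obtain ⟨u', hu'⟩ := hunit.exists_left_inv
  have hpΦ : (Φ, (w, z)) ∈ pairs I Φ ((w, z) : Module.End ℤ_[2] Λ × ℤ_[2]) := Or.inr rfl
  have hps : (s₀, ((1 : Module.End ℤ_[2] Λ), (1 : ℤ_[2]))) ∈
      pairs I Φ ((w, z) : Module.End ℤ_[2] Λ × ℤ_[2]) := Or.inl ⟨hs₀I, rfl⟩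
  -- operator identity
  have key1 := local_identity ρ (detM RE) hcomm K h.nostable Φ s₀ w 1 h.wρ
    (fun g => by rw [one_mul, mul_one]) (by rw [one_mul, mul_one]) h.frob (h.inert _ hs₀I) g
  have hwt : ∀ g x, w (t g • x) = t g • w x := by
    intro g x
    rw [← ht, ← ht]
    simp only [tOp, LinearMap.add_apply, LinearMap.smul_apply, map_add, map_smul]
    have e : ∀ g x, w (ρ g x) = ρ g (w x) := fun g x => LinearMap.congr_fun (h.wρ g) x
    rw [e, e]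
  have hop : ∀ x : Λ, u.1.1 • w x = v.1.1 • x := by
    intro x
    have h1 := LinearMap.congr_fun key1 x
    simp only [LinearMap.add_apply, LinearMap.sub_apply, LinearMap.smul_apply,
      Module.End.mul_apply, ht, LinearMap.zero_apply, one_mul, mul_one, hwt] at h1
    change (detM RE s₀ • t (g * s₀⁻¹) - t g) • w x =
      (detM RE s₀ • t (Φ * g * s₀⁻¹) - t (Φ * g)) • x
    rw [sub_smul, sub_smul, smul_assoc, smul_assoc, ← sub_eq_zero, ← neg_eq_zero, ← h1]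
    abel
  have hsec : v.1.2 = PadicInt.toZModPow k z * u.1.2 := by
    have key2 := ell_identity RE (Φ, z) (s₀, 1) k (h.ell _ (Or.inr rfl) _ (Or.inl ⟨hs₀I, rfl⟩)) g
    obtain ⟨d, hd⟩ := key2
    have h1 := congrArg (PadicInt.toZModPow (p := 2) k) hd
    have h0 : (2 : ZMod (2 ^ k)) ^ k = 0 := by
      have := ZMod.natCast_self (2 ^ k)
      exact_mod_cast this
    have hz0 : PadicInt.toZModPow (p := 2) k ((2 : ℤ_[2]) ^ k * d) = 0 := by
      rw [map_mul, map_pow, map_ofNat, h0, zero_mul]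
    rw [hz0] at h1
    simp only [map_add, map_sub, map_mul, one_mul, mul_one] at h1
    change PadicInt.toZModPow k (detM RE s₀) * PadicInt.toZModPow k (RE (Φ * g * s₀⁻¹)).trace -
      PadicInt.toZModPow k (RE (Φ * g)).trace = PadicInt.toZModPow k z *
      (PadicInt.toZModPow k (detM RE s₀) * PadicInt.toZModPow k (RE (g * s₀⁻¹)).trace -
        PadicInt.toZModPow k (RE g).trace)
    simp only [map_mul]
    linear_combination h1
  refine ⟨u' * v, fun x => ?_, ?_, s₀, hs₀, hs₀1, Or.inl hs₀I⟩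
  · change (u'.1.1 * v.1.1) • x = w x
    rw [mul_smul, ← hop, ← mul_smul]
    have h1 : u'.1.1 * u.1.1 = 1 := congrArg (fun a : SA t RE k => a.1.1) hu'
    rw [h1, one_smul]
  · change u'.1.2 * v.1.2 = _
    have h1 : u'.1.2 * u.1.2 = 1 := congrArg (fun a : SA t RE k => a.1.2) hu'
    rw [hsec]
    linear_combination (PadicInt.toZModPow k z) * h1

theorem tS_mloc (ht : ∀ g x, tOp ρ (detM RE) g x = t g • x)
    (hcomm : ∀ g h, ρ h * tOp ρ (detM RE) g = tOp ρ (detM RE) g * ρ h) (hk : k ≠ 0)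
    (hred : ∀ g, (RE g).map PadicInt.toZMod = rb g)
    (hnil : ∀ g, ∃ n : ℕ, ∀ x, ∃ y,
      ((tOp ρ (detM RE) g - (RE g).trace • (1 : Module.End ℤ_[2] Λ)) ^ n) x = (2 : ℤ_[2]) • y)
    (hdet : ∀ g, (rb g).det = 1)
    (g₁ g₂ : GQ) (hg₁ : rb g₁ = !![1, 1; 0, 1]) (hg₂ : rb g₂ = !![1, 0; 1, 1])
    {D I : Subgroup GQ} {Φ : GQ} {w : Module.End ℤ_[2] Λ} {z : ℤ_[2]} {K : Submodule ℤ_[2] Λ}
    (h : LLoc ρ RE rb k D I Φ w z K) : MLoc rb (tS t RE k) D I := by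
  obtain ⟨ζ, hζ1, hζ2, hs₀⟩ := exists_zeta (t := t) ht hcomm hk hred hnil hdet g₁ g₂ hg₁ hg₂ h
  refine ⟨Φ, h.memD, ζ, ?_, hs₀, h.gen, ?_⟩
  · have : ζ * ζ = 1 := by
      apply tS_ext (Λ := Λ)
      · intro x
        change (ζ.1.1 * ζ.1.1) • x = (1 : T) • x
        rw [mul_smul, hζ1, hζ1, one_smul]
        exact LinearMap.congr_fun h.ww x
      · change ζ.1.2 * ζ.1.2 = 1
        rw [hζ2, ← map_mul, h.zz, map_one]
    rw [this, sub_self]
    exact dvd_zero _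
  · intro p hp q hq g
    have hl : ∀ p ∈ pairs I Φ ζ, ∃ y : Module.End ℤ_[2] Λ × ℤ_[2],
        (p.1, y) ∈ pairs I Φ ((w, z) : Module.End ℤ_[2] Λ × ℤ_[2]) ∧
        (∀ x : Λ, p.2.1.1 • x = y.1 x) ∧ p.2.1.2 = PadicInt.toZModPow k y.2 := by
      rintro p (⟨h1, h2⟩ | rfl)
      · refine ⟨1, Or.inl ⟨h1, rfl⟩, fun x => ?_, ?_⟩
        · rw [h2]; exact one_smul _ _
        · rw [h2, Prod.snd_one, map_one]; rfl
      · exact ⟨(w, z), Or.inr rfl, hζ1, hζ2⟩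
    obtain ⟨y, hy, hy1, hy2⟩ := hl p hp
    obtain ⟨y', hy', hy1', hy2'⟩ := hl q hq
    have key := tS_local ht hcomm h (p.1, p.2, y) (q.1, q.2, y') hy1 hy2 hy1' hy2' hy hy' g
    simp only at key
    obtain ⟨c', hc'⟩ := unit_eq_one_add (isUnit_detM RE q.1)
    have hs : ∀ a : SA t RE k, detM RE q.1 • a = a + 2 * (c' • a) := by
      intro a
      rw [hc', add_smul, one_smul, mul_smul, Algebra.smul_def (2 : ℤ_[2]), map_ofNat]
    rw [hs, hs] at key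
    refine ⟨c' • (p.2 * tS t RE k (g * q.1⁻¹)) - c' • tS t RE k (p.1 * g * q.1⁻¹), ?_⟩
    linear_combination key

theorem two_pow_finrank_le {T : Type} [CommRing T] [Algebra ℤ_[2] T] [Module.Finite ℤ_[2] T]
    [Module.Free ℤ_[2] T] : 2 ^ Module.finrank ℤ_[2] T ≤ Nat.card (Q2 T) := by
  classical
  have hfin : Finite (Q2 T) := finite_q2
  let β := Module.Free.chooseBasis ℤ_[2] T
  let f : (Module.Free.ChooseBasisIndex ℤ_[2] T → ZMod 2) → Q2 T :=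
    fun v => Ideal.Quotient.mk _ (∑ i, ((v i).val : ℤ_[2]) • β i)
  have hinj : Function.Injective f := by
    intro v v' h
    have h1 := Ideal.mem_span_singleton.1 (Ideal.Quotient.eq.1 h)
    obtain ⟨a, ha⟩ := h1
    rw [← Finset.sum_sub_distrib] at ha
    funext i
    have h2 := congrArg (fun x => β.repr x i) ha
    have h3 : (2 : T) * a = (2 : ℤ_[2]) • a := by rw [Algebra.smul_def, map_ofNat]
    simp only [h3, ← sub_smul, map_sum, map_smul, Module.Basis.repr_self, Finsupp.coe_finsetSum,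
      Finsupp.smul_apply, Finset.sum_apply, Finsupp.smul_single, smul_eq_mul, mul_one,
      Finsupp.single_apply, Finset.sum_ite_eq', Finset.mem_univ, if_true] at h2
    have h4 := congrArg (PadicInt.toZMod (p := 2)) h2
    rw [toZMod_two_mul, map_sub, map_natCast, map_natCast, ZMod.natCast_val, ZMod.natCast_val,
      ZMod.cast_id, ZMod.cast_id, sub_eq_zero] at h4
    exact h4
  have h1 := Nat.card_le_card_of_injective f hinj
  rwa [Nat.card_fun, Nat.card_zmod, Nat.card_eq_fintype_card (α := Module.Free.ChooseBasisIndex ℤ_[2] T),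
    ← Module.finrank_eq_card_basis β] at h1

theorem card_SA_le (ht : ∀ g x, tOp ρ (detM RE) g x = t g • x)
    (h : Lat ρ RE rb N Q k) (hk : k ≠ 0)
    (hsel : SelZero rb N Q) (hdet0 : ∀ g, (rb g).det = 1)
    (g₁ g₂ : GQ) (hg₁ : rb g₁ = !![1, 1; 0, 1]) (hg₂ : rb g₂ = !![1, 0; 1, 1]) (c : ℕ)
    (hV : ∀ V : Subgroup GQ, V ≤ evenSub rb hdet0 →
      (∃ L : IntermediateField ℚ Qb, FiniteDimensional ℚ L ∧ ∀ σ : GQ, (∀ x ∈ L, σ x = x) → σ ∈ V) →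
      (∀ a ∈ evenSub rb hdet0, ∀ b ∈ V, a * b * a⁻¹ ∈ V) →
      (∀ a ∈ evenSub rb hdet0, ∀ b ∈ evenSub rb hdet0, a * b * a⁻¹ * b⁻¹ ∈ V) →
      (∃ k : ℕ, ∀ a ∈ evenSub rb hdet0, a ^ (2 ^ k) ∈ V) →
      (∀ ℓ : ℕ, ℓ.Prime → ∀ B : ValuationSubring Qb, B.LiesOverPrime ℓ →
        ∀ g ∈ B.inertiaSubgroupIn ℚ, g ∈ evenSub rb hdet0 → g ∈ V) →
      V.relIndex (evenSub rb hdet0) ≤ c) :
    Nat.card (Q2 (SA t RE k)) ≤ 2 ^ c := by
  have hfin : Module.Finite ℤ_[2] (SA t RE k) := finite_SA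
  obtain ⟨hdet, V, hVle, hV1, hV2, hV3, hV4, hV5, hV6⟩ := mod2_count (R := SA t RE k)
    (π₀ := piS t RE k hk) hsel (detM RE) (tS t RE k)
    (piS_tS hk h.red) (tS_nil ht h.nil) (tS_mul ht h.comm) (tS_comm ht h.comm)
    (tS_smooth ht h.smooth) tS_gen g₁ g₂ hg₁ hg₂
    (by
      intro ℓ hℓ hℓN hℓQ B hB s hs g
      obtain ⟨h1, h2⟩ := h.unram ℓ hℓ hℓN hℓQ B hB s hs
      have h1' : ρ s⁻¹ = 1 := by
        have : ρ s * ρ s⁻¹ = 1 := by rw [← map_mul, mul_inv_cancel, map_one]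
        rwa [h1, one_mul] at this
      apply tS_ext (Λ := Λ)
      · intro x
        change t (g * s) • x = t g • x
        rw [← ht, ← ht, tOp, tOp, map_mul ρ, h1, mul_one, map_mul (detM RE),
          show detM RE s = 1 by rw [detM_apply, h2, Matrix.det_one], mul_one, _root_.mul_inv_rev,
          map_mul ρ, h1', one_mul]
      · change PadicInt.toZModPow k (RE (g * s)).trace = PadicInt.toZModPow k (RE g).trace
        rw [map_mul, h2, mul_one])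
    (by
      intro v hv hvN B hB
      obtain ⟨Φ, w, z, K, hloc⟩ := h.loc v hv hvN B hB
      exact tS_mloc ht h.comm hk h.red h.nil hdet0 g₁ g₂ hg₁ hg₂ hloc)
  have hrel := hV V hVle hV1 hV2 hV3 hV4 hV5
  exact hV6.trans (Nat.pow_le_pow_right (by norm_num) hrel)

/-- the torsion-free trace algebra is free -/
theorem free_T (Λ : Type) [AddCommGroup Λ] [Module T Λ] [Module ℤ_[2] Λ] [IsScalarTower ℤ_[2] T Λ]
    [Module.Finite ℤ_[2] Λ] [Module.Free ℤ_[2] Λ] [FaithfulSMul T Λ] : Module.Free ℤ_[2] T := by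
  have htf : Module.IsTorsionFree ℤ_[2] T := by
    rw [Module.isTorsionFree_iff_smul_eq_zero]
    intro c a hca
    by_contra hcon
    push Not at hcon
    obtain ⟨hc0, ha0⟩ := hcon
    apply ha0
    apply FaithfulSMul.eq_of_smul_eq_smul (α := Λ)
    intro x
    have h1 : c • (a • x) = 0 := by rw [← smul_assoc, hca, zero_smul]
    rw [zero_smul]
    exact (smul_eq_zero.1 h1).resolve_left hc0
  exact Module.free_of_finite_type_torsion_free'

/-- the projection from the combined trace algebra -/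
noncomputable def prS (t : GQ → T) (RE : GQ →* M2 ℤ_[2]) (k : ℕ) : SA t RE k →ₐ[ℤ_[2]] T :=
  (AlgHom.fst ℤ_[2] T (ZMod (2 ^ k))).comp (SA t RE k).val

omit [Module.Finite ℤ_[2] T] in
theorem prS_surjective (hgenT : Algebra.adjoin ℤ_[2] (Set.range t) = ⊤) :
    Function.Surjective (prS t RE k) := by
  rw [← AlgHom.range_eq_top, eq_top_iff, ← hgenT]
  refine Algebra.adjoin_le ?_
  rintro _ ⟨g, rfl⟩
  exact ⟨tS t RE k g, rfl⟩

theorem exists_prQ (hgenT : Algebra.adjoin ℤ_[2] (Set.range t) = ⊤) :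
    ∃ fb : Q2 (SA t RE k) →+* Q2 T, Function.Surjective fb ∧
      ∀ a, fb (Ideal.Quotient.mk _ a) = Ideal.Quotient.mk _ (prS t RE k a) := by
  let fb : Q2 (SA t RE k) →+* Q2 T := Ideal.quotientMap _ (prS t RE k).toRingHom (by
    rw [Ideal.span_le]
    rintro _ rfl
    change (prS t RE k).toRingHom 2 ∈ Ideal.span {(2 : T)}
    rw [map_ofNat]
    exact Ideal.mem_span_singleton_self _)
  refine ⟨fb, ?_, fun a => rfl⟩
  intro y
  obtain ⟨y, rfl⟩ := Ideal.Quotient.mk_surjective y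
  obtain ⟨x, rfl⟩ := prS_surjective (RE := RE) (k := k) hgenT y
  exact ⟨Ideal.Quotient.mk _ x, rfl⟩

theorem step4_aux (ht : ∀ g x, tOp ρ (detM RE) g x = t g • x)
    (hgenT : Algebra.adjoin ℤ_[2] (Set.range t) = ⊤) (h : Lat ρ RE rb N Q k) (hk : k ≠ 0)
    (hsel : SelZero rb N Q) (hdet0 : ∀ g, (rb g).det = 1)
    (g₁ g₂ : GQ) (hg₁ : rb g₁ = !![1, 1; 0, 1]) (hg₂ : rb g₂ = !![1, 0; 1, 1]) (c : ℕ)
    (hV : ∀ V : Subgroup GQ, V ≤ evenSub rb hdet0 →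
      (∃ L : IntermediateField ℚ Qb, FiniteDimensional ℚ L ∧ ∀ σ : GQ, (∀ x ∈ L, σ x = x) → σ ∈ V) →
      (∀ a ∈ evenSub rb hdet0, ∀ b ∈ V, a * b * a⁻¹ ∈ V) →
      (∀ a ∈ evenSub rb hdet0, ∀ b ∈ evenSub rb hdet0, a * b * a⁻¹ * b⁻¹ ∈ V) →
      (∃ k : ℕ, ∀ a ∈ evenSub rb hdet0, a ^ (2 ^ k) ∈ V) →
      (∀ ℓ : ℕ, ℓ.Prime → ∀ B : ValuationSubring Qb, B.LiesOverPrime ℓ →
        ∀ g ∈ B.inertiaSubgroupIn ℚ, g ∈ evenSub rb hdet0 → g ∈ V) →
      V.relIndex (evenSub rb hdet0) ≤ c)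
    (hc : c ≤ Module.finrank ℤ_[2] T) :
    ∃ lam : T →ₐ[ℤ_[2]] ZMod (2 ^ k), ∀ g, lam (t g) = PadicInt.toZModPow k (RE g).trace := by
  have hfin : Module.Finite ℤ_[2] (SA t RE k) := finite_SA
  have hfree : Module.Free ℤ_[2] T := free_T Λ
  have htf : Module.IsTorsionFree ℤ_[2] T := inferInstance
  have hcard : Nat.card (Q2 (SA t RE k)) ≤ Nat.card (Q2 T) :=
    calc Nat.card (Q2 (SA t RE k)) ≤ 2 ^ c :=
          card_SA_le ht h hk hsel hdet0 g₁ g₂ hg₁ hg₂ c hV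
      _ ≤ 2 ^ Module.finrank ℤ_[2] T := Nat.pow_le_pow_right (by norm_num) hc
      _ ≤ _ := two_pow_finrank_le
  -- the projection
  let f : SA t RE k →ₐ[ℤ_[2]] T := (AlgHom.fst ℤ_[2] T (ZMod (2 ^ k))).comp (SA t RE k).val
  have hft : ∀ g, f (tS t RE k g) = t g := fun g => rfl
  have hfsurj : Function.Surjective f := by
    rw [← AlgHom.range_eq_top, eq_top_iff, ← hgenT]
    refine Algebra.adjoin_le ?_
    rintro _ ⟨g, rfl⟩
    exact ⟨tS t RE k g, hft g⟩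
  have hfin1 : Finite (Q2 (SA t RE k)) := finite_q2
  have hfin2 : Finite (Q2 T) := finite_q2
  let fb : Q2 (SA t RE k) →+* Q2 T := Ideal.quotientMap _ f.toRingHom (by
    rw [Ideal.span_le]
    rintro _ rfl
    change f.toRingHom 2 ∈ Ideal.span {(2 : T)}
    rw [map_ofNat]
    exact Ideal.mem_span_singleton_self _)
  have hfb : ∀ a, fb (Ideal.Quotient.mk _ a) = Ideal.Quotient.mk _ (f a) := fun a => rfl
  have hfbsurj : Function.Surjective fb := by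
    intro y
    obtain ⟨y, rfl⟩ := Ideal.Quotient.mk_surjective y
    obtain ⟨x, rfl⟩ := hfsurj y
    exact ⟨Ideal.Quotient.mk _ x, hfb x⟩
  have hfbinj : Function.Injective fb := by
    have h1 : Function.Bijective fb := by
      refine (Nat.bijective_iff_surjective_and_card fb).2 ⟨hfbsurj, ?_⟩
      exact le_antisymm hcard (Nat.card_le_card_of_surjective fb hfbsurj)
    exact h1.1
  have hker : LinearMap.ker f.toLinearMap = ⊥ := by
    have hnoeth : IsNoetherian ℤ_[2] (SA t RE k) := isNoetherian_of_isNoetherianRing_of_finite _ _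
    refine Submodule.eq_bot_of_le_smul_of_le_jacobson_bot (Ideal.span {(2 : ℤ_[2])}) _
      (IsNoetherian.noetherian _) ?_ ?_
    · intro a ha
      have ha' : f a = 0 := ha
      have h1 : (Ideal.Quotient.mk _ a : Q2 (SA t RE k)) = 0 := by
        apply hfbinj
        rw [hfb, ha', map_zero, map_zero]
      rw [Ideal.Quotient.eq_zero_iff_mem, Ideal.mem_span_singleton] at h1
      obtain ⟨a', rfl⟩ := h1
      have h2 : f a' = 0 := by
        rw [map_mul, map_ofNat] at ha'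
        have h3 : (2 : ℤ_[2]) • f a' = 0 := by
          rw [Algebra.smul_def, map_ofNat]; exact ha'
        exact (smul_eq_zero.1 h3).resolve_left (by norm_num)
      have h4 : (2 : SA t RE k) * a' = (2 : ℤ_[2]) • a' := by rw [Algebra.smul_def, map_ofNat]
      rw [h4]
      exact Submodule.smul_mem_smul (Ideal.mem_span_singleton_self _) h2
    · rw [IsLocalRing.jacobson_eq_maximalIdeal ⊥ bot_ne_top, PadicInt.maximalIdeal_eq_span_p]
      simp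
  have hfinj : Function.Injective f := LinearMap.ker_eq_bot.1 hker
  let e : SA t RE k ≃ₐ[ℤ_[2]] T := AlgEquiv.ofBijective f ⟨hfinj, hfsurj⟩
  refine ⟨((AlgHom.snd ℤ_[2] T (ZMod (2 ^ k))).comp (SA t RE k).val).comp e.symm.toAlgHom, fun g => ?_⟩
  have h1 : e.symm (t g) = tS t RE k g := by
    rw [AlgEquiv.symm_apply_eq]
    exact (hft g).symm
  change (e.symm (t g)).1.2 = _
  rw [h1]
  rfl

theorem finrank_T_le (ht : ∀ g x, tOp ρ (detM RE) g x = t g • x)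
    (hgenT : Algebra.adjoin ℤ_[2] (Set.range t) = ⊤) (h : Lat ρ RE rb N Q k) (hk : k ≠ 0)
    (hsel : SelZero rb N Q) (hdet0 : ∀ g, (rb g).det = 1)
    (g₁ g₂ : GQ) (hg₁ : rb g₁ = !![1, 1; 0, 1]) (hg₂ : rb g₂ = !![1, 0; 1, 1]) (c : ℕ)
    (hV : ∀ V : Subgroup GQ, V ≤ evenSub rb hdet0 →
      (∃ L : IntermediateField ℚ Qb, FiniteDimensional ℚ L ∧ ∀ σ : GQ, (∀ x ∈ L, σ x = x) → σ ∈ V) →
      (∀ a ∈ evenSub rb hdet0, ∀ b ∈ V, a * b * a⁻¹ ∈ V) →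
      (∀ a ∈ evenSub rb hdet0, ∀ b ∈ evenSub rb hdet0, a * b * a⁻¹ * b⁻¹ ∈ V) →
      (∃ k : ℕ, ∀ a ∈ evenSub rb hdet0, a ^ (2 ^ k) ∈ V) →
      (∀ ℓ : ℕ, ℓ.Prime → ∀ B : ValuationSubring Qb, B.LiesOverPrime ℓ →
        ∀ g ∈ B.inertiaSubgroupIn ℚ, g ∈ evenSub rb hdet0 → g ∈ V) →
      V.relIndex (evenSub rb hdet0) ≤ c) :
    Module.finrank ℤ_[2] T ≤ c := by
  have hfin : Module.Finite ℤ_[2] (SA t RE k) := finite_SA
  have hfree : Module.Free ℤ_[2] T := free_T Λ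
  have hfin1 : Finite (Q2 (SA t RE k)) := finite_q2
  obtain ⟨fb, hfb, -⟩ := exists_prQ (RE := RE) (k := k) hgenT
  have h1 : 2 ^ Module.finrank ℤ_[2] T ≤ 2 ^ c :=
    calc 2 ^ Module.finrank ℤ_[2] T ≤ Nat.card (Q2 T) := two_pow_finrank_le
      _ ≤ Nat.card (Q2 (SA t RE k)) := Nat.card_le_card_of_surjective fb hfb
      _ ≤ 2 ^ c := card_SA_le ht h hk hsel hdet0 g₁ g₂ hg₁ hg₂ c hV
  exact (Nat.pow_le_pow_iff_right (by norm_num)).1 h1

end Fermat.Agent.ZThm
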